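/-
helper71, S25 (Jacobian exists), package LB = "concrete line bundles on a two-chart curve".
INTERFACE FILE (types only + a few statements).  Plan: NOTES/plan/S25.md.

* `CurveDatum k`: the affine shadow of a curve `C` with a finite map `x0 : C → P^1`:
  `B0 = Γ(x0 ≠ ∞)`, `B1 = Γ(x0 ≠ 0)`, `B01 = Γ(overlap)`, `x0 ∈ B0`, `z1 = 1/x0 ∈ B1`, and the base point
  `e : B1 → k` (a point with `x0 = ∞`).
* `Triple 𝒞 R`: a line bundle on `C_R`, as modules `P0`, `P1`, `P01` over `R ⊗ B0`, `R ⊗ B1`, `R ⊗ B01` with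
  restriction maps `r0`, `r1` which are localisations.
* `Triple.toData : P1.Data R`: forget everything but the action of `x0`; the cohomology of the triple is the
  Cech cohomology `H0`, `H1` of `S25/P1/Defs.lean`.
-/
import Fermat.Agent.S25.P1.Defs

set_option autoImplicit false

universe u

open Polynomial TensorProduct

namespace Fermat.Agent.S25.LB

/-- The affine shadow of a curve with a finite map to the projective line. -/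
structure CurveDatum (k : Type u) [Field k] where
  B0 : Type u
  B1 : Type u
  B01 : Type u
  [cr0 : CommRing B0]
  [cr1 : CommRing B1]
  [cr01 : CommRing B01]
  [alg0 : Algebra k B0]
  [alg1 : Algebra k B1]
  [alg01 : Algebra k B01]
  i0 : B0 →ₐ[k] B01
  i1 : B1 →ₐ[k] B01
  x0 : B0
  z1 : B1
  hxz : i0 x0 * i1 z1 = 1
  e : B1 →ₐ[k] k
  he : e z1 = 0

attribute [instance] CurveDatum.cr0 CurveDatum.cr1 CurveDatum.cr01 CurveDatum.alg0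
  CurveDatum.alg1 CurveDatum.alg01

variable {k : Type u} [Field k]

/-- The properties of a curve datum coming from a proper smooth integral curve. -/
structure CurveDatum.IsGood (𝒞 : CurveDatum k) : Prop where
  loc0 : @IsLocalization.Away 𝒞.B0 _ 𝒞.x0 𝒞.B01 _ 𝒞.i0.toRingHom.toAlgebra
  loc1 : @IsLocalization.Away 𝒞.B1 _ 𝒞.z1 𝒞.B01 _ 𝒞.i1.toRingHom.toAlgebra
  dom0 : IsDomain 𝒞.B0
  dom1 : IsDomain 𝒞.B1
  dom01 : IsDomain 𝒞.B01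
  fin0 : (Polynomial.aeval (R := k) 𝒞.x0).toRingHom.Finite
  fin1 : (Polynomial.aeval (R := k) 𝒞.z1).toRingHom.Finite
  trans0 : Function.Injective (Polynomial.aeval (R := k) 𝒞.x0)
  smooth0 : Algebra.Smooth k 𝒞.B0
  smooth1 : Algebra.Smooth k 𝒞.B1
  /-- `H0(C, O) = k`. -/
  h0 : ∀ (b0 : 𝒞.B0) (b1 : 𝒞.B1), 𝒞.i0 b0 = 𝒞.i1 b1 → ∃ c : k, b0 = algebraMap k 𝒞.B0 c

variable (𝒞 : CurveDatum k) (R : Type u) [CommRing R] [Algebra k R]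

/-- The ring map `R ⊗ B0 → R ⊗ B01`. -/
noncomputable def CurveDatum.ι0 : (R ⊗[k] 𝒞.B0) →+* (R ⊗[k] 𝒞.B01) :=
  (Algebra.TensorProduct.map (AlgHom.id R R) 𝒞.i0).toRingHom

/-- The ring map `R ⊗ B1 → R ⊗ B01`. -/
noncomputable def CurveDatum.ι1 : (R ⊗[k] 𝒞.B1) →+* (R ⊗[k] 𝒞.B01) :=
  (Algebra.TensorProduct.map (AlgHom.id R R) 𝒞.i1).toRingHom

/-- The base point `R ⊗ B1 → R`. -/
noncomputable def CurveDatum.eR : (R ⊗[k] 𝒞.B1) →ₐ[R] R :=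
  Algebra.TensorProduct.lift (AlgHom.id R R) ((Algebra.ofId k R).comp 𝒞.e) (fun _ _ => Commute.all _ _)

/-- A concrete line bundle on `C_R`. -/
structure Triple where
  P0 : Type u
  P1 : Type u
  P01 : Type u
  [ag0 : AddCommGroup P0]
  [ag1 : AddCommGroup P1]
  [ag01 : AddCommGroup P01]
  [mod0 : Module (R ⊗[k] 𝒞.B0) P0]
  [mod1 : Module (R ⊗[k] 𝒞.B1) P1]
  [mod01 : Module (R ⊗[k] 𝒞.B01) P01]
  r0 : P0 →ₛₗ[𝒞.ι0 R] P01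
  r1 : P1 →ₛₗ[𝒞.ι1 R] P01
  inv0 : Module.Invertible (R ⊗[k] 𝒞.B0) P0
  inv1 : Module.Invertible (R ⊗[k] 𝒞.B1) P1
  surj0 : ∀ m : P01, ∃ (n : ℕ) (p : P0), ((1 : R) ⊗ₜ[k] 𝒞.i0 𝒞.x0 : R ⊗[k] 𝒞.B01) ^ n • m = r0 p
  ker0 : ∀ p : P0, r0 p = 0 → ∃ n : ℕ, ((1 : R) ⊗ₜ[k] 𝒞.x0 : R ⊗[k] 𝒞.B0) ^ n • p = 0
  surj1 : ∀ m : P01, ∃ (n : ℕ) (p : P1), ((1 : R) ⊗ₜ[k] 𝒞.i1 𝒞.z1 : R ⊗[k] 𝒞.B01) ^ n • m = r1 p
  ker1 : ∀ p : P1, r1 p = 0 → ∃ n : ℕ, ((1 : R) ⊗ₜ[k] 𝒞.z1 : R ⊗[k] 𝒞.B1) ^ n • p = 0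

attribute [instance] Triple.ag0 Triple.ag1 Triple.ag01 Triple.mod0 Triple.mod1 Triple.mod01

variable {𝒞 R}

namespace Triple

/-- Isomorphisms of triples. -/
structure Iso (L L' : Triple 𝒞 R) where
  e0 : L.P0 ≃ₗ[R ⊗[k] 𝒞.B0] L'.P0
  e1 : L.P1 ≃ₗ[R ⊗[k] 𝒞.B1] L'.P1
  e01 : L.P01 ≃ₗ[R ⊗[k] 𝒞.B01] L'.P01
  comm0 : ∀ p, e01 (L.r0 p) = L'.r0 (e0 p)
  comm1 : ∀ p, e01 (L.r1 p) = L'.r1 (e1 p)

/-- Morphisms of triples (= morphisms of the sheaves). -/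
structure Hom (L L' : Triple 𝒞 R) where
  f0 : L.P0 →ₗ[R ⊗[k] 𝒞.B0] L'.P0
  f1 : L.P1 →ₗ[R ⊗[k] 𝒞.B1] L'.P1
  f01 : L.P01 →ₗ[R ⊗[k] 𝒞.B01] L'.P01
  comm0 : ∀ p, f01 (L.r0 p) = L'.r0 (f0 p)
  comm1 : ∀ p, f01 (L.r1 p) = L'.r1 (f1 p)

/-- The triple is rigidified (trivial along the base point `e`): `P1 / I_e P1` is generated by one element,
where `I_e = ker (R ⊗ B1 → R)`.  (An invertible module generated by one element is free.) -/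
def IsRigid (L : Triple 𝒞 R) : Prop :=
  ∃ p : L.P1, ∀ q : L.P1, ∃ a : R ⊗[k] 𝒞.B1,
    q - a • p ∈ (RingHom.ker (𝒞.eR R).toRingHom • (⊤ : Submodule (R ⊗[k] 𝒞.B1) L.P1))

/-- `R` acts on `P0` through `R → R ⊗ B0`. -/
@[reducible] def modR0 (L : Triple 𝒞 R) : Module R L.P0 :=
  Module.compHom L.P0 (algebraMap R (R ⊗[k] 𝒞.B0))

/-- `R` acts on `P1` through `R → R ⊗ B1`. -/
@[reducible] def modR1 (L : Triple 𝒞 R) : Module R L.P1 :=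
  Module.compHom L.P1 (algebraMap R (R ⊗[k] 𝒞.B1))

/-- `R` acts on `P01` through `R → R ⊗ B01`. -/
@[reducible] def modR01 (L : Triple 𝒞 R) : Module R L.P01 :=
  Module.compHom L.P01 (algebraMap R (R ⊗[k] 𝒞.B01))

theorem unit_mul_unit (𝒞 : CurveDatum k) (R : Type u) [CommRing R] [Algebra k R] :
    ((1 : R) ⊗ₜ[k] 𝒞.i0 𝒞.x0 : R ⊗[k] 𝒞.B01) * ((1 : R) ⊗ₜ[k] 𝒞.i1 𝒞.z1) = 1 := by
  rw [Algebra.TensorProduct.tmul_mul_tmul, one_mul, 𝒞.hxz]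
  rfl

/-- The two-chart data of a triple: forget everything but the action of `R` and of `x0`. -/
noncomputable def toData (L : Triple 𝒞 R) : P1.Data R :=
  letI := L.modR0
  letI := L.modR1
  letI := L.modR01
  { N0 := L.P0
    N1 := L.P1
    N01 := L.P01
    X0 :=
      { toFun := fun p => ((1 : R) ⊗ₜ[k] 𝒞.x0 : R ⊗[k] 𝒞.B0) • p
        map_add' := fun p q => smul_add _ p q
        map_smul' := fun r p => by
          change ((1 : R) ⊗ₜ[k] 𝒞.x0 : R ⊗[k] 𝒞.B0) • (algebraMap R (R ⊗[k] 𝒞.B0) r • p) =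
            algebraMap R (R ⊗[k] 𝒞.B0) r • (((1 : R) ⊗ₜ[k] 𝒞.x0 : R ⊗[k] 𝒞.B0) • p)
          rw [smul_smul, smul_smul, mul_comm] }
    Z1 :=
      { toFun := fun p => ((1 : R) ⊗ₜ[k] 𝒞.z1 : R ⊗[k] 𝒞.B1) • p
        map_add' := fun p q => smul_add _ p q
        map_smul' := fun r p => by
          change ((1 : R) ⊗ₜ[k] 𝒞.z1 : R ⊗[k] 𝒞.B1) • (algebraMap R (R ⊗[k] 𝒞.B1) r • p) =
            algebraMap R (R ⊗[k] 𝒞.B1) r • (((1 : R) ⊗ₜ[k] 𝒞.z1 : R ⊗[k] 𝒞.B1) • p)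
          rw [smul_smul, smul_smul, mul_comm] }
    T :=
      { toFun := fun m => ((1 : R) ⊗ₜ[k] 𝒞.i0 𝒞.x0 : R ⊗[k] 𝒞.B01) • m
        invFun := fun m => ((1 : R) ⊗ₜ[k] 𝒞.i1 𝒞.z1 : R ⊗[k] 𝒞.B01) • m
        map_add' := fun p q => smul_add _ p q
        map_smul' := fun r p => by
          change ((1 : R) ⊗ₜ[k] 𝒞.i0 𝒞.x0 : R ⊗[k] 𝒞.B01) • (algebraMap R (R ⊗[k] 𝒞.B01) r • p) =
            algebraMap R (R ⊗[k] 𝒞.B01) r • (((1 : R) ⊗ₜ[k] 𝒞.i0 𝒞.x0 : R ⊗[k] 𝒞.B01) • p)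
          rw [smul_smul, smul_smul, mul_comm]
        left_inv := fun m => by
          change ((1 : R) ⊗ₜ[k] 𝒞.i1 𝒞.z1 : R ⊗[k] 𝒞.B01) •
            (((1 : R) ⊗ₜ[k] 𝒞.i0 𝒞.x0 : R ⊗[k] 𝒞.B01) • m) = m
          rw [smul_smul, mul_comm, unit_mul_unit, one_smul]
        right_inv := fun m => by
          change ((1 : R) ⊗ₜ[k] 𝒞.i0 𝒞.x0 : R ⊗[k] 𝒞.B01) •
            (((1 : R) ⊗ₜ[k] 𝒞.i1 𝒞.z1 : R ⊗[k] 𝒞.B01) • m) = m
          rw [smul_smul, unit_mul_unit, one_smul] }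
    j0 :=
      { toFun := L.r0
        map_add' := map_add _
        map_smul' := fun r p => by
          change L.r0 (algebraMap R (R ⊗[k] 𝒞.B0) r • p) =
            algebraMap R (R ⊗[k] 𝒞.B01) r • L.r0 p
          rw [L.r0.map_smulₛₗ]
          congr 1
          exact (Algebra.TensorProduct.map (AlgHom.id R R) 𝒞.i0).commutes r }
    j1 :=
      { toFun := L.r1
        map_add' := map_add _
        map_smul' := fun r p => by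
          change L.r1 (algebraMap R (R ⊗[k] 𝒞.B1) r • p) =
            algebraMap R (R ⊗[k] 𝒞.B01) r • L.r1 p
          rw [L.r1.map_smulₛₗ]
          congr 1
          exact (Algebra.TensorProduct.map (AlgHom.id R R) 𝒞.i1).commutes r }
    j0_X := fun p => by
      change L.r0 (((1 : R) ⊗ₜ[k] 𝒞.x0 : R ⊗[k] 𝒞.B0) • p) =
        ((1 : R) ⊗ₜ[k] 𝒞.i0 𝒞.x0 : R ⊗[k] 𝒞.B01) • L.r0 p
      rw [L.r0.map_smulₛₗ]
      congr 1
    j1_Z := fun p => by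
      change ((1 : R) ⊗ₜ[k] 𝒞.i0 𝒞.x0 : R ⊗[k] 𝒞.B01) •
        L.r1 (((1 : R) ⊗ₜ[k] 𝒞.z1 : R ⊗[k] 𝒞.B1) • p) = L.r1 p
      rw [L.r1.map_smulₛₗ]
      have h : (𝒞.ι1 R) ((1 : R) ⊗ₜ[k] 𝒞.z1) = ((1 : R) ⊗ₜ[k] 𝒞.i1 𝒞.z1 : R ⊗[k] 𝒞.B01) := rfl
      rw [h, smul_smul, unit_mul_unit, one_smul] }

/-- `H0` of a triple. -/
noncomputable abbrev H0 (L : Triple 𝒞 R) : Submodule R (L.toData.N0 × L.toData.N1) := L.toData.H0

/-- `H1` of a triple. -/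
noncomputable abbrev H1 (L : Triple 𝒞 R) : Type u := L.toData.H1

end Triple

end Fermat.Agent.S25.LB
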