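/-
helper71, S25 package LB: typed statements of the first leaves about triples.  Interface file.
-/
import Fermat.Agent.S25.LB.Defs

set_option autoImplicit false

universe u

open Polynomial TensorProduct

namespace Fermat.Agent.S25.P1

variable {A : Type u} [CommRing A]

/-- Isomorphisms of two-chart data. -/
structure Data.Iso (N N' : Data A) where
  e0 : N.N0 ≃ₗ[A] N'.N0
  e1 : N.N1 ≃ₗ[A] N'.N1
  e01 : N.N01 ≃ₗ[A] N'.N01
  e0_X : ∀ n, e0 (N.X0 n) = N'.X0 (e0 n)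
  e1_Z : ∀ n, e1 (N.Z1 n) = N'.Z1 (e1 n)
  e01_T : ∀ m, e01 (N.T m) = N'.T (e01 m)
  e_j0 : ∀ n, e01 (N.j0 n) = N'.j0 (e0 n)
  e_j1 : ∀ n, e01 (N.j1 n) = N'.j1 (e1 n)

end Fermat.Agent.S25.P1

namespace Fermat.Agent.S25.LB

variable {k : Type u} [Field k]

/-- **LB-VB**: the two-chart data of a triple on a good curve datum is a vector bundle
(`IsLoc` from the localisation fields; `Proj0`: `B0` is finite free over `k[x0]`, so `R ⊗ B0` is finite free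
over `R[X]` and the invertible module `P0` is a direct summand of a finite free `R ⊗ B0`-module). -/
def Stmt_VB : Prop :=
  ∀ (k : Type u) [Field k] (𝒞 : CurveDatum k), 𝒞.IsGood →
    ∀ (R : Type u) [CommRing R] [Algebra k R] (L : Triple 𝒞 R), L.toData.IsVB

/-- **LB-UNIT**: the structure sheaf exists as a triple, with `P_i = R ⊗ B_i` and the obvious maps. -/
def Stmt_UNIT : Prop :=
  ∀ (k : Type u) [Field k] (𝒞 : CurveDatum k), 𝒞.IsGood →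
    ∀ (R : Type u) [CommRing R] [Algebra k R],
      ∃ (L : Triple 𝒞 R) (e0 : L.P0 ≃ₗ[R ⊗[k] 𝒞.B0] (R ⊗[k] 𝒞.B0))
        (e1 : L.P1 ≃ₗ[R ⊗[k] 𝒞.B1] (R ⊗[k] 𝒞.B1))
        (e01 : L.P01 ≃ₗ[R ⊗[k] 𝒞.B01] (R ⊗[k] 𝒞.B01)),
        (∀ p, e01 (L.r0 p) = 𝒞.ι0 R (e0 p)) ∧ (∀ p, e01 (L.r1 p) = 𝒞.ι1 R (e1 p))

/-- **LB-BC**: base change of triples along `φ : R → R'`: a triple `L'` over `R'` with semilinear maps
`L.P_i → L'.P_i` which induce an isomorphism of two-chart data `R' ⊗ toData L ≅ toData L'`. -/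
def Stmt_BC : Prop :=
  ∀ (k : Type u) [Field k] (𝒞 : CurveDatum k), 𝒞.IsGood →
    ∀ (R R' : Type u) [CommRing R] [Algebra k R] [CommRing R'] [Algebra k R'] [Algebra R R']
      [IsScalarTower k R R'] (L : Triple 𝒞 R),
      ∃ (L' : Triple 𝒞 R') (b0 : L.P0 →+ L'.P0) (b1 : L.P1 →+ L'.P1) (b01 : L.P01 →+ L'.P01)
        (E : P1.Data.Iso (L.toData.baseChange R') L'.toData),
        (∀ p, b01 (L.r0 p) = L'.r0 (b0 p)) ∧ (∀ p, b01 (L.r1 p) = L'.r1 (b1 p)) ∧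
        (∀ (a : R') (p : L.P0), E.e0 (a ⊗ₜ[R] p) = algebraMap R' (R' ⊗[k] 𝒞.B0) a • b0 p) ∧
        (∀ (a : R') (p : L.P1), E.e1 (a ⊗ₜ[R] p) = algebraMap R' (R' ⊗[k] 𝒞.B1) a • b1 p) ∧
        (∀ (a : R') (p : L.P01), E.e01 (a ⊗ₜ[R] p) = algebraMap R' (R' ⊗[k] 𝒞.B01) a • b01 p) ∧
        (∀ (c : R ⊗[k] 𝒞.B0) (p : L.P0),
          b0 (c • p) = Algebra.TensorProduct.map (Algebra.ofId R R') (AlgHom.id k 𝒞.B0) c • b0 p) ∧
        (∀ (c : R ⊗[k] 𝒞.B1) (p : L.P1),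
          b1 (c • p) = Algebra.TensorProduct.map (Algebra.ofId R R') (AlgHom.id k 𝒞.B1) c • b1 p)

end Fermat.Agent.S25.LB
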