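/-
helper71, S25 package LB, part E: LINK between the base-change relation `Chart.BC` (helper4, S25/Chart/Defs2.lean) and
the base change of two-chart data (`P1.Data.baseChange`), so that the cohomological statements of package P1 apply to
`BC`-related triples.  Interface file.
-/
import Fermat.Agent.S25.Chart.Defs2
import Fermat.Agent.S25.P1.DefsC

set_option autoImplicit false

universe u

open Polynomial TensorProduct

namespace Fermat.Agent.S25.LB

open Fermat.Agent.S25.Chart

/-- **LB-BCEX**: base changes exist. -/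
def Stmt_BCEX : Prop :=
  ∀ (k : Type u) [Field k] (𝒞 : CurveDatum k), 𝒞.IsGood →
    ∀ (R R' : Type u) [CommRing R] [Algebra k R] [CommRing R'] [Algebra k R'] (φ : R →ₐ[k] R')
      (L : Triple 𝒞 R), ∃ L' : Triple 𝒞 R', Nonempty (BC φ L L')

/-- **LB-BCUNIQ**: base changes are unique up to isomorphism, and isomorphic triples have isomorphic base changes. -/
def Stmt_BCUNIQ : Prop :=
  ∀ (k : Type u) [Field k] (𝒞 : CurveDatum k), 𝒞.IsGood →
    ∀ (R R' : Type u) [CommRing R] [Algebra k R] [CommRing R'] [Algebra k R'] (φ : R →ₐ[k] R')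
      (L M : Triple 𝒞 R) (L' M' : Triple 𝒞 R'), BC φ L L' → BC φ M M' →
      Nonempty (Triple.Iso L M) → Nonempty (Triple.Iso L' M')

/-- **LB-BCCOMP**: base change is transitive, and the identity is a base change. -/
def Stmt_BCCOMP : Prop :=
  ∀ (k : Type u) [Field k] (𝒞 : CurveDatum k), 𝒞.IsGood →
    ∀ (R : Type u) [CommRing R] [Algebra k R] (L : Triple 𝒞 R),
      Nonempty (BC (AlgHom.id k R) L L) ∧
      ∀ (R' R'' : Type u) [CommRing R'] [Algebra k R'] [CommRing R''] [Algebra k R'']
        (φ : R →ₐ[k] R') (ψ : R' →ₐ[k] R'') (L' : Triple 𝒞 R') (L'' : Triple 𝒞 R''),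
        BC φ L L' → BC ψ L' L'' → Nonempty (BC (ψ.comp φ) L L'')

/-- **LB-BCDATA**: the two-chart data of a base change is the base change of the two-chart data. -/
def Stmt_BCDATA : Prop :=
  ∀ (k : Type u) [Field k] (𝒞 : CurveDatum k), 𝒞.IsGood →
    ∀ (R R' : Type u) [CommRing R] [Algebra k R] [CommRing R'] [Algebra k R'] (φ : R →ₐ[k] R')
      (L : Triple 𝒞 R) (L' : Triple 𝒞 R'), BC φ L L' →
      letI : Algebra R R' := φ.toRingHom.toAlgebra
      Nonempty (P1.Data.Iso (L.toData.baseChange R') L'.toData)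

/-- **LB-ISODATA**: isomorphic triples have isomorphic two-chart data. -/
def Stmt_ISODATA : Prop :=
  ∀ (k : Type u) [Field k] (𝒞 : CurveDatum k)
    (R : Type u) [CommRing R] [Algebra k R] (L L' : Triple 𝒞 R),
    Triple.Iso L L' → Nonempty (P1.Data.Iso L.toData L'.toData)

/-- The fibre of a triple at a `k`-point `t` has `H1 = 0`, in terms of any base change `Lt`. -/
def Stmt_FIBK : Prop :=
  ∀ (k : Type u) [Field k] (𝒞 : CurveDatum k), 𝒞.IsGood →
    ∀ (R : Type u) [CommRing R] [Algebra k R] (L : Triple 𝒞 R) (t : R →ₐ[k] k) (Lt : Triple 𝒞 k),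
      BC t L Lt → Subsingleton Lt.H1 →
      ∃ r : R, t r ≠ 0 ∧ ∀ Lr : Triple 𝒞 (Localization.Away r), BC (awayMap r) L Lr →
        Subsingleton Lr.H1 ∧ Module.Finite (Localization.Away r) Lr.H0 ∧
          Module.Projective (Localization.Away r) Lr.H0

end Fermat.Agent.S25.LB
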