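/-
S25 (row 24), package LB, leaf LB-TENS (helper60), part 1: the abstract chart.

A *chart* is a ring map `φ : S → S'` which is the localisation at one element `x` (`IsLocRing`),
and a `φ`-semilinear map `r : P → P'` of modules which is the localisation at `x` (`IsLocMod`).
(For a triple: `S = R ⊗ B_i`, `S' = R ⊗ B01`, `x = 1 ⊗ x0` or `1 ⊗ z1`, `r = r0` or `r1`.)

* `tmap r r' : P ⊗[S] Q →ₛₗ[φ] P' ⊗[S'] Q'`, `IsLocMod.tmap`: tensor products of charts;
* `IsLocMod.isLocalizedModule` : the bridge to Mathlib's `IsLocalizedModule`.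
Mathlib only.
-/
import Mathlib

set_option autoImplicit false
set_option linter.style.haveILetI false
set_option linter.unusedSectionVars false

universe u

open TensorProduct

noncomputable section

namespace Fermat.Agent.S25.LB.H60

section Gen

variable {S S' : Type u} [CommRing S] [CommRing S'] (φ : S →+* S') (x : S)

/-- `φ : S → S'` is the localisation of `S` at `x`. -/
structure IsLocRing : Prop where
  unit : IsUnit (φ x)
  surj : ∀ s' : S', ∃ (n : ℕ) (s : S), φ x ^ n * s' = φ s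
  ker : ∀ s : S, φ s = 0 → ∃ n : ℕ, x ^ n * s = 0

variable {P P' Q Q' : Type u} [AddCommGroup P] [Module S P] [AddCommGroup P'] [Module S' P']
  [AddCommGroup Q] [Module S Q] [AddCommGroup Q'] [Module S' Q']

/-- The `φ`-semilinear map `r : P → P'` is the localisation of `P` at `x`. -/
structure IsLocMod (r : P →ₛₗ[φ] P') : Prop where
  surj : ∀ m : P', ∃ (n : ℕ) (p : P), φ x ^ n • m = r p
  ker : ∀ p : P, r p = 0 → ∃ n : ℕ, x ^ n • p = 0

variable {φ x}

theorem IsLocRing.isLocalization (h : IsLocRing φ x) :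
    @IsLocalization.Away S _ x S' _ φ.toAlgebra := by
  letI : Algebra S S' := φ.toAlgebra
  refine IsLocalization.Away.mk x h.unit ?_ ?_
  · intro s'
    obtain ⟨n, s, hs⟩ := h.surj s'
    exact ⟨n, s, by rw [mul_comm]; exact hs⟩
  · intro a b hab
    have h0 : φ (a - b) = 0 := by
      rw [map_sub, sub_eq_zero]
      exact hab
    obtain ⟨n, hn⟩ := h.ker _ h0
    refine ⟨n, ?_⟩
    rw [mul_sub, sub_eq_zero] at hn
    exact hn

/-- `r` as an `S`-linear map, for the structure of `S`-module of `P'` through `φ`. -/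
def linOf (r : P →ₛₗ[φ] P') :
    letI : Module S P' := Module.compHom P' φ
    P →ₗ[S] P' :=
  letI : Module S P' := Module.compHom P' φ
  { toFun := r
    map_add' := map_add r
    map_smul' := fun c p => r.map_smulₛₗ c p }

theorem IsLocMod.isLocalizedModule (hS : IsLocRing φ x) {r : P →ₛₗ[φ] P'}
    (h : IsLocMod φ x r) :
    letI : Module S P' := Module.compHom P' φ
    IsLocalizedModule (Submonoid.powers x) (linOf r) := by
  letI : Module S P' := Module.compHom P' φ
  refine ⟨?_, ?_, ?_⟩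
  · rintro ⟨-, n, rfl⟩
    obtain ⟨u, hu⟩ := hS.unit
    rw [Module.End.isUnit_iff]
    constructor
    · intro a b hab
      have h1 : (φ x ^ n) • a = (φ x ^ n) • b := by
        have h := hab
        rw [Module.algebraMap_end_apply, Module.algebraMap_end_apply] at h
        have h' : φ (x ^ n) • a = φ (x ^ n) • b := h
        rwa [map_pow] at h'
      have h2 : ((↑(u⁻¹ ^ n) : S') * φ x ^ n) • a = ((↑(u⁻¹ ^ n) : S') * φ x ^ n) • b := by
        rw [mul_smul, mul_smul, h1]
      have h3 : (↑(u⁻¹ ^ n) : S') * φ x ^ n = 1 := by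
        rw [← hu, ← Units.val_pow_eq_pow_val, ← Units.val_mul, ← mul_pow, inv_mul_cancel,
          one_pow, Units.val_one]
      rwa [h3, one_smul, one_smul] at h2
    · intro b
      refine ⟨(↑(u⁻¹ ^ n) : S') • b, ?_⟩
      have h3 : φ x ^ n * (↑(u⁻¹ ^ n) : S') = 1 := by
        rw [← hu, ← Units.val_pow_eq_pow_val, ← Units.val_mul, ← mul_pow, mul_inv_cancel,
          one_pow, Units.val_one]
      show (x ^ n) • ((↑(u⁻¹ ^ n) : S') • b) = b
      show φ (x ^ n) • ((↑(u⁻¹ ^ n) : S') • b) = b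
      rw [map_pow, smul_smul, h3, one_smul]
  · intro y
    obtain ⟨n, p, hp⟩ := h.surj y
    refine ⟨(p, ⟨x ^ n, n, rfl⟩), ?_⟩
    show φ (x ^ n) • y = r p
    rw [map_pow]
    exact hp
  · intro p p' hpp
    have h0 : r (p - p') = 0 := by
      rw [map_sub, sub_eq_zero]
      exact hpp
    obtain ⟨n, hn⟩ := h.ker _ h0
    refine ⟨⟨x ^ n, n, rfl⟩, ?_⟩
    rw [smul_sub, sub_eq_zero] at hn
    exact hn

/-! ### Tensor products -/

variable (φ) in
/-- The bilinear map `(p, q) ↦ r p ⊗ r' q`. -/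
def tmapAux (r : P →ₛₗ[φ] P') (r' : Q →ₛₗ[φ] Q') :
    letI : Module S (P' ⊗[S'] Q') := Module.compHom _ φ
    P →ₗ[S] Q →ₗ[S] (P' ⊗[S'] Q') :=
  letI : Module S (P' ⊗[S'] Q') := Module.compHom _ φ
  LinearMap.mk₂ S (fun p q => r p ⊗ₜ[S'] r' q)
    (fun p p' q => by rw [map_add, TensorProduct.add_tmul])
    (fun c p q => by
      rw [r.map_smulₛₗ]
      show (φ c • r p) ⊗ₜ[S'] r' q = φ c • (r p ⊗ₜ[S'] r' q)
      rw [TensorProduct.smul_tmul'])
    (fun p q q' => by rw [map_add, TensorProduct.tmul_add])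
    (fun c p q => by
      rw [r'.map_smulₛₗ]
      show r p ⊗ₜ[S'] (φ c • r' q) = φ c • (r p ⊗ₜ[S'] r' q)
      rw [TensorProduct.tmul_smul])

theorem tmapAux_apply (r : P →ₛₗ[φ] P') (r' : Q →ₛₗ[φ] Q') (p : P) (q : Q) :
    letI : Module S (P' ⊗[S'] Q') := Module.compHom _ φ
    tmapAux φ r r' p q = r p ⊗ₜ[S'] r' q := rfl

variable (φ) in
/-- The tensor product of two semilinear maps. -/
def tmap (r : P →ₛₗ[φ] P') (r' : Q →ₛₗ[φ] Q') : (P ⊗[S] Q) →ₛₗ[φ] (P' ⊗[S'] Q') :=
  letI : Module S (P' ⊗[S'] Q') := Module.compHom _ φ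
  { toFun := TensorProduct.lift (tmapAux φ r r')
    map_add' := map_add _
    map_smul' := fun c t => (TensorProduct.lift (tmapAux φ r r')).map_smul c t }

theorem tmap_apply (r : P →ₛₗ[φ] P') (r' : Q →ₛₗ[φ] Q') (t : P ⊗[S] Q) :
    letI : Module S (P' ⊗[S'] Q') := Module.compHom _ φ
    tmap φ r r' t = TensorProduct.lift (tmapAux φ r r') t := rfl

@[simp] theorem tmap_tmul (r : P →ₛₗ[φ] P') (r' : Q →ₛₗ[φ] Q') (p : P) (q : Q) :
    tmap φ r r' (p ⊗ₜ[S] q) = r p ⊗ₜ[S'] r' q := by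
  letI : Module S (P' ⊗[S'] Q') := Module.compHom _ φ
  rw [tmap_apply, TensorProduct.lift.tmul, tmapAux_apply]

theorem IsLocMod.tmap_surj {r : P →ₛₗ[φ] P'} {r' : Q →ₛₗ[φ] Q'}
    (h : IsLocMod φ x r) (h' : IsLocMod φ x r') (m : P' ⊗[S'] Q') :
    ∃ (n : ℕ) (t : P ⊗[S] Q), φ x ^ n • m = tmap φ r r' t := by
  induction m using TensorProduct.induction_on with
  | zero => exact ⟨0, 0, by rw [smul_zero, map_zero]⟩
  | tmul a b =>
    obtain ⟨n, p, hp⟩ := h.surj a
    obtain ⟨n', q, hq⟩ := h'.surj b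
    refine ⟨n + n', p ⊗ₜ[S] q, ?_⟩
    rw [tmap_tmul, ← hp, ← hq, pow_add, TensorProduct.smul_tmul_smul]
  | add a b ha hb =>
    obtain ⟨n, t, ht⟩ := ha
    obtain ⟨n', t', ht'⟩ := hb
    refine ⟨n + n', x ^ n' • t + x ^ n • t', ?_⟩
    rw [map_add, LinearMap.map_smulₛₗ, LinearMap.map_smulₛₗ, ← ht, ← ht', smul_add, map_pow,
      map_pow, smul_smul, smul_smul, pow_add, mul_comm]

theorem IsLocMod.tmap (hS : IsLocRing φ x) {r : P →ₛₗ[φ] P'} {r' : Q →ₛₗ[φ] Q'}
    (h : IsLocMod φ x r) (h' : IsLocMod φ x r') : IsLocMod φ x (tmap φ r r') := by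
  refine ⟨fun m => h.tmap_surj h' m, ?_⟩
  letI : Algebra S S' := φ.toAlgebra
  haveI : IsLocalization.Away x S' := hS.isLocalization
  haveI : IsLocalization (Submonoid.powers x) S' := hS.isLocalization
  letI : Module S P' := Module.compHom P' φ
  letI : Module S Q' := Module.compHom Q' φ
  haveI : IsScalarTower S S' P' := ⟨fun s s' p => by
    show (φ s * s') • p = φ s • (s' • p)
    rw [mul_smul]⟩
  haveI : IsScalarTower S S' Q' := ⟨fun s s' p => by
    show (φ s * s') • p = φ s • (s' • p)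
    rw [mul_smul]⟩
  haveI : IsLocalizedModule (Submonoid.powers x) (linOf r) := h.isLocalizedModule hS
  haveI : IsLocalizedModule (Submonoid.powers x) (linOf r') := h'.isLocalizedModule hS
  haveI : IsLocalizedModule (Submonoid.powers x) (TensorProduct.map (linOf r) (linOf r')) :=
    inferInstance
  haveI : TensorProduct.CompatibleSMul S S' P' Q' :=
    IsLocalization.tensorProduct_compatibleSMul (Submonoid.powers x) S' P' Q'
  let e : P' ⊗[S'] Q' ≃ₗ[S'] P' ⊗[S] Q' :=
    IsLocalization.moduleTensorEquiv (Submonoid.powers x) S' P' Q'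
  have he : ∀ (a : P') (b : Q'), e (a ⊗ₜ[S'] b) = a ⊗ₜ[S] b := fun a b => rfl
  have key : ∀ t : P ⊗[S] Q,
      e (Fermat.Agent.S25.LB.H60.tmap φ r r' t) = TensorProduct.map (linOf r) (linOf r') t := by
    intro t
    induction t using TensorProduct.induction_on with
    | zero => rw [map_zero, map_zero, map_zero]
    | tmul p q => rw [tmap_tmul, he, TensorProduct.map_tmul]; rfl
    | add a b ha hb => rw [map_add, map_add, map_add, ha, hb]
  intro t ht
  have h0 : TensorProduct.map (linOf r) (linOf r') t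
      = TensorProduct.map (linOf r) (linOf r') 0 := by
    rw [← key, ht, map_zero, map_zero]
  obtain ⟨⟨s, n, rfl⟩, hs⟩ :=
    IsLocalizedModule.exists_of_eq (S := Submonoid.powers x) h0
  refine ⟨n, ?_⟩
  have hs' : (x ^ n) • t = (x ^ n) • (0 : P ⊗[S] Q) := hs
  rw [hs', smul_zero]

end Gen

end Fermat.Agent.S25.LB.H60
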