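/-
S25 (row 24), package LB, leaf LB-TENS (helper60), part 3: the dual of an abstract chart.

For a chart `φ : S → S'` (localisation at `x`) and a localisation `r : P → P'` of a finitely
presented `S`-module:

* `dmap r : Dual S P →ₛₗ[φ] Dual S' P'`, `dmap_apply : dmap r λ (r p) = φ (λ p)`;
* `IsLocMod.dmap` : `dmap r` is a localisation at `x`;
* `IsLocMod.invertible` : the localisation of an invertible module is invertible.
-/
import Fermat.Agent.S25.LB.H60_LocMod

set_option autoImplicit false
set_option linter.style.haveILetI false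
set_option linter.unusedSectionVars false

universe u

open TensorProduct

noncomputable section

namespace Fermat.Agent.S25.LB.H60

section Gen

variable {S S' : Type u} [CommRing S] [CommRing S'] {φ : S →+* S'} {x : S}
  {P P' : Type u} [AddCommGroup P] [Module S P] [AddCommGroup P'] [Module S' P']

/-- The dual of a localisation, as an `S`-linear map (Mathlib's `mapExtendScalars`). -/
def dmapLin (hS : IsLocRing φ x) {r : P →ₛₗ[φ] P'} (h : IsLocMod φ x r) :
    letI : Algebra S S' := φ.toAlgebra
    Module.Dual S P →ₗ[S] Module.Dual S' P' :=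
  letI : Algebra S S' := φ.toAlgebra
  haveI : IsLocalization (Submonoid.powers x) S' := hS.isLocalization
  letI : Module S P' := Module.compHom P' φ
  haveI : IsScalarTower S S' P' := ⟨fun s s' p => by
    show (φ s * s') • p = φ s • (s' • p)
    rw [mul_smul]⟩
  haveI : IsLocalizedModule (Submonoid.powers x) (linOf r) := h.isLocalizedModule hS
  IsLocalizedModule.mapExtendScalars (Submonoid.powers x) (linOf r) (Algebra.linearMap S S') S'

theorem dmapLin_apply (hS : IsLocRing φ x) {r : P →ₛₗ[φ] P'} (h : IsLocMod φ x r)
    (l : Module.Dual S P) (p : P) : dmapLin hS h l (r p) = φ (l p) := by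
  letI : Algebra S S' := φ.toAlgebra
  haveI : IsLocalization (Submonoid.powers x) S' := hS.isLocalization
  letI : Module S P' := Module.compHom P' φ
  haveI : IsScalarTower S S' P' := ⟨fun s s' p => by
    show (φ s * s') • p = φ s • (s' • p)
    rw [mul_smul]⟩
  haveI : IsLocalizedModule (Submonoid.powers x) (linOf r) := h.isLocalizedModule hS
  show IsLocalizedModule.map (Submonoid.powers x) (linOf r) (Algebra.linearMap S S') l
    (linOf r p) = _
  rw [IsLocalizedModule.map_apply]
  rfl

/-- **The dual of a localisation.** -/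
def dmap (hS : IsLocRing φ x) {r : P →ₛₗ[φ] P'} (h : IsLocMod φ x r) :
    Module.Dual S P →ₛₗ[φ] Module.Dual S' P' :=
  letI : Algebra S S' := φ.toAlgebra
  { toFun := dmapLin hS h
    map_add' := map_add _
    map_smul' := fun c l => by
      rw [(dmapLin hS h).map_smul c l]
      ext p'
      show c • (dmapLin hS h l p') = φ c • (dmapLin hS h l p')
      rfl }

theorem dmap_apply (hS : IsLocRing φ x) {r : P →ₛₗ[φ] P'} (h : IsLocMod φ x r)
    (l : Module.Dual S P) (p : P) : dmap hS h l (r p) = φ (l p) :=
  dmapLin_apply hS h l p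

theorem IsLocMod.dmap [Module.FinitePresentation S P] (hS : IsLocRing φ x)
    {r : P →ₛₗ[φ] P'} (h : IsLocMod φ x r) : IsLocMod φ x (dmap hS h) := by
  letI : Algebra S S' := φ.toAlgebra
  haveI : IsLocalization (Submonoid.powers x) S' := hS.isLocalization
  letI : Module S P' := Module.compHom P' φ
  haveI : IsScalarTower S S' P' := ⟨fun s s' p => by
    show (φ s * s') • p = φ s • (s' • p)
    rw [mul_smul]⟩
  haveI : IsLocalizedModule (Submonoid.powers x) (linOf r) := h.isLocalizedModule hS
  haveI hD : IsLocalizedModule (Submonoid.powers x)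
      (IsLocalizedModule.mapExtendScalars (Submonoid.powers x) (linOf r)
        (Algebra.linearMap S S') S') := inferInstance
  refine ⟨?_, ?_⟩
  · intro m
    obtain ⟨⟨l, ⟨s, n, rfl⟩⟩, hl⟩ := hD.surj m
    refine ⟨n, l, ?_⟩
    have hl' : (x ^ n) • m = Fermat.Agent.S25.LB.H60.dmap hS h l := hl
    rw [← hl']
    ext p'
    show φ x ^ n • m p' = (x ^ n) • m p'
    show φ x ^ n • m p' = φ (x ^ n) • m p'
    rw [map_pow]
  · intro l hl
    have h0 : IsLocalizedModule.mapExtendScalars (Submonoid.powers x) (linOf r)
        (Algebra.linearMap S S') S' l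
        = IsLocalizedModule.mapExtendScalars (Submonoid.powers x) (linOf r)
          (Algebra.linearMap S S') S' 0 := by
      rw [map_zero]
      exact hl
    obtain ⟨⟨s, n, rfl⟩, hs⟩ := hD.exists_of_eq h0
    refine ⟨n, ?_⟩
    have hs' : (x ^ n) • l = (x ^ n) • (0 : Module.Dual S P) := hs
    rw [hs', smul_zero]

/-- The localisation of an invertible module is invertible. -/
theorem IsLocMod.invertible [Module.Invertible S P] (hS : IsLocRing φ x)
    {r : P →ₛₗ[φ] P'} (h : IsLocMod φ x r) : Module.Invertible S' P' := by
  letI : Algebra S S' := φ.toAlgebra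
  haveI : IsLocalization (Submonoid.powers x) S' := hS.isLocalization
  letI : Module S P' := Module.compHom P' φ
  haveI : IsScalarTower S S' P' := ⟨fun s s' p => by
    show (φ s * s') • p = φ s • (s' • p)
    rw [mul_smul]⟩
  haveI : IsLocalizedModule (Submonoid.powers x) (linOf r) := h.isLocalizedModule hS
  have hb : IsBaseChange S' (linOf r) :=
    IsLocalizedModule.isBaseChange (Submonoid.powers x) S' (linOf r)
  exact Module.Invertible.congr hb.equiv

end Gen

end Fermat.Agent.S25.LB.H60
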