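/-
S25 (row 24), package LB, leaf LB-UNIT (helper60): the structure sheaf as a triple.

For a good curve datum `𝒞` over a field `k` and a `k`-algebra `R`, the triple
`P0 = R ⊗ B0`, `P1 = R ⊗ B1`, `P01 = R ⊗ B01` with the maps `ι0`, `ι1`.

* `unitTriple 𝒞 R h : Triple 𝒞 R`, with `rfl`-lemmas;
* `stmt_UNIT : Stmt_UNIT`.
-/
import Fermat.Agent.S25.LB.DefsB

set_option autoImplicit false
set_option linter.style.haveILetI false

universe u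

open Polynomial TensorProduct

noncomputable section

namespace Fermat.Agent.S25.LB.H60

variable {k : Type u} [Field k] (𝒞 : CurveDatum k) (R : Type u) [CommRing R] [Algebra k R]

/-! ### The two restriction maps -/

/-- `ι0` as a semilinear map. -/
def unitR0 : (R ⊗[k] 𝒞.B0) →ₛₗ[𝒞.ι0 R] (R ⊗[k] 𝒞.B01) where
  toFun := 𝒞.ι0 R
  map_add' := map_add _
  map_smul' := fun c p => by
    rw [smul_eq_mul, map_mul, smul_eq_mul]

/-- `ι1` as a semilinear map. -/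
def unitR1 : (R ⊗[k] 𝒞.B1) →ₛₗ[𝒞.ι1 R] (R ⊗[k] 𝒞.B01) where
  toFun := 𝒞.ι1 R
  map_add' := map_add _
  map_smul' := fun c p => by
    rw [smul_eq_mul, map_mul, smul_eq_mul]

theorem unitR0_apply (p : R ⊗[k] 𝒞.B0) : unitR0 𝒞 R p = 𝒞.ι0 R p := rfl

theorem unitR1_apply (p : R ⊗[k] 𝒞.B1) : unitR1 𝒞 R p = 𝒞.ι1 R p := rfl

theorem ι0_tmul (r : R) (b : 𝒞.B0) : 𝒞.ι0 R (r ⊗ₜ[k] b) = r ⊗ₜ[k] 𝒞.i0 b := rfl

theorem ι1_tmul (r : R) (b : 𝒞.B1) : 𝒞.ι1 R (r ⊗ₜ[k] b) = r ⊗ₜ[k] 𝒞.i1 b := rfl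

/-! ### Injectivity -/

variable {𝒞}

theorem x0_ne_zero (h : 𝒞.IsGood) : 𝒞.x0 ≠ 0 := by
  haveI := h.dom01
  intro h0
  have h1 := 𝒞.hxz
  rw [h0, map_zero, zero_mul] at h1
  exact zero_ne_one h1

theorem z1_ne_zero (h : 𝒞.IsGood) : 𝒞.z1 ≠ 0 := by
  haveI := h.dom01
  intro h0
  have h1 := 𝒞.hxz
  rw [h0, map_zero, mul_zero] at h1
  exact zero_ne_one h1

theorem i0_injective (h : 𝒞.IsGood) : Function.Injective 𝒞.i0 := by
  haveI := h.dom0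
  letI : Algebra 𝒞.B0 𝒞.B01 := 𝒞.i0.toRingHom.toAlgebra
  haveI : IsLocalization.Away 𝒞.x0 𝒞.B01 := h.loc0
  exact IsLocalization.injective (M := Submonoid.powers 𝒞.x0) 𝒞.B01
    (powers_le_nonZeroDivisors_of_noZeroDivisors (x0_ne_zero h))

theorem i1_injective (h : 𝒞.IsGood) : Function.Injective 𝒞.i1 := by
  haveI := h.dom1
  letI : Algebra 𝒞.B1 𝒞.B01 := 𝒞.i1.toRingHom.toAlgebra
  haveI : IsLocalization.Away 𝒞.z1 𝒞.B01 := h.loc1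
  exact IsLocalization.injective (M := Submonoid.powers 𝒞.z1) 𝒞.B01
    (powers_le_nonZeroDivisors_of_noZeroDivisors (z1_ne_zero h))

theorem ι0_eq_lTensor (p : R ⊗[k] 𝒞.B0) :
    𝒞.ι0 R p = LinearMap.lTensor R 𝒞.i0.toLinearMap p := by
  induction p using TensorProduct.induction_on with
  | zero => rw [map_zero, map_zero]
  | tmul r b => rfl
  | add x y hx hy => rw [map_add, map_add, hx, hy]

theorem ι1_eq_lTensor (p : R ⊗[k] 𝒞.B1) :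
    𝒞.ι1 R p = LinearMap.lTensor R 𝒞.i1.toLinearMap p := by
  induction p using TensorProduct.induction_on with
  | zero => rw [map_zero, map_zero]
  | tmul r b => rfl
  | add x y hx hy => rw [map_add, map_add, hx, hy]

theorem ι0_injective (h : 𝒞.IsGood) : Function.Injective (𝒞.ι0 R) := by
  have h1 : Function.Injective (LinearMap.lTensor R 𝒞.i0.toLinearMap) :=
    Module.Flat.lTensor_preserves_injective_linearMap (M := R) 𝒞.i0.toLinearMap (i0_injective h)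
  intro p p' hp
  apply h1
  rw [← ι0_eq_lTensor, ← ι0_eq_lTensor, hp]

theorem ι1_injective (h : 𝒞.IsGood) : Function.Injective (𝒞.ι1 R) := by
  have h1 : Function.Injective (LinearMap.lTensor R 𝒞.i1.toLinearMap) :=
    Module.Flat.lTensor_preserves_injective_linearMap (M := R) 𝒞.i1.toLinearMap (i1_injective h)
  intro p p' hp
  apply h1
  rw [← ι1_eq_lTensor, ← ι1_eq_lTensor, hp]

/-! ### The maps are localisations -/

theorem surj0_unit (h : 𝒞.IsGood) (m : R ⊗[k] 𝒞.B01) :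
    ∃ (n : ℕ) (p : R ⊗[k] 𝒞.B0),
      ((1 : R) ⊗ₜ[k] 𝒞.i0 𝒞.x0 : R ⊗[k] 𝒞.B01) ^ n * m = 𝒞.ι0 R p := by
  letI : Algebra 𝒞.B0 𝒞.B01 := 𝒞.i0.toRingHom.toAlgebra
  haveI : IsLocalization.Away 𝒞.x0 𝒞.B01 := h.loc0
  induction m using TensorProduct.induction_on with
  | zero => exact ⟨0, 0, by rw [mul_zero, map_zero]⟩
  | tmul r b =>
    obtain ⟨n, b0, hb⟩ := IsLocalization.Away.surj 𝒞.x0 b
    have hb' : b * 𝒞.i0 𝒞.x0 ^ n = 𝒞.i0 b0 := hb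
    refine ⟨n, r ⊗ₜ[k] b0, ?_⟩
    rw [Algebra.TensorProduct.tmul_pow, one_pow, Algebra.TensorProduct.tmul_mul_tmul, one_mul,
      ι0_tmul, ← hb', mul_comm]
  | add x y hx hy =>
    obtain ⟨n, p, hp⟩ := hx
    obtain ⟨n', p', hp'⟩ := hy
    refine ⟨n + n', ((1 : R) ⊗ₜ[k] 𝒞.x0) ^ n' * p + ((1 : R) ⊗ₜ[k] 𝒞.x0) ^ n * p', ?_⟩
    have e : 𝒞.ι0 R ((1 : R) ⊗ₜ[k] 𝒞.x0) = (1 : R) ⊗ₜ[k] 𝒞.i0 𝒞.x0 := rfl
    rw [map_add, map_mul, map_mul, map_pow, map_pow, e, ← hp, ← hp', mul_add, pow_add]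
    ring

theorem surj1_unit (h : 𝒞.IsGood) (m : R ⊗[k] 𝒞.B01) :
    ∃ (n : ℕ) (p : R ⊗[k] 𝒞.B1),
      ((1 : R) ⊗ₜ[k] 𝒞.i1 𝒞.z1 : R ⊗[k] 𝒞.B01) ^ n * m = 𝒞.ι1 R p := by
  letI : Algebra 𝒞.B1 𝒞.B01 := 𝒞.i1.toRingHom.toAlgebra
  haveI : IsLocalization.Away 𝒞.z1 𝒞.B01 := h.loc1
  induction m using TensorProduct.induction_on with
  | zero => exact ⟨0, 0, by rw [mul_zero, map_zero]⟩
  | tmul r b =>
    obtain ⟨n, b1, hb⟩ := IsLocalization.Away.surj 𝒞.z1 b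
    have hb' : b * 𝒞.i1 𝒞.z1 ^ n = 𝒞.i1 b1 := hb
    refine ⟨n, r ⊗ₜ[k] b1, ?_⟩
    rw [Algebra.TensorProduct.tmul_pow, one_pow, Algebra.TensorProduct.tmul_mul_tmul, one_mul,
      ι1_tmul, ← hb', mul_comm]
  | add x y hx hy =>
    obtain ⟨n, p, hp⟩ := hx
    obtain ⟨n', p', hp'⟩ := hy
    refine ⟨n + n', ((1 : R) ⊗ₜ[k] 𝒞.z1) ^ n' * p + ((1 : R) ⊗ₜ[k] 𝒞.z1) ^ n * p', ?_⟩
    have e : 𝒞.ι1 R ((1 : R) ⊗ₜ[k] 𝒞.z1) = (1 : R) ⊗ₜ[k] 𝒞.i1 𝒞.z1 := rfl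
    rw [map_add, map_mul, map_mul, map_pow, map_pow, e, ← hp, ← hp', mul_add, pow_add]
    ring

/-! ### The unit triple -/

variable (𝒞)

/-- **The structure sheaf as a triple.** -/
@[reducible] def unitTriple (h : 𝒞.IsGood) : Triple 𝒞 R where
  P0 := R ⊗[k] 𝒞.B0
  P1 := R ⊗[k] 𝒞.B1
  P01 := R ⊗[k] 𝒞.B01
  r0 := unitR0 𝒞 R
  r1 := unitR1 𝒞 R
  inv0 := inferInstance
  inv1 := inferInstance
  surj0 := fun m => surj0_unit R h m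
  ker0 := fun p hp => ⟨0, by
    rw [pow_zero, one_smul]
    exact ι0_injective R h (hp.trans (map_zero _).symm)⟩
  surj1 := fun m => surj1_unit R h m
  ker1 := fun p hp => ⟨0, by
    rw [pow_zero, one_smul]
    exact ι1_injective R h (hp.trans (map_zero _).symm)⟩

theorem unitTriple_P0 (h : 𝒞.IsGood) : (unitTriple 𝒞 R h).P0 = (R ⊗[k] 𝒞.B0) := rfl

theorem unitTriple_P1 (h : 𝒞.IsGood) : (unitTriple 𝒞 R h).P1 = (R ⊗[k] 𝒞.B1) := rfl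

theorem unitTriple_P01 (h : 𝒞.IsGood) : (unitTriple 𝒞 R h).P01 = (R ⊗[k] 𝒞.B01) := rfl

theorem unitTriple_r0 (h : 𝒞.IsGood) (p : R ⊗[k] 𝒞.B0) :
    (unitTriple 𝒞 R h).r0 p = 𝒞.ι0 R p := rfl

theorem unitTriple_r1 (h : 𝒞.IsGood) (p : R ⊗[k] 𝒞.B1) :
    (unitTriple 𝒞 R h).r1 p = 𝒞.ι1 R p := rfl

end Fermat.Agent.S25.LB.H60

namespace Fermat.Agent.S25.LB.H60

/-- **LB-UNIT**: the structure sheaf exists as a triple. -/
theorem stmt_UNIT : Stmt_UNIT.{u} := by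
  intro k _ 𝒞 h R _ _
  exact ⟨unitTriple 𝒞 R h, LinearEquiv.refl _ _, LinearEquiv.refl _ _, LinearEquiv.refl _ _,
    fun _ => rfl, fun _ => rfl⟩

end Fermat.Agent.S25.LB.H60
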