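/-
S25 (row 24), package LB, leaf LB-TENS (helper60), part 2: tensor products of triples.

* `isLocRing0/1`, `Triple.isLocMod0/1` : the two charts of a triple are abstract charts
  (`H60_LocMod.lean`);
* `tensor L L' h : Triple 𝒞 R` with `P_i = L.P_i ⊗ L'.P_i` (over `R ⊗ B_i`),
  `tensor_r0_tmul`, `tensor_r1_tmul`;
* isomorphisms: `isoRefl`, `isoSymm`, `isoTrans`, `tensorComm`, `tensorUnitLeft`, `tensorCongr`,
  `tensorAssoc`.
-/
import Fermat.Agent.S25.LB.H60_Unit
import Fermat.Agent.S25.LB.H60_LocMod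

set_option autoImplicit false
set_option linter.style.haveILetI false
set_option linter.unusedSectionVars false

universe u

open Polynomial TensorProduct

noncomputable section

namespace Fermat.Agent.S25.LB.H60

variable {k : Type u} [Field k] {𝒞 : CurveDatum k} {R : Type u} [CommRing R] [Algebra k R]

/-! ### The charts of a triple -/

variable (R) in
theorem isLocRing0 (h : 𝒞.IsGood) :
    IsLocRing (𝒞.ι0 R) ((1 : R) ⊗ₜ[k] 𝒞.x0 : R ⊗[k] 𝒞.B0) where
  unit := IsUnit.of_mul_eq_one _ (Triple.unit_mul_unit 𝒞 R)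
  surj := fun m => surj0_unit R h m
  ker := fun s hs => ⟨0, by
    rw [pow_zero, one_mul]
    exact ι0_injective R h (hs.trans (map_zero _).symm)⟩

variable (R) in
theorem isLocRing1 (h : 𝒞.IsGood) :
    IsLocRing (𝒞.ι1 R) ((1 : R) ⊗ₜ[k] 𝒞.z1 : R ⊗[k] 𝒞.B1) where
  unit := IsUnit.of_mul_eq_one _ ((mul_comm _ _).trans (Triple.unit_mul_unit 𝒞 R))
  surj := fun m => surj1_unit R h m
  ker := fun s hs => ⟨0, by
    rw [pow_zero, one_mul]
    exact ι1_injective R h (hs.trans (map_zero _).symm)⟩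

theorem isLocMod0 (L : Triple 𝒞 R) :
    IsLocMod (𝒞.ι0 R) ((1 : R) ⊗ₜ[k] 𝒞.x0 : R ⊗[k] 𝒞.B0) L.r0 where
  surj := L.surj0
  ker := L.ker0

theorem isLocMod1 (L : Triple 𝒞 R) :
    IsLocMod (𝒞.ι1 R) ((1 : R) ⊗ₜ[k] 𝒞.z1 : R ⊗[k] 𝒞.B1) L.r1 where
  surj := L.surj1
  ker := L.ker1

/-- A triple from two abstract charts. -/
@[reducible] def ofLocMod {P0 P1 P01 : Type u} [AddCommGroup P0] [AddCommGroup P1] [AddCommGroup P01]
    [Module (R ⊗[k] 𝒞.B0) P0] [Module (R ⊗[k] 𝒞.B1) P1] [Module (R ⊗[k] 𝒞.B01) P01]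
    (r0 : P0 →ₛₗ[𝒞.ι0 R] P01) (r1 : P1 →ₛₗ[𝒞.ι1 R] P01)
    (inv0 : Module.Invertible (R ⊗[k] 𝒞.B0) P0) (inv1 : Module.Invertible (R ⊗[k] 𝒞.B1) P1)
    (h0 : IsLocMod (𝒞.ι0 R) ((1 : R) ⊗ₜ[k] 𝒞.x0 : R ⊗[k] 𝒞.B0) r0)
    (h1 : IsLocMod (𝒞.ι1 R) ((1 : R) ⊗ₜ[k] 𝒞.z1 : R ⊗[k] 𝒞.B1) r1) : Triple 𝒞 R where
  P0 := P0
  P1 := P1
  P01 := P01
  r0 := r0
  r1 := r1
  inv0 := inv0
  inv1 := inv1
  surj0 := h0.surj
  ker0 := h0.ker
  surj1 := h1.surj
  ker1 := h1.ker

/-! ### The tensor product -/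

/-- **The tensor product of two triples.** -/
@[reducible] def tensor (L L' : Triple 𝒞 R) (h : 𝒞.IsGood) : Triple 𝒞 R :=
  haveI := L.inv0
  haveI := L.inv1
  haveI := L'.inv0
  haveI := L'.inv1
  ofLocMod (P0 := L.P0 ⊗[R ⊗[k] 𝒞.B0] L'.P0) (P1 := L.P1 ⊗[R ⊗[k] 𝒞.B1] L'.P1)
    (P01 := L.P01 ⊗[R ⊗[k] 𝒞.B01] L'.P01)
    (tmap (𝒞.ι0 R) L.r0 L'.r0) (tmap (𝒞.ι1 R) L.r1 L'.r1) inferInstance inferInstance
    ((isLocMod0 L).tmap (isLocRing0 R h) (isLocMod0 L'))
    ((isLocMod1 L).tmap (isLocRing1 R h) (isLocMod1 L'))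

theorem tensor_r0_tmul (L L' : Triple 𝒞 R) (h : 𝒞.IsGood) (p : L.P0) (p' : L'.P0) :
    (tensor L L' h).r0 (p ⊗ₜ[R ⊗[k] 𝒞.B0] p') = L.r0 p ⊗ₜ[R ⊗[k] 𝒞.B01] L'.r0 p' :=
  tmap_tmul L.r0 L'.r0 p p'

theorem tensor_r1_tmul (L L' : Triple 𝒞 R) (h : 𝒞.IsGood) (p : L.P1) (p' : L'.P1) :
    (tensor L L' h).r1 (p ⊗ₜ[R ⊗[k] 𝒞.B1] p') = L.r1 p ⊗ₜ[R ⊗[k] 𝒞.B01] L'.r1 p' :=
  tmap_tmul L.r1 L'.r1 p p'

/-! ### Isomorphisms -/

/-- The identity. -/
def isoRefl (L : Triple 𝒞 R) : Triple.Iso L L where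
  e0 := LinearEquiv.refl _ _
  e1 := LinearEquiv.refl _ _
  e01 := LinearEquiv.refl _ _
  comm0 := fun _ => rfl
  comm1 := fun _ => rfl

/-- The inverse. -/
def isoSymm {L L' : Triple 𝒞 R} (I : Triple.Iso L L') : Triple.Iso L' L where
  e0 := I.e0.symm
  e1 := I.e1.symm
  e01 := I.e01.symm
  comm0 := fun p => by
    rw [LinearEquiv.symm_apply_eq, I.comm0, LinearEquiv.apply_symm_apply]
  comm1 := fun p => by
    rw [LinearEquiv.symm_apply_eq, I.comm1, LinearEquiv.apply_symm_apply]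

/-- The composition. -/
def isoTrans {L L' L'' : Triple 𝒞 R} (I : Triple.Iso L L') (J : Triple.Iso L' L'') :
    Triple.Iso L L'' where
  e0 := I.e0.trans J.e0
  e1 := I.e1.trans J.e1
  e01 := I.e01.trans J.e01
  comm0 := fun p => by
    rw [LinearEquiv.trans_apply, I.comm0, J.comm0, LinearEquiv.trans_apply]
  comm1 := fun p => by
    rw [LinearEquiv.trans_apply, I.comm1, J.comm1, LinearEquiv.trans_apply]

/-- Commutativity of the tensor product. -/
def tensorComm (L L' : Triple 𝒞 R) (h : 𝒞.IsGood) :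
    Triple.Iso (tensor L L' h) (tensor L' L h) where
  e0 := TensorProduct.comm (R ⊗[k] 𝒞.B0) L.P0 L'.P0
  e1 := TensorProduct.comm (R ⊗[k] 𝒞.B1) L.P1 L'.P1
  e01 := TensorProduct.comm (R ⊗[k] 𝒞.B01) L.P01 L'.P01
  comm0 := fun t => by
    induction t using TensorProduct.induction_on with
    | zero => rw [map_zero, map_zero, map_zero, map_zero]
    | tmul p p' =>
      rw [tensor_r0_tmul, TensorProduct.comm_tmul, TensorProduct.comm_tmul, tensor_r0_tmul]
    | add a b ha hb => rw [map_add, map_add, map_add, map_add, ha, hb]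
  comm1 := fun t => by
    induction t using TensorProduct.induction_on with
    | zero => rw [map_zero, map_zero, map_zero, map_zero]
    | tmul p p' =>
      rw [tensor_r1_tmul, TensorProduct.comm_tmul, TensorProduct.comm_tmul, tensor_r1_tmul]
    | add a b ha hb => rw [map_add, map_add, map_add, map_add, ha, hb]

/-- The unit triple is a left unit. -/
def tensorUnitLeft (L : Triple 𝒞 R) (h : 𝒞.IsGood) :
    Triple.Iso (tensor (unitTriple 𝒞 R h) L h) L where
  e0 := TensorProduct.lid (R ⊗[k] 𝒞.B0) L.P0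
  e1 := TensorProduct.lid (R ⊗[k] 𝒞.B1) L.P1
  e01 := TensorProduct.lid (R ⊗[k] 𝒞.B01) L.P01
  comm0 := fun t => by
    induction t using TensorProduct.induction_on with
    | zero => rw [map_zero, map_zero, map_zero, map_zero]
    | tmul c p =>
      rw [tensor_r0_tmul, TensorProduct.lid_tmul, TensorProduct.lid_tmul, L.r0.map_smulₛₗ]
      rfl
    | add a b ha hb => rw [map_add, map_add, map_add, map_add, ha, hb]
  comm1 := fun t => by
    induction t using TensorProduct.induction_on with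
    | zero => rw [map_zero, map_zero, map_zero, map_zero]
    | tmul c p =>
      rw [tensor_r1_tmul, TensorProduct.lid_tmul, TensorProduct.lid_tmul, L.r1.map_smulₛₗ]
      rfl
    | add a b ha hb => rw [map_add, map_add, map_add, map_add, ha, hb]

/-- The tensor product of two isomorphisms. -/
def tensorCongr {L L' M M' : Triple 𝒞 R} (h : 𝒞.IsGood) (I : Triple.Iso L L')
    (J : Triple.Iso M M') : Triple.Iso (tensor L M h) (tensor L' M' h) where
  e0 := TensorProduct.congr I.e0 J.e0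
  e1 := TensorProduct.congr I.e1 J.e1
  e01 := TensorProduct.congr I.e01 J.e01
  comm0 := fun t => by
    induction t using TensorProduct.induction_on with
    | zero => rw [map_zero, map_zero, map_zero, map_zero]
    | tmul p p' =>
      rw [tensor_r0_tmul, TensorProduct.congr_tmul, TensorProduct.congr_tmul, tensor_r0_tmul,
        I.comm0, J.comm0]
    | add a b ha hb => rw [map_add, map_add, map_add, map_add, ha, hb]
  comm1 := fun t => by
    induction t using TensorProduct.induction_on with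
    | zero => rw [map_zero, map_zero, map_zero, map_zero]
    | tmul p p' =>
      rw [tensor_r1_tmul, TensorProduct.congr_tmul, TensorProduct.congr_tmul, tensor_r1_tmul,
        I.comm1, J.comm1]
    | add a b ha hb => rw [map_add, map_add, map_add, map_add, ha, hb]

/-- The unit triple is a right unit. -/
def tensorUnitRight (L : Triple 𝒞 R) (h : 𝒞.IsGood) :
    Triple.Iso (tensor L (unitTriple 𝒞 R h) h) L :=
  isoTrans (tensorComm L (unitTriple 𝒞 R h) h) (tensorUnitLeft L h)

end Fermat.Agent.S25.LB.H60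

namespace Fermat.Agent.S25.LB.H60

variable {k : Type u} [Field k] {𝒞 : CurveDatum k} {R : Type u} [CommRing R] [Algebra k R]

/-- Associativity of the tensor product. -/
def tensorAssoc (L L' L'' : Triple 𝒞 R) (h : 𝒞.IsGood) :
    Triple.Iso (tensor (tensor L L' h) L'' h) (tensor L (tensor L' L'' h) h) where
  e0 := TensorProduct.assoc (R ⊗[k] 𝒞.B0) L.P0 L'.P0 L''.P0
  e1 := TensorProduct.assoc (R ⊗[k] 𝒞.B1) L.P1 L'.P1 L''.P1
  e01 := TensorProduct.assoc (R ⊗[k] 𝒞.B01) L.P01 L'.P01 L''.P01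
  comm0 := fun t => by
    induction t using TensorProduct.induction_on with
    | zero => rw [map_zero, map_zero, map_zero, map_zero]
    | tmul t p'' =>
      induction t using TensorProduct.induction_on with
      | zero => rw [TensorProduct.zero_tmul, map_zero, map_zero, map_zero, map_zero]
      | tmul p p' =>
        rw [tensor_r0_tmul, tensor_r0_tmul, TensorProduct.assoc_tmul, TensorProduct.assoc_tmul,
          tensor_r0_tmul, tensor_r0_tmul]
      | add a b ha hb =>
        rw [TensorProduct.add_tmul, map_add, map_add, map_add, map_add, ha, hb]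
    | add a b ha hb => rw [map_add, map_add, map_add, map_add, ha, hb]
  comm1 := fun t => by
    induction t using TensorProduct.induction_on with
    | zero => rw [map_zero, map_zero, map_zero, map_zero]
    | tmul t p'' =>
      induction t using TensorProduct.induction_on with
      | zero => rw [TensorProduct.zero_tmul, map_zero, map_zero, map_zero, map_zero]
      | tmul p p' =>
        rw [tensor_r1_tmul, tensor_r1_tmul, TensorProduct.assoc_tmul, TensorProduct.assoc_tmul,
          tensor_r1_tmul, tensor_r1_tmul]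
      | add a b ha hb =>
        rw [TensorProduct.add_tmul, map_add, map_add, map_add, map_add, ha, hb]
    | add a b ha hb => rw [map_add, map_add, map_add, map_add, ha, hb]

end Fermat.Agent.S25.LB.H60
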