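/-
S25 (row 24), package LB, leaf LB-TENS (helper60), part 4: the dual of a triple.

* `Triple.inv01'` : `P01` is invertible over `R ⊗ B01`;
* `dual L h : Triple 𝒞 R` with `P_i = Dual (R ⊗ B_i) L.P_i`, `dual_r0_apply`, `dual_r1_apply`;
* `dualTensor L h : Iso (tensor (dual L h) L h) (unitTriple 𝒞 R h)` (evaluation),
  `tensorDual L h : Iso (tensor L (dual L h) h) (unitTriple 𝒞 R h)`.
-/
import Fermat.Agent.S25.LB.H60_Tens
import Fermat.Agent.S25.LB.H60_DualMod

set_option autoImplicit false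
set_option linter.style.haveILetI false
set_option linter.unusedSectionVars false

universe u

open Polynomial TensorProduct

noncomputable section

namespace Fermat.Agent.S25.LB.H60

variable {k : Type u} [Field k] {𝒞 : CurveDatum k} {R : Type u} [CommRing R] [Algebra k R]

/-- `P01` is invertible. -/
theorem inv01 (L : Triple 𝒞 R) (h : 𝒞.IsGood) : Module.Invertible (R ⊗[k] 𝒞.B01) L.P01 :=
  haveI := L.inv0
  (isLocMod0 L).invertible (isLocRing0 R h)

/-- **The dual of a triple.** -/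
@[reducible] def dual (L : Triple 𝒞 R) (h : 𝒞.IsGood) : Triple 𝒞 R :=
  haveI := L.inv0
  haveI := L.inv1
  haveI : Module.FinitePresentation (R ⊗[k] 𝒞.B0) L.P0 :=
    Module.finitePresentation_of_projective _ _
  haveI : Module.FinitePresentation (R ⊗[k] 𝒞.B1) L.P1 :=
    Module.finitePresentation_of_projective _ _
  ofLocMod (P0 := Module.Dual (R ⊗[k] 𝒞.B0) L.P0) (P1 := Module.Dual (R ⊗[k] 𝒞.B1) L.P1)
    (P01 := Module.Dual (R ⊗[k] 𝒞.B01) L.P01)
    (dmap (isLocRing0 R h) (isLocMod0 L)) (dmap (isLocRing1 R h) (isLocMod1 L))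
    inferInstance inferInstance
    ((isLocMod0 L).dmap (isLocRing0 R h)) ((isLocMod1 L).dmap (isLocRing1 R h))

theorem dual_r0_apply (L : Triple 𝒞 R) (h : 𝒞.IsGood) (l : Module.Dual (R ⊗[k] 𝒞.B0) L.P0)
    (p : L.P0) : (dual L h).r0 l (L.r0 p) = 𝒞.ι0 R (l p) :=
  dmap_apply (isLocRing0 R h) (isLocMod0 L) l p

theorem dual_r1_apply (L : Triple 𝒞 R) (h : 𝒞.IsGood) (l : Module.Dual (R ⊗[k] 𝒞.B1) L.P1)
    (p : L.P1) : (dual L h).r1 l (L.r1 p) = 𝒞.ι1 R (l p) :=
  dmap_apply (isLocRing1 R h) (isLocMod1 L) l p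

/-- **`L^∨ ⊗ L ≅ O`** (evaluation). -/
def dualTensor (L : Triple 𝒞 R) (h : 𝒞.IsGood) :
    Triple.Iso (tensor (dual L h) L h) (unitTriple 𝒞 R h) :=
  haveI := L.inv0
  haveI := L.inv1
  haveI := inv01 L h
  { e0 := Module.Invertible.linearEquiv (R ⊗[k] 𝒞.B0) L.P0
    e1 := Module.Invertible.linearEquiv (R ⊗[k] 𝒞.B1) L.P1
    e01 := Module.Invertible.linearEquiv (R ⊗[k] 𝒞.B01) L.P01
    comm0 := fun t => by
      induction t using TensorProduct.induction_on with
      | zero => rw [map_zero, map_zero, map_zero, map_zero]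
      | tmul l p =>
        rw [tensor_r0_tmul]
        show (dual L h).r0 l (L.r0 p) = 𝒞.ι0 R (l p)
        exact dual_r0_apply L h l p
      | add a b ha hb => rw [map_add, map_add, map_add, map_add, ha, hb]
    comm1 := fun t => by
      induction t using TensorProduct.induction_on with
      | zero => rw [map_zero, map_zero, map_zero, map_zero]
      | tmul l p =>
        rw [tensor_r1_tmul]
        show (dual L h).r1 l (L.r1 p) = 𝒞.ι1 R (l p)
        exact dual_r1_apply L h l p
      | add a b ha hb => rw [map_add, map_add, map_add, map_add, ha, hb] }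

/-- **`L ⊗ L^∨ ≅ O`**. -/
def tensorDual (L : Triple 𝒞 R) (h : 𝒞.IsGood) :
    Triple.Iso (tensor L (dual L h) h) (unitTriple 𝒞 R h) :=
  isoTrans (tensorComm L (dual L h) h) (dualTensor L h)

end Fermat.Agent.S25.LB.H60
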