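/-
S25 (row 24), package LB, leaf LB-BCUNIQ (helper73): base changes of triples are unique up to
isomorphism, and isomorphic triples have isomorphic base changes.

`H73.stmt_BCUNIQ : Stmt_BCUNIQ`.

Proof.  `Chart.BC φ L L'` gives semilinear maps `b_i : L.P_i → L'.P_i` whose images generate; the
induced map `(R' ⊗ B_i) ⊗_(R ⊗ B_i) L.P_i → L'.P_i` is a surjection of invertible modules, hence
bijective (`Module.Invertible.bijective_of_surjective`).  So an isomorphism `e : L.P_i ≃ M.P_i`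
induces `e' : L'.P_i ≃ M'.P_i` with `e' ∘ b_i = b_i ∘ e` (`exists_lift`).  The same holds on the
overlap (`P01` is invertible by `H60.inv01`, and the image of `b01` generates by `gen01`).
Compatibility with `r0`, `r1` is checked on the generators.
-/
import Fermat.Agent.S25.LB.DefsE
import Fermat.Agent.S25.LB.H60_Dual

set_option autoImplicit false
set_option linter.style.haveILetI false
set_option linter.unusedSectionVars false

universe u

open TensorProduct

noncomputable section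

namespace Fermat.Agent.S25.LB.H73

open Fermat.Agent.S25.Chart Fermat.Agent.S25.LB

/-! ### Abstract part: semilinear maps with generating image between invertible modules -/

section Abstract

variable {A A' : Type u} [CommRing A] [CommRing A'] (τ : A →+* A')
  {P Q P' Q' : Type u} [AddCommGroup P] [Module A P] [AddCommGroup Q] [Module A Q]
  [AddCommGroup P'] [Module A' P'] [AddCommGroup Q'] [Module A' Q']

/-- The comparison map `A' ⊗[A] P → P'` of a `τ`-semilinear map `b : P → P'`. -/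
def cmp (b : P →+ P') (s : ∀ (c : A) (p : P), b (c • p) = τ c • b p) :
    letI : Algebra A A' := τ.toAlgebra
    A' ⊗[A] P →ₗ[A'] P' :=
  letI : Algebra A A' := τ.toAlgebra
  letI : Module A P' := Module.compHom P' τ
  haveI : IsScalarTower A A' P' := IsScalarTower.of_algebraMap_smul fun _ _ => rfl
  LinearMap.liftBaseChange A' { toFun := b, map_add' := b.map_add, map_smul' := s }

theorem cmp_tmul (b : P →+ P') (s : ∀ (c : A) (p : P), b (c • p) = τ c • b p) (a : A') (p : P) :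
    letI : Algebra A A' := τ.toAlgebra
    cmp τ b s (a ⊗ₜ[A] p) = a • b p := rfl

theorem cmp_surjective (b : P →+ P') (s : ∀ (c : A) (p : P), b (c • p) = τ c • b p)
    (g : Submodule.span A' (Set.range b) = ⊤) :
    letI : Algebra A A' := τ.toAlgebra
    Function.Surjective (cmp τ b s) := by
  letI : Algebra A A' := τ.toAlgebra
  rw [← LinearMap.range_eq_top, eq_top_iff, ← g, Submodule.span_le]
  rintro _ ⟨p, rfl⟩
  exact ⟨(1 : A') ⊗ₜ[A] p, by rw [cmp_tmul, one_smul]⟩

theorem cmp_bijective [Module.Invertible A P] [Module.Invertible A' P']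
    (b : P →+ P') (s : ∀ (c : A) (p : P), b (c • p) = τ c • b p)
    (g : Submodule.span A' (Set.range b) = ⊤) :
    letI : Algebra A A' := τ.toAlgebra
    Function.Bijective (cmp τ b s) := by
  letI : Algebra A A' := τ.toAlgebra
  exact Module.Invertible.bijective_of_surjective (cmp_surjective τ b s g)

/-- **Lifting isomorphisms to base changes.** -/
theorem exists_lift [Module.Invertible A P] [Module.Invertible A Q]
    [Module.Invertible A' P'] [Module.Invertible A' Q']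
    (bP : P →+ P') (sP : ∀ (c : A) (p : P), bP (c • p) = τ c • bP p)
    (gP : Submodule.span A' (Set.range bP) = ⊤)
    (bQ : Q →+ Q') (sQ : ∀ (c : A) (q : Q), bQ (c • q) = τ c • bQ q)
    (gQ : Submodule.span A' (Set.range bQ) = ⊤)
    (e : P ≃ₗ[A] Q) :
    ∃ e' : P' ≃ₗ[A'] Q', ∀ p, e' (bP p) = bQ (e p) := by
  letI : Algebra A A' := τ.toAlgebra
  let EP : A' ⊗[A] P ≃ₗ[A'] P' := LinearEquiv.ofBijective (cmp τ bP sP) (cmp_bijective τ bP sP gP)
  let EQ : A' ⊗[A] Q ≃ₗ[A'] Q' := LinearEquiv.ofBijective (cmp τ bQ sQ) (cmp_bijective τ bQ sQ gQ)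
  let C : A' ⊗[A] P ≃ₗ[A'] A' ⊗[A] Q :=
    TensorProduct.AlgebraTensorModule.congr (LinearEquiv.refl A' A') e
  refine ⟨EP.symm ≪≫ₗ C ≪≫ₗ EQ, fun p => ?_⟩
  have h1 : EP.symm (bP p) = (1 : A') ⊗ₜ[A] p := by
    rw [LinearEquiv.symm_apply_eq]
    show bP p = cmp τ bP sP ((1 : A') ⊗ₜ[A] p)
    rw [cmp_tmul, one_smul]
  have h2 : C ((1 : A') ⊗ₜ[A] p) = (1 : A') ⊗ₜ[A] e p := rfl
  rw [LinearEquiv.trans_apply, LinearEquiv.trans_apply, h1, h2]
  show cmp τ bQ sQ ((1 : A') ⊗ₜ[A] e p) = bQ (e p)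
  rw [cmp_tmul, one_smul]

end Abstract

/-! ### Triples -/

variable {k : Type u} [Field k] {𝒞 : CurveDatum k} {R : Type u} [CommRing R] [Algebra k R]
  {R' : Type u} [CommRing R'] [Algebra k R']

/-- `tmap` commutes with `ι0`. -/
theorem tmap_ι0 (φ : R →ₐ[k] R') (c : R ⊗[k] 𝒞.B0) :
    tmap φ 𝒞.B01 (𝒞.ι0 R c) = 𝒞.ι0 R' (tmap φ 𝒞.B0 c) := by
  induction c using TensorProduct.induction_on with
  | zero => simp only [map_zero]
  | tmul r b => rfl
  | add x y hx hy => simp only [map_add, hx, hy]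

/-- `tmap` commutes with `ι1`. -/
theorem tmap_ι1 (φ : R →ₐ[k] R') (c : R ⊗[k] 𝒞.B1) :
    tmap φ 𝒞.B01 (𝒞.ι1 R c) = 𝒞.ι1 R' (tmap φ 𝒞.B1 c) := by
  induction c using TensorProduct.induction_on with
  | zero => simp only [map_zero]
  | tmul r b => rfl
  | add x y hx hy => simp only [map_add, hx, hy]

/-- The image of `b01` generates (from `gen0`). -/
theorem gen01 {φ : R →ₐ[k] R'} {L : Triple 𝒞 R} {L' : Triple 𝒞 R'} (β : BC φ L L') :
    Submodule.span (R' ⊗[k] 𝒞.B01) (Set.range β.b01) = ⊤ := by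
  rw [eq_top_iff]
  rintro m -
  obtain ⟨n, p, hp⟩ := L'.surj0 m
  have hp' : p ∈ Submodule.span (R' ⊗[k] 𝒞.B0) (Set.range β.b0) := by
    rw [β.gen0]; trivial
  have key : ∀ q ∈ Submodule.span (R' ⊗[k] 𝒞.B0) (Set.range β.b0),
      L'.r0 q ∈ Submodule.span (R' ⊗[k] 𝒞.B01) (Set.range β.b01) := by
    intro q hq
    induction hq using Submodule.span_induction with
    | mem x hx =>
      obtain ⟨y, rfl⟩ := hx
      rw [← β.comm0]
      exact Submodule.subset_span ⟨_, rfl⟩
    | zero => rw [map_zero]; exact Submodule.zero_mem _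
    | add x y _ _ hx hy => rw [map_add]; exact Submodule.add_mem _ hx hy
    | smul c x _ hx => rw [L'.r0.map_smulₛₗ]; exact Submodule.smul_mem _ _ hx
  have h1 := key p hp'
  rw [← hp] at h1
  have h2 := Submodule.smul_mem _ (((1 : R') ⊗ₜ[k] 𝒞.i1 𝒞.z1 : R' ⊗[k] 𝒞.B01) ^ n) h1
  rwa [smul_smul, ← mul_pow, mul_comm, Triple.unit_mul_unit, one_pow, one_smul] at h2

/-- **LB-BCUNIQ**, with the compatibility of the isomorphisms. -/
theorem bc_iso (h : 𝒞.IsGood) {φ : R →ₐ[k] R'} {L M : Triple 𝒞 R} {L' M' : Triple 𝒞 R'}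
    (β : BC φ L L') (γ : BC φ M M') (I : Triple.Iso L M) :
    ∃ I' : Triple.Iso L' M', (∀ p, I'.e0 (β.b0 p) = γ.b0 (I.e0 p)) ∧
      (∀ p, I'.e1 (β.b1 p) = γ.b1 (I.e1 p)) ∧ (∀ p, I'.e01 (β.b01 p) = γ.b01 (I.e01 p)) := by
  haveI := L.inv0
  haveI := L.inv1
  haveI := M.inv0
  haveI := M.inv1
  haveI := L'.inv0
  haveI := L'.inv1
  haveI := M'.inv0
  haveI := M'.inv1
  haveI := H60.inv01 L h
  haveI := H60.inv01 M h
  haveI := H60.inv01 L' h
  haveI := H60.inv01 M' h
  obtain ⟨e0, he0⟩ := exists_lift (tmap φ 𝒞.B0).toRingHom β.b0 β.semi0 β.gen0 γ.b0 γ.semi0 γ.gen0 I.e0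
  obtain ⟨e1, he1⟩ := exists_lift (tmap φ 𝒞.B1).toRingHom β.b1 β.semi1 β.gen1 γ.b1 γ.semi1 γ.gen1 I.e1
  obtain ⟨e01, he01⟩ := exists_lift (tmap φ 𝒞.B01).toRingHom β.b01 β.semi01 (gen01 β)
    γ.b01 γ.semi01 (gen01 γ) I.e01
  have c0 : ∀ p, e01 (L'.r0 p) = M'.r0 (e0 p) := by
    intro p
    have hp : p ∈ Submodule.span (R' ⊗[k] 𝒞.B0) (Set.range β.b0) := by
      rw [β.gen0]; trivial
    induction hp using Submodule.span_induction with
    | mem x hx =>
      obtain ⟨y, rfl⟩ := hx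
      rw [← β.comm0, he01, I.comm0, γ.comm0, he0]
    | zero => simp only [map_zero]
    | add x y _ _ hx hy => simp only [map_add, hx, hy]
    | smul c x _ hx =>
      rw [L'.r0.map_smulₛₗ, map_smul, hx, map_smul, M'.r0.map_smulₛₗ]
  have c1 : ∀ p, e01 (L'.r1 p) = M'.r1 (e1 p) := by
    intro p
    have hp : p ∈ Submodule.span (R' ⊗[k] 𝒞.B1) (Set.range β.b1) := by
      rw [β.gen1]; trivial
    induction hp using Submodule.span_induction with
    | mem x hx =>
      obtain ⟨y, rfl⟩ := hx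
      rw [← β.comm1, he01, I.comm1, γ.comm1, he1]
    | zero => simp only [map_zero]
    | add x y _ _ hx hy => simp only [map_add, hx, hy]
    | smul c x _ hx =>
      rw [L'.r1.map_smulₛₗ, map_smul, hx, map_smul, M'.r1.map_smulₛₗ]
  exact ⟨⟨e0, e1, e01, c0, c1⟩, he0, he1, he01⟩

/-- **LB-BCUNIQ**. -/
theorem stmt_BCUNIQ : Stmt_BCUNIQ.{u} := by
  intro k _ 𝒞 h R R' _ _ _ _ φ L M L' M' β γ ⟨I⟩
  obtain ⟨I', -⟩ := bc_iso h β γ I
  exact ⟨I'⟩

end Fermat.Agent.S25.LB.H73
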