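/-
S25 (row 24), package LB, leaf LB-TENSBC (helper60), part 1: abstract base change of modules.

For a ring map `σ : S → S'` and a `σ`-semilinear map `b : P → P'` whose image generates `P'`
(`Submodule.span S' (Set.range b) = ⊤`):

* `ext_of_gen` : linear maps out of `P'` are determined on the image of `b`;
* `tmap_gen` : the tensor product of two generating maps is generating;
* `isBaseChange_of_gen` : if `P` and `P'` are invertible, `b` is a base change
  (`S' ⊗[S] P ≃ P'`);
* `bdual hb : Dual S P →ₛₗ[σ] Dual S' P'`, `bdual_apply : bdual hb l (b p) = σ (l p)`,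
  `bdual_gen` : the dual of a generating map between invertible modules is generating;
* `gen_comp` : a generating map followed by a localisation is generating.
Mathlib only (through `H60_LocMod`).
-/
import Fermat.Agent.S25.LB.H60_LocMod

set_option autoImplicit false
set_option linter.style.haveILetI false
set_option linter.unusedSectionVars false

universe u

open TensorProduct

noncomputable section

namespace Fermat.Agent.S25.LB.H60

section Gen

variable {S S' : Type u} [CommRing S] [CommRing S'] {σ : S →+* S'}
  {P P' Q Q' : Type u} [AddCommGroup P] [Module S P] [AddCommGroup P'] [Module S' P']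
  [AddCommGroup Q] [Module S Q] [AddCommGroup Q'] [Module S' Q']

/-- Linear maps out of `P'` are determined on a generating image. -/
theorem ext_of_gen {N : Type u} [AddCommGroup N] [Module S' N] {b : P →ₛₗ[σ] P'}
    (hb : Submodule.span S' (Set.range b) = ⊤) {f g : P' →ₗ[S'] N}
    (h : ∀ p, f (b p) = g (b p)) : f = g := by
  apply LinearMap.ext_on hb
  rintro _ ⟨p, rfl⟩
  exact h p

/-- The tensor product of two generating maps is generating. -/
theorem tmap_gen {b : P →ₛₗ[σ] P'} {c : Q →ₛₗ[σ] Q'}
    (hb : Submodule.span S' (Set.range b) = ⊤) (hc : Submodule.span S' (Set.range c) = ⊤) :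
    Submodule.span S' (Set.range (tmap σ b c)) = ⊤ := by
  have key : ∀ t : P' ⊗[S'] Q', t ∈ Submodule.span S' (Set.range (tmap σ b c)) := by
    intro t
    induction t using TensorProduct.induction_on with
    | zero => exact Submodule.zero_mem _
    | tmul p' q' =>
      have hp : p' ∈ Submodule.span S' (Set.range b) := by rw [hb]; exact Submodule.mem_top
      have hq : q' ∈ Submodule.span S' (Set.range c) := by rw [hc]; exact Submodule.mem_top
      induction hp using Submodule.span_induction with
      | mem x hx =>
        obtain ⟨p, rfl⟩ := hx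
        induction hq using Submodule.span_induction with
        | mem y hy =>
          obtain ⟨q, rfl⟩ := hy
          exact Submodule.subset_span ⟨p ⊗ₜ[S] q, tmap_tmul b c p q⟩
        | zero => rw [TensorProduct.tmul_zero]; exact Submodule.zero_mem _
        | add y z _ _ hy hz => rw [TensorProduct.tmul_add]; exact Submodule.add_mem _ hy hz
        | smul a y _ hy => rw [TensorProduct.tmul_smul]; exact Submodule.smul_mem _ a hy
      | zero => rw [TensorProduct.zero_tmul]; exact Submodule.zero_mem _
      | add y z _ _ hy hz => rw [TensorProduct.add_tmul]; exact Submodule.add_mem _ hy hz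
      | smul a y _ hy => rw [← TensorProduct.smul_tmul']; exact Submodule.smul_mem _ a hy
    | add a b ha hb => exact Submodule.add_mem _ ha hb
  rw [eq_top_iff]
  exact fun t _ => key t

/-- A generating semilinear map between invertible modules is a base change. -/
theorem isBaseChange_of_gen [Module.Invertible S P] [Module.Invertible S' P'] {b : P →ₛₗ[σ] P'}
    (hb : Submodule.span S' (Set.range b) = ⊤) :
    letI : Algebra S S' := σ.toAlgebra
    letI : Module S P' := Module.compHom P' σ
    haveI : IsScalarTower S S' P' := ⟨fun s s' p => by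
      show (σ s * s') • p = σ s • (s' • p)
      rw [mul_smul]⟩
    IsBaseChange S' (linOf b) := by
  letI : Algebra S S' := σ.toAlgebra
  letI : Module S P' := Module.compHom P' σ
  haveI : IsScalarTower S S' P' := ⟨fun s s' p => by
    show (σ s * s') • p = σ s • (s' • p)
    rw [mul_smul]⟩
  have hsurj : Function.Surjective (LinearMap.liftBaseChange S' (linOf b)) := by
    rw [← LinearMap.range_eq_top, eq_top_iff, ← hb, Submodule.span_le]
    rintro _ ⟨p, rfl⟩
    refine ⟨(1 : S') ⊗ₜ[S] p, ?_⟩
    rw [LinearMap.liftBaseChange_tmul, one_smul]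
    rfl
  have hbij := Module.Invertible.bijective_of_surjective hsurj
  refine IsBaseChange.of_equiv (LinearEquiv.ofBijective _ hbij) ?_
  intro p
  rw [LinearEquiv.ofBijective_apply, LinearMap.liftBaseChange_tmul, one_smul]

/-- The dual of a generating map between invertible modules, as an `S`-linear map. -/
def bdualLin [Module.Invertible S P] [Module.Invertible S' P'] {b : P →ₛₗ[σ] P'}
    (hb : Submodule.span S' (Set.range b) = ⊤) :
    letI : Algebra S S' := σ.toAlgebra
    Module.Dual S P →ₗ[S] Module.Dual S' P' :=
  letI : Algebra S S' := σ.toAlgebra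
  letI : Module S P' := Module.compHom P' σ
  haveI : IsScalarTower S S' P' := ⟨fun s s' p => by
    show (σ s * s') • p = σ s • (s' • p)
    rw [mul_smul]⟩
  (isBaseChange_of_gen hb).toDual

theorem bdualLin_apply [Module.Invertible S P] [Module.Invertible S' P'] {b : P →ₛₗ[σ] P'}
    (hb : Submodule.span S' (Set.range b) = ⊤) (l : Module.Dual S P) (p : P) :
    bdualLin hb l (b p) = σ (l p) := by
  letI : Algebra S S' := σ.toAlgebra
  letI : Module S P' := Module.compHom P' σ
  haveI : IsScalarTower S S' P' := ⟨fun s s' p => by
    show (σ s * s') • p = σ s • (s' • p)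
    rw [mul_smul]⟩
  exact (isBaseChange_of_gen hb).toDual_comp_apply l p

/-- **The dual of a generating map between invertible modules.** -/
def bdual [Module.Invertible S P] [Module.Invertible S' P'] {b : P →ₛₗ[σ] P'}
    (hb : Submodule.span S' (Set.range b) = ⊤) :
    Module.Dual S P →ₛₗ[σ] Module.Dual S' P' :=
  letI : Algebra S S' := σ.toAlgebra
  { toFun := bdualLin hb
    map_add' := map_add _
    map_smul' := fun c l => by
      rw [(bdualLin hb).map_smul c l]
      ext p'
      show c • (bdualLin hb l p') = σ c • (bdualLin hb l p')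
      rfl }

theorem bdual_apply [Module.Invertible S P] [Module.Invertible S' P'] {b : P →ₛₗ[σ] P'}
    (hb : Submodule.span S' (Set.range b) = ⊤) (l : Module.Dual S P) (p : P) :
    bdual hb l (b p) = σ (l p) :=
  bdualLin_apply hb l p

/-- The dual of a generating map between invertible modules is generating. -/
theorem bdual_gen [Module.Invertible S P] [Module.Invertible S' P'] {b : P →ₛₗ[σ] P'}
    (hb : Submodule.span S' (Set.range b) = ⊤) :
    Submodule.span S' (Set.range (bdual hb)) = ⊤ := by
  obtain ⟨n, f, g, -, -, hfg⟩ := Module.Finite.exists_comp_eq_id_of_projective S P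
  have hall : ∀ l' : Module.Dual S' P', l' ∈ Submodule.span S' (Set.range (bdual hb)) := by
    intro l'
    have key : l' = ∑ i : Fin n, l' (b (f (fun j => if i = j then 1 else 0))) •
        bdual hb ((LinearMap.proj i : (Fin n → S) →ₗ[S] S).comp g) := by
      apply ext_of_gen hb
      intro p
      have hp : p = ∑ i : Fin n, (g p i) • f (fun j => if i = j then 1 else 0) := by
        have h1 : f (g p) = p := LinearMap.congr_fun hfg p
        rw [← LinearMap.pi_apply_eq_sum_univ f (g p), h1]
      rw [LinearMap.sum_apply]
      simp only [LinearMap.smul_apply, bdual_apply, LinearMap.comp_apply, LinearMap.proj_apply,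
        smul_eq_mul]
      conv_lhs => rw [hp, map_sum, map_sum]
      refine Finset.sum_congr rfl fun i _ => ?_
      rw [LinearMap.map_smulₛₗ, map_smul, smul_eq_mul, mul_comm]
    rw [key]
    exact Submodule.sum_mem _ fun i _ =>
      Submodule.smul_mem _ _ (Submodule.subset_span ⟨_, rfl⟩)
  rw [eq_top_iff]
  exact fun l' _ => hall l'

end Gen

section Comp

variable {S S' T' : Type u} [CommRing S] [CommRing S'] [CommRing T'] {σ : S →+* S'}
  {φ : S' →+* T'} {x : S'}
  {P P' Q' : Type u} [AddCommGroup P] [Module S P] [AddCommGroup P'] [Module S' P']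
  [AddCommGroup Q'] [Module T' Q']

/-- A generating map followed by a localisation generates: for `b : P → P'` generating and
`r' : P' → Q'` a localisation at `x`, every `c : P → Q'` with `c = r' ∘ b` is generating. -/
theorem gen_comp {b : P →ₛₗ[σ] P'} (hb : Submodule.span S' (Set.range b) = ⊤)
    (hS : IsLocRing φ x) {r' : P' →ₛₗ[φ] Q'} (hr : IsLocMod φ x r')
    (c : P → Q') (hc : ∀ p, c p = r' (b p)) :
    Submodule.span T' (Set.range c) = ⊤ := by
  have h1 : ∀ p' : P', r' p' ∈ Submodule.span T' (Set.range c) := by
    intro p'
    have hp : p' ∈ Submodule.span S' (Set.range b) := by rw [hb]; exact Submodule.mem_top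
    induction hp using Submodule.span_induction with
    | mem y hy =>
      obtain ⟨p, rfl⟩ := hy
      exact Submodule.subset_span ⟨p, hc p⟩
    | zero => rw [map_zero]; exact Submodule.zero_mem _
    | add y z _ _ hy hz => rw [map_add]; exact Submodule.add_mem _ hy hz
    | smul a y _ hy => rw [LinearMap.map_smulₛₗ]; exact Submodule.smul_mem _ _ hy
  rw [eq_top_iff]
  intro m hm
  clear hm
  obtain ⟨n, p', hp'⟩ := hr.surj m
  obtain ⟨u, hu⟩ := hS.unit
  have h2 : m = (↑(u⁻¹ ^ n) : T') • r' p' := by
    rw [← hp', smul_smul]
    have h3 : (↑(u⁻¹ ^ n) : T') * φ x ^ n = 1 := by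
      rw [← hu, ← Units.val_pow_eq_pow_val, ← Units.val_mul, ← mul_pow, inv_mul_cancel,
        one_pow, Units.val_one]
    rw [h3, one_smul]
  rw [h2]
  exact Submodule.smul_mem _ _ (h1 p')

end Comp

end Fermat.Agent.S25.LB.H60
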