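/-
S25 (row 24), package LB, leaf LB-TENSBC (helper60), part 2: unit, tensor product and dual commute
with base change (`Chart.BC`).

* `sig φ B : R ⊗ B →+* R' ⊗ B`, `sig_ι0`, `sig_ι1` (naturality);
* `bcSemi0/1/01 β` : the three maps of a base change as semilinear maps; `BC.gen01`;
* `unitBC φ h : BC φ (unitTriple 𝒞 R h) (unitTriple 𝒞 R' h)`;
* `tensorBC h β γ : BC φ (tensor L M h) (tensor L' M' h)`;
* `dualBC h β : BC φ (dual L h) (dual L' h)`, with `dualBC_b0_apply`, `dualBC_b1_apply`.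
-/
import Fermat.Agent.S25.LB.H60_Dual
import Fermat.Agent.S25.LB.H60_BCMod
import Fermat.Agent.S25.Chart.Defs2

set_option autoImplicit false
set_option linter.style.haveILetI false
set_option linter.unusedSectionVars false

universe u

open Polynomial TensorProduct

noncomputable section

namespace Fermat.Agent.S25.LB.H60

open Fermat.Agent.S25.Chart

variable {k : Type u} [Field k] {𝒞 : CurveDatum k} {R : Type u} [CommRing R] [Algebra k R]
  {R' : Type u} [CommRing R'] [Algebra k R']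

/-- The ring map `R ⊗ B → R' ⊗ B`. -/
def sig (φ : R →ₐ[k] R') (B : Type u) [CommRing B] [Algebra k B] :
    (R ⊗[k] B) →+* (R' ⊗[k] B) :=
  (Chart.tmap φ B).toRingHom

theorem sig_apply (φ : R →ₐ[k] R') (B : Type u) [CommRing B] [Algebra k B] (s : R ⊗[k] B) :
    sig φ B s = Chart.tmap φ B s := rfl

theorem sig_tmul (φ : R →ₐ[k] R') (B : Type u) [CommRing B] [Algebra k B] (r : R) (b : B) :
    sig φ B (r ⊗ₜ[k] b) = φ r ⊗ₜ[k] b := rfl

theorem sig_ι0 (φ : R →ₐ[k] R') (s : R ⊗[k] 𝒞.B0) :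
    sig φ 𝒞.B01 (𝒞.ι0 R s) = 𝒞.ι0 R' (sig φ 𝒞.B0 s) := by
  induction s using TensorProduct.induction_on with
  | zero => rw [map_zero, map_zero, map_zero, map_zero]
  | tmul r b => rfl
  | add a b ha hb => rw [map_add, map_add, map_add, map_add, ha, hb]

theorem sig_ι1 (φ : R →ₐ[k] R') (s : R ⊗[k] 𝒞.B1) :
    sig φ 𝒞.B01 (𝒞.ι1 R s) = 𝒞.ι1 R' (sig φ 𝒞.B1 s) := by
  induction s using TensorProduct.induction_on with
  | zero => rw [map_zero, map_zero, map_zero, map_zero]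
  | tmul r b => rfl
  | add a b ha hb => rw [map_add, map_add, map_add, map_add, ha, hb]

/-! ### The maps of a base change as semilinear maps -/

section Semi

variable {φ : R →ₐ[k] R'} {L : Triple 𝒞 R} {L' : Triple 𝒞 R'}

/-- `b0` as a semilinear map. -/
def bcSemi0 (β : BC φ L L') : L.P0 →ₛₗ[sig φ 𝒞.B0] L'.P0 where
  toFun := β.b0
  map_add' := map_add β.b0
  map_smul' := β.semi0

/-- `b1` as a semilinear map. -/
def bcSemi1 (β : BC φ L L') : L.P1 →ₛₗ[sig φ 𝒞.B1] L'.P1 where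
  toFun := β.b1
  map_add' := map_add β.b1
  map_smul' := β.semi1

/-- `b01` as a semilinear map. -/
def bcSemi01 (β : BC φ L L') : L.P01 →ₛₗ[sig φ 𝒞.B01] L'.P01 where
  toFun := β.b01
  map_add' := map_add β.b01
  map_smul' := β.semi01

theorem bcSemi0_apply (β : BC φ L L') (p : L.P0) : bcSemi0 β p = β.b0 p := rfl

theorem bcSemi1_apply (β : BC φ L L') (p : L.P1) : bcSemi1 β p = β.b1 p := rfl

theorem bcSemi01_apply (β : BC φ L L') (p : L.P01) : bcSemi01 β p = β.b01 p := rfl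

theorem bcSemi0_gen (β : BC φ L L') :
    Submodule.span (R' ⊗[k] 𝒞.B0) (Set.range (bcSemi0 β)) = ⊤ := β.gen0

theorem bcSemi1_gen (β : BC φ L L') :
    Submodule.span (R' ⊗[k] 𝒞.B1) (Set.range (bcSemi1 β)) = ⊤ := β.gen1

/-- The image of `b01` generates. -/
theorem bcSemi01_gen (h : 𝒞.IsGood) (β : BC φ L L') :
    Submodule.span (R' ⊗[k] 𝒞.B01) (Set.range (bcSemi01 β)) = ⊤ := by
  have h1 := gen_comp (bcSemi0_gen β) (isLocRing0 R' h) (isLocMod0 L')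
    (fun p => β.b01 (L.r0 p)) (fun p => β.comm0 p)
  rw [eq_top_iff, ← h1]
  apply Submodule.span_mono
  rintro _ ⟨p, rfl⟩
  exact ⟨L.r0 p, rfl⟩

end Semi

/-! ### The unit -/

/-- **The unit triple commutes with base change.** -/
def unitBC (φ : R →ₐ[k] R') (h : 𝒞.IsGood) :
    BC φ (unitTriple 𝒞 R h) (unitTriple 𝒞 R' h) where
  b0 := (sig φ 𝒞.B0).toAddMonoidHom
  b1 := (sig φ 𝒞.B1).toAddMonoidHom
  b01 := (sig φ 𝒞.B01).toAddMonoidHom
  semi0 := fun c q => map_mul (sig φ 𝒞.B0) c q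
  semi1 := fun c q => map_mul (sig φ 𝒞.B1) c q
  semi01 := fun c q => map_mul (sig φ 𝒞.B01) c q
  comm0 := fun q => sig_ι0 φ q
  comm1 := fun q => sig_ι1 φ q
  gen0 := by
    rw [eq_top_iff]
    intro s _
    have h1 : (1 : R' ⊗[k] 𝒞.B0) ∈
        Submodule.span (R' ⊗[k] 𝒞.B0) (Set.range (sig φ 𝒞.B0).toAddMonoidHom) :=
      Submodule.subset_span ⟨1, map_one (sig φ 𝒞.B0)⟩
    have h2 := Submodule.smul_mem _ s h1
    rwa [smul_eq_mul, mul_one] at h2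
  gen1 := by
    rw [eq_top_iff]
    intro s _
    have h1 : (1 : R' ⊗[k] 𝒞.B1) ∈
        Submodule.span (R' ⊗[k] 𝒞.B1) (Set.range (sig φ 𝒞.B1).toAddMonoidHom) :=
      Submodule.subset_span ⟨1, map_one (sig φ 𝒞.B1)⟩
    have h2 := Submodule.smul_mem _ s h1
    rwa [smul_eq_mul, mul_one] at h2

/-! ### The tensor product -/

section Tensor

variable {φ : R →ₐ[k] R'} {L M : Triple 𝒞 R} {L' M' : Triple 𝒞 R'}

/-- **The tensor product commutes with base change.** -/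
def tensorBC (h : 𝒞.IsGood) (β : BC φ L L') (γ : BC φ M M') :
    BC φ (tensor L M h) (tensor L' M' h) where
  b0 := (tmap (sig φ 𝒞.B0) (bcSemi0 β) (bcSemi0 γ)).toAddMonoidHom
  b1 := (tmap (sig φ 𝒞.B1) (bcSemi1 β) (bcSemi1 γ)).toAddMonoidHom
  b01 := (tmap (sig φ 𝒞.B01) (bcSemi01 β) (bcSemi01 γ)).toAddMonoidHom
  semi0 := fun c q => (tmap (sig φ 𝒞.B0) (bcSemi0 β) (bcSemi0 γ)).map_smulₛₗ c q
  semi1 := fun c q => (tmap (sig φ 𝒞.B1) (bcSemi1 β) (bcSemi1 γ)).map_smulₛₗ c q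
  semi01 := fun c q => (tmap (sig φ 𝒞.B01) (bcSemi01 β) (bcSemi01 γ)).map_smulₛₗ c q
  comm0 := fun t => by
    show tmap (sig φ 𝒞.B01) (bcSemi01 β) (bcSemi01 γ) ((tensor L M h).r0 t) =
      (tensor L' M' h).r0 (tmap (sig φ 𝒞.B0) (bcSemi0 β) (bcSemi0 γ) t)
    induction t using TensorProduct.induction_on with
    | zero => rw [map_zero, map_zero, map_zero, map_zero]
    | tmul p q =>
      rw [tensor_r0_tmul, tmap_tmul, tmap_tmul, tensor_r0_tmul, bcSemi01_apply, bcSemi01_apply,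
        bcSemi0_apply, bcSemi0_apply, β.comm0, γ.comm0]
    | add a b ha hb => rw [map_add, map_add, map_add, map_add, ha, hb]
  comm1 := fun t => by
    show tmap (sig φ 𝒞.B01) (bcSemi01 β) (bcSemi01 γ) ((tensor L M h).r1 t) =
      (tensor L' M' h).r1 (tmap (sig φ 𝒞.B1) (bcSemi1 β) (bcSemi1 γ) t)
    induction t using TensorProduct.induction_on with
    | zero => rw [map_zero, map_zero, map_zero, map_zero]
    | tmul p q =>
      rw [tensor_r1_tmul, tmap_tmul, tmap_tmul, tensor_r1_tmul, bcSemi01_apply, bcSemi01_apply,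
        bcSemi1_apply, bcSemi1_apply, β.comm1, γ.comm1]
    | add a b ha hb => rw [map_add, map_add, map_add, map_add, ha, hb]
  gen0 := tmap_gen (bcSemi0_gen β) (bcSemi0_gen γ)
  gen1 := tmap_gen (bcSemi1_gen β) (bcSemi1_gen γ)

theorem tensorBC_b0_tmul (h : 𝒞.IsGood) (β : BC φ L L') (γ : BC φ M M') (p : L.P0) (q : M.P0) :
    (tensorBC h β γ).b0 (p ⊗ₜ[R ⊗[k] 𝒞.B0] q) = β.b0 p ⊗ₜ[R' ⊗[k] 𝒞.B0] γ.b0 q :=
  tmap_tmul (bcSemi0 β) (bcSemi0 γ) p q

theorem tensorBC_b1_tmul (h : 𝒞.IsGood) (β : BC φ L L') (γ : BC φ M M') (p : L.P1) (q : M.P1) :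
    (tensorBC h β γ).b1 (p ⊗ₜ[R ⊗[k] 𝒞.B1] q) = β.b1 p ⊗ₜ[R' ⊗[k] 𝒞.B1] γ.b1 q :=
  tmap_tmul (bcSemi1 β) (bcSemi1 γ) p q

end Tensor

/-! ### The dual -/

section Dual

variable {φ : R →ₐ[k] R'} {L : Triple 𝒞 R} {L' : Triple 𝒞 R'}

/-- The dual of `b0`. -/
def dualB0 (β : BC φ L L') :
    Module.Dual (R ⊗[k] 𝒞.B0) L.P0 →ₛₗ[sig φ 𝒞.B0] Module.Dual (R' ⊗[k] 𝒞.B0) L'.P0 :=
  haveI := L.inv0
  haveI := L'.inv0
  bdual (bcSemi0_gen β)

/-- The dual of `b1`. -/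
def dualB1 (β : BC φ L L') :
    Module.Dual (R ⊗[k] 𝒞.B1) L.P1 →ₛₗ[sig φ 𝒞.B1] Module.Dual (R' ⊗[k] 𝒞.B1) L'.P1 :=
  haveI := L.inv1
  haveI := L'.inv1
  bdual (bcSemi1_gen β)

/-- The dual of `b01`. -/
def dualB01 (h : 𝒞.IsGood) (β : BC φ L L') :
    Module.Dual (R ⊗[k] 𝒞.B01) L.P01 →ₛₗ[sig φ 𝒞.B01] Module.Dual (R' ⊗[k] 𝒞.B01) L'.P01 :=
  haveI := inv01 L h
  haveI := inv01 L' h
  bdual (bcSemi01_gen h β)

theorem dualB0_apply (β : BC φ L L') (l : Module.Dual (R ⊗[k] 𝒞.B0) L.P0) (p : L.P0) :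
    dualB0 β l (β.b0 p) = sig φ 𝒞.B0 (l p) :=
  haveI := L.inv0
  haveI := L'.inv0
  bdual_apply (bcSemi0_gen β) l p

theorem dualB1_apply (β : BC φ L L') (l : Module.Dual (R ⊗[k] 𝒞.B1) L.P1) (p : L.P1) :
    dualB1 β l (β.b1 p) = sig φ 𝒞.B1 (l p) :=
  haveI := L.inv1
  haveI := L'.inv1
  bdual_apply (bcSemi1_gen β) l p

theorem dualB01_apply (h : 𝒞.IsGood) (β : BC φ L L') (l : Module.Dual (R ⊗[k] 𝒞.B01) L.P01)
    (p : L.P01) : dualB01 h β l (β.b01 p) = sig φ 𝒞.B01 (l p) :=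
  haveI := inv01 L h
  haveI := inv01 L' h
  bdual_apply (bcSemi01_gen h β) l p

theorem dualB_comm0 (h : 𝒞.IsGood) (β : BC φ L L') (l : Module.Dual (R ⊗[k] 𝒞.B0) L.P0) :
    dualB01 h β ((dual L h).r0 l) = (dual L' h).r0 (dualB0 β l) := by
  have hgen := gen_comp (bcSemi0_gen β) (isLocRing0 R' h) (isLocMod0 L')
    (fun p => L'.r0 (β.b0 p)) (fun p => rfl)
  apply LinearMap.ext_on hgen
  rintro _ ⟨p, rfl⟩
  show dualB01 h β ((dual L h).r0 l) (L'.r0 (β.b0 p)) =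
    (dual L' h).r0 (dualB0 β l) (L'.r0 (β.b0 p))
  rw [dual_r0_apply, dualB0_apply, ← β.comm0, dualB01_apply, dual_r0_apply, sig_ι0]

theorem dualB_comm1 (h : 𝒞.IsGood) (β : BC φ L L') (l : Module.Dual (R ⊗[k] 𝒞.B1) L.P1) :
    dualB01 h β ((dual L h).r1 l) = (dual L' h).r1 (dualB1 β l) := by
  have hgen := gen_comp (bcSemi1_gen β) (isLocRing1 R' h) (isLocMod1 L')
    (fun p => L'.r1 (β.b1 p)) (fun p => rfl)
  apply LinearMap.ext_on hgen
  rintro _ ⟨p, rfl⟩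
  show dualB01 h β ((dual L h).r1 l) (L'.r1 (β.b1 p)) =
    (dual L' h).r1 (dualB1 β l) (L'.r1 (β.b1 p))
  rw [dual_r1_apply, dualB1_apply, ← β.comm1, dualB01_apply, dual_r1_apply, sig_ι1]

/-- **The dual commutes with base change.** -/
def dualBC (h : 𝒞.IsGood) (β : BC φ L L') : BC φ (dual L h) (dual L' h) where
  b0 := (dualB0 β).toAddMonoidHom
  b1 := (dualB1 β).toAddMonoidHom
  b01 := (dualB01 h β).toAddMonoidHom
  semi0 := fun c q => (dualB0 β).map_smulₛₗ c q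
  semi1 := fun c q => (dualB1 β).map_smulₛₗ c q
  semi01 := fun c q => (dualB01 h β).map_smulₛₗ c q
  comm0 := fun l => dualB_comm0 h β l
  comm1 := fun l => dualB_comm1 h β l
  gen0 :=
    haveI := L.inv0
    haveI := L'.inv0
    bdual_gen (bcSemi0_gen β)
  gen1 :=
    haveI := L.inv1
    haveI := L'.inv1
    bdual_gen (bcSemi1_gen β)

theorem dualBC_b0_apply (h : 𝒞.IsGood) (β : BC φ L L') (l : Module.Dual (R ⊗[k] 𝒞.B0) L.P0)
    (p : L.P0) : (dualBC h β).b0 l (β.b0 p) = Chart.tmap φ 𝒞.B0 (l p) :=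
  dualB0_apply β l p

theorem dualBC_b1_apply (h : 𝒞.IsGood) (β : BC φ L L') (l : Module.Dual (R ⊗[k] 𝒞.B1) L.P1)
    (p : L.P1) : (dualBC h β).b1 l (β.b1 p) = Chart.tmap φ 𝒞.B1 (l p) :=
  dualB1_apply β l p

end Dual

end Fermat.Agent.S25.LB.H60
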