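/-
S25 (row 24), package LB, leaf LB-HOM (helper74), part 1: morphisms of triples.

* `homId`, `homComp`, `isoHom`, `homSmul` : identity, composition, the morphism of an
  isomorphism, multiplication by a scalar `c : R`;
* `hom_f01_eq`, `hom_ext` : a morphism is determined by its two charts;
* `f01_surjective`, `isoOfSurjective` : **a morphism which is onto on both charts is an
  isomorphism** (`isoOfSurjective_e0/e1/e01`);
* `h0_unit` : **`H0(C_R, O) = R`** (`ι0 s0 = ι1 s1 ⟹ s0 = c ⊗ 1, s1 = c ⊗ 1`), by flat base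
  change of `IsGood.h0`;
* `end_eq_smul`, `end_unique` : **`End(L) = R`** for a good curve datum.
-/
import Fermat.Agent.S25.LB.H60_Dual

set_option autoImplicit false
set_option linter.style.haveILetI false
set_option linter.unusedSectionVars false
set_option linter.unusedVariables false

universe u

open Polynomial TensorProduct

noncomputable section

namespace Fermat.Agent.S25.LB.H74

open Fermat.Agent.S25.LB.H60

variable {k : Type u} [Field k] {𝒞 : CurveDatum k} {R : Type u} [CommRing R] [Algebra k R]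

/-! ### Basics -/

/-- The identity morphism. -/
def homId (L : Triple 𝒞 R) : Triple.Hom L L where
  f0 := LinearMap.id
  f1 := LinearMap.id
  f01 := LinearMap.id
  comm0 := fun _ => rfl
  comm1 := fun _ => rfl

/-- The composition of two morphisms. -/
def homComp {L L' L'' : Triple 𝒞 R} (g : Triple.Hom L' L'') (f : Triple.Hom L L') :
    Triple.Hom L L'' where
  f0 := g.f0.comp f.f0
  f1 := g.f1.comp f.f1
  f01 := g.f01.comp f.f01
  comm0 := fun p => by
    rw [LinearMap.comp_apply, f.comm0, g.comm0, LinearMap.comp_apply]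
  comm1 := fun p => by
    rw [LinearMap.comp_apply, f.comm1, g.comm1, LinearMap.comp_apply]

/-- The morphism of an isomorphism. -/
def isoHom {L L' : Triple 𝒞 R} (I : Triple.Iso L L') : Triple.Hom L L' where
  f0 := I.e0.toLinearMap
  f1 := I.e1.toLinearMap
  f01 := I.e01.toLinearMap
  comm0 := I.comm0
  comm1 := I.comm1

theorem ι0_algebraMap (𝒞 : CurveDatum k) (R : Type u) [CommRing R] [Algebra k R] (c : R) :
    𝒞.ι0 R (algebraMap R (R ⊗[k] 𝒞.B0) c) = algebraMap R (R ⊗[k] 𝒞.B01) c :=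
  (Algebra.TensorProduct.map (AlgHom.id R R) 𝒞.i0).commutes c

theorem ι1_algebraMap (𝒞 : CurveDatum k) (R : Type u) [CommRing R] [Algebra k R] (c : R) :
    𝒞.ι1 R (algebraMap R (R ⊗[k] 𝒞.B1) c) = algebraMap R (R ⊗[k] 𝒞.B01) c :=
  (Algebra.TensorProduct.map (AlgHom.id R R) 𝒞.i1).commutes c

/-- Multiplication by a scalar of `R`. -/
def homSmul (c : R) (L : Triple 𝒞 R) : Triple.Hom L L where
  f0 := algebraMap R (R ⊗[k] 𝒞.B0) c • LinearMap.id
  f1 := algebraMap R (R ⊗[k] 𝒞.B1) c • LinearMap.id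
  f01 := algebraMap R (R ⊗[k] 𝒞.B01) c • LinearMap.id
  comm0 := fun p => by
    show algebraMap R (R ⊗[k] 𝒞.B01) c • L.r0 p = L.r0 (algebraMap R (R ⊗[k] 𝒞.B0) c • p)
    rw [L.r0.map_smulₛₗ, ι0_algebraMap]
  comm1 := fun p => by
    show algebraMap R (R ⊗[k] 𝒞.B01) c • L.r1 p = L.r1 (algebraMap R (R ⊗[k] 𝒞.B1) c • p)
    rw [L.r1.map_smulₛₗ, ι1_algebraMap]

/-- `1 ⊗ x0` is a unit on the overlap. -/
theorem isUnit_XX (𝒞 : CurveDatum k) (R : Type u) [CommRing R] [Algebra k R] :
    IsUnit ((1 : R) ⊗ₜ[k] 𝒞.i0 𝒞.x0 : R ⊗[k] 𝒞.B01) :=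
  IsUnit.of_mul_eq_one _ (Triple.unit_mul_unit 𝒞 R)

/-- Cancellation of a power of `1 ⊗ x0` on the overlap. -/
theorem XX_pow_smul_cancel (L : Triple 𝒞 R) (n : ℕ) {a b : L.P01}
    (h : ((1 : R) ⊗ₜ[k] 𝒞.i0 𝒞.x0 : R ⊗[k] 𝒞.B01) ^ n • a
      = ((1 : R) ⊗ₜ[k] 𝒞.i0 𝒞.x0 : R ⊗[k] 𝒞.B01) ^ n • b) : a = b := by
  obtain ⟨u, hu⟩ := (isUnit_XX 𝒞 R).pow n
  rw [← hu] at h
  have h2 := congrArg (fun z => (↑(u⁻¹) : R ⊗[k] 𝒞.B01) • z) h
  simpa [smul_smul] using h2

/-- The map on the overlap is determined by the map on the first chart. -/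
theorem hom_f01_eq {L L' : Triple 𝒞 R} (f g : Triple.Hom L L') (h0 : f.f0 = g.f0) :
    f.f01 = g.f01 := by
  ext m
  obtain ⟨n, p, hp⟩ := L.surj0 m
  apply XX_pow_smul_cancel L' n
  rw [← map_smul, ← map_smul, hp, f.comm0, g.comm0, h0]

/-- A morphism is determined by its two charts. -/
theorem hom_ext {L L' : Triple 𝒞 R} (f g : Triple.Hom L L') (h0 : f.f0 = g.f0)
    (h1 : f.f1 = g.f1) : f = g := by
  have h01 := hom_f01_eq f g h0
  cases f
  cases g
  simp only at h0 h1 h01
  subst h0 h1 h01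
  rfl

/-! ### Surjective morphisms are isomorphisms -/

/-- The map on the overlap is onto if the map on the first chart is. -/
theorem f01_surjective {L L' : Triple 𝒞 R} (f : Triple.Hom L L')
    (h0 : Function.Surjective f.f0) : Function.Surjective f.f01 := by
  intro m'
  obtain ⟨n, p', hp'⟩ := L'.surj0 m'
  obtain ⟨p, rfl⟩ := h0 p'
  obtain ⟨u, hu⟩ := (isUnit_XX 𝒞 R).pow n
  refine ⟨(↑(u⁻¹) : R ⊗[k] 𝒞.B01) • L.r0 p, ?_⟩
  rw [map_smul, f.comm0, ← hp', ← hu, smul_smul, Units.inv_mul, one_smul]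

/-- **A morphism which is onto on both charts is an isomorphism.** -/
def isoOfSurjective (h : 𝒞.IsGood) {L L' : Triple 𝒞 R} (f : Triple.Hom L L')
    (h0 : Function.Surjective f.f0) (h1 : Function.Surjective f.f1) : Triple.Iso L L' :=
  haveI := L.inv0
  haveI := L.inv1
  haveI := L'.inv0
  haveI := L'.inv1
  haveI := inv01 L h
  haveI := inv01 L' h
  { e0 := LinearEquiv.ofBijective f.f0 (Module.Invertible.bijective_of_surjective h0)
    e1 := LinearEquiv.ofBijective f.f1 (Module.Invertible.bijective_of_surjective h1)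
    e01 := LinearEquiv.ofBijective f.f01
      (Module.Invertible.bijective_of_surjective (f01_surjective f h0))
    comm0 := f.comm0
    comm1 := f.comm1 }

theorem isoOfSurjective_e0 (h : 𝒞.IsGood) {L L' : Triple 𝒞 R} (f : Triple.Hom L L')
    (h0 : Function.Surjective f.f0) (h1 : Function.Surjective f.f1) (p : L.P0) :
    (isoOfSurjective h f h0 h1).e0 p = f.f0 p := rfl

theorem isoOfSurjective_e1 (h : 𝒞.IsGood) {L L' : Triple 𝒞 R} (f : Triple.Hom L L')
    (h0 : Function.Surjective f.f0) (h1 : Function.Surjective f.f1) (p : L.P1) :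
    (isoOfSurjective h f h0 h1).e1 p = f.f1 p := rfl

theorem isoOfSurjective_e01 (h : 𝒞.IsGood) {L L' : Triple 𝒞 R} (f : Triple.Hom L L')
    (h0 : Function.Surjective f.f0) (h1 : Function.Surjective f.f1) (p : L.P01) :
    (isoOfSurjective h f h0 h1).e01 p = f.f01 p := rfl

theorem isoHom_isoOfSurjective (h : 𝒞.IsGood) {L L' : Triple 𝒞 R} (f : Triple.Hom L L')
    (h0 : Function.Surjective f.f0) (h1 : Function.Surjective f.f1) :
    isoHom (isoOfSurjective h f h0 h1) = f :=
  hom_ext _ _ (LinearMap.ext fun _ => rfl) (LinearMap.ext fun _ => rfl)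

end Fermat.Agent.S25.LB.H74
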