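import Mathlib
import Fermat.Agent.S25.LB.DefsE
import Fermat.Agent.S25.P1.H36_Tw

/-!
# S25, package LB, leaf BCEX (helper36): base changes of triples exist

For `φ : R →ₐ[k] R'` and a triple `L` over `R`, `bcTriple R' L` is the triple with
`P_i' = (R' ⊗ B_i) ⊗_{R ⊗ B_i} P_i` and `bcOf φ L : Chart.BC φ L (bcTriple R' L)`.

* `phi`, `algPhi` : the ring map `R ⊗ B → R' ⊗ B`; `pushout_phi` : the square is a pushout;
* `eps : R' ⊗_R P ≃ (R' ⊗ B) ⊗_{R ⊗ B} P` (Mathlib `IsPushout.cancelBaseChange`), `eps_rBC`,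
  `eps_act`, `eps_act_pow`;
* `rBC` : the base change of a semilinear restriction map;
* `toData_isLoc` : the two-chart data of a triple is localising;
* `transfer_surj`, `transfer_ker` : the localisation properties of the base change, from
  `P1.H36.LocPair.bc_surj/bc_ker`;
* `stmt_BCEX : Stmt_BCEX`.
-/

set_option autoImplicit false

universe u

open Polynomial TensorProduct

namespace Fermat.Agent.S25.LB.H36

section Chart

variable (k : Type u) [Field k] (R R' : Type u) [CommRing R] [Algebra k R] [CommRing R']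
  [Algebra k R'] [Algebra R R'] [IsScalarTower k R R'] (B : Type u) [CommRing B] [Algebra k B]

/-- the ring map `R ⊗ B → R' ⊗ B` -/
noncomputable def phi : (R ⊗[k] B) →ₐ[R] (R' ⊗[k] B) :=
  Algebra.TensorProduct.map (Algebra.ofId R R') (AlgHom.id k B)

theorem phi_tmul (r : R) (b : B) : phi k R R' B (r ⊗ₜ[k] b) = algebraMap R R' r ⊗ₜ[k] b := rfl

/-- `R' ⊗ B` as an algebra over `R ⊗ B` -/
@[reducible] noncomputable def algPhi : Algebra (R ⊗[k] B) (R' ⊗[k] B) :=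
  (phi k R R' B).toRingHom.toAlgebra

attribute [local instance] algPhi

theorem algebraMap_phi (s : R ⊗[k] B) :
    algebraMap (R ⊗[k] B) (R' ⊗[k] B) s = phi k R R' B s := rfl

instance tower_phi : IsScalarTower R (R ⊗[k] B) (R' ⊗[k] B) :=
  IsScalarTower.of_algebraMap_eq fun r => ((phi k R R' B).commutes r).symm

instance pushout_phi : Algebra.IsPushout R R' (R ⊗[k] B) (R' ⊗[k] B) := by
  refine Algebra.IsPushout.tensorProduct_tensorProduct k B R R' ?_
  ext b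
  change phi k R R' B ((1 : R) ⊗ₜ[k] b) = (1 : R') ⊗ₜ[k] b
  rw [phi_tmul, map_one]

variable (P : Type u) [AddCommGroup P] [Module (R ⊗[k] B) P] [Module R P]
  [IsScalarTower R (R ⊗[k] B) P]

/-- the cancellation isomorphism `R' ⊗_R P = (R' ⊗ B) ⊗_{R ⊗ B} P` -/
noncomputable def eps : R' ⊗[R] P ≃ₗ[R'] (R' ⊗[k] B) ⊗[R ⊗[k] B] P :=
  (Algebra.IsPushout.cancelBaseChange R R' (R ⊗[k] B) (R' ⊗[k] B) P).symm

theorem eps_tmul (a : R') (p : P) :
    eps k R R' B P (a ⊗ₜ[R] p) = algebraMap R' (R' ⊗[k] B) a ⊗ₜ[R ⊗[k] B] p :=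
  Algebra.IsPushout.cancelBaseChange_symm_tmul R R' (R ⊗[k] B) (R' ⊗[k] B) P a p

theorem eps_tmul' (a : R') (p : P) :
    eps k R R' B P (a ⊗ₜ[R] p) =
      algebraMap R' (R' ⊗[k] B) a • ((1 : R' ⊗[k] B) ⊗ₜ[R ⊗[k] B] p) := by
  rw [eps_tmul, TensorProduct.smul_tmul', smul_eq_mul, mul_one]

theorem eps_smul (a : R') (w : R' ⊗[R] P) :
    eps k R R' B P (a • w) = algebraMap R' (R' ⊗[k] B) a • eps k R R' B P w := by
  rw [map_smul, algebraMap_smul]

theorem eps_tmul_smul (a : R') (s : R ⊗[k] B) (p : P) :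
    eps k R R' B P (a ⊗ₜ[R] (s • p)) = phi k R R' B s • eps k R R' B P (a ⊗ₜ[R] p) := by
  rw [eps_tmul, eps_tmul, TensorProduct.tmul_smul, TensorProduct.smul_tmul', TensorProduct.smul_tmul',
    Algebra.smul_def, algebraMap_phi, smul_eq_mul]

end Chart

section ChartMap

variable (k : Type u) [Field k] (R R' : Type u) [CommRing R] [Algebra k R] [CommRing R']
  [Algebra k R'] [Algebra R R'] [IsScalarTower k R R']
  {B B' : Type u} [CommRing B] [Algebra k B] [CommRing B'] [Algebra k B'] (i : B →ₐ[k] B')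

attribute [local instance] algPhi

/-- the ring map `R ⊗ B → R ⊗ B'` -/
noncomputable def iota : (R ⊗[k] B) →+* (R ⊗[k] B') :=
  (Algebra.TensorProduct.map (AlgHom.id R R) i).toRingHom

theorem iota_tmul (r : R) (b : B) : iota k R i (r ⊗ₜ[k] b) = r ⊗ₜ[k] i b := rfl

theorem iota_algebraMap (r : R) :
    iota k R i (algebraMap R (R ⊗[k] B) r) = algebraMap R (R ⊗[k] B') r :=
  (Algebra.TensorProduct.map (AlgHom.id R R) i).commutes r

theorem iota_phi (s : R ⊗[k] B) :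
    iota k R' i (phi k R R' B s) = phi k R R' B' (iota k R i s) := by
  induction s using TensorProduct.induction_on with
  | zero => simp
  | tmul r b => rfl
  | add x y hx hy => simp only [map_add, hx, hy]

variable {P Q : Type u} [AddCommGroup P] [Module (R ⊗[k] B) P] [AddCommGroup Q]
  [Module (R ⊗[k] B') Q] (r : P →ₛₗ[iota k R i] Q)

/-- the base change of a restriction map, as an additive map -/
noncomputable def rBCAdd :
    ((R' ⊗[k] B) ⊗[R ⊗[k] B] P) →+ ((R' ⊗[k] B') ⊗[R ⊗[k] B'] Q) :=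
  TensorProduct.liftAddHom
    { toFun := fun s' =>
        { toFun := fun p => iota k R' i s' ⊗ₜ[R ⊗[k] B'] r p
          map_zero' := by simp
          map_add' := fun p q => by rw [map_add, TensorProduct.tmul_add] }
      map_zero' := by ext p; simp
      map_add' := fun s t => by
        ext p
        simp [TensorProduct.add_tmul] }
    (by
      intro s s' p
      change iota k R' i (s • s') ⊗ₜ[R ⊗[k] B'] r p = iota k R' i s' ⊗ₜ[R ⊗[k] B'] r (s • p)
      rw [r.map_smulₛₗ, TensorProduct.tmul_smul, TensorProduct.smul_tmul', Algebra.smul_def,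
        Algebra.smul_def, map_mul, algebraMap_phi, algebraMap_phi, iota_phi])

theorem rBCAdd_tmul (s' : R' ⊗[k] B) (p : P) :
    rBCAdd k R R' i r (s' ⊗ₜ[R ⊗[k] B] p) = iota k R' i s' ⊗ₜ[R ⊗[k] B'] r p := rfl

theorem rBCAdd_smul (c : R' ⊗[k] B) (w : (R' ⊗[k] B) ⊗[R ⊗[k] B] P) :
    rBCAdd k R R' i r (c • w) = iota k R' i c • rBCAdd k R R' i r w := by
  induction w using TensorProduct.induction_on with
  | zero => simp
  | tmul s' p =>
    rw [TensorProduct.smul_tmul', smul_eq_mul, rBCAdd_tmul, rBCAdd_tmul, map_mul,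
      TensorProduct.smul_tmul', smul_eq_mul]
  | add x y hx hy =>
    rw [smul_add, (rBCAdd k R R' i r).map_add, (rBCAdd k R R' i r).map_add, hx, hy, smul_add]

/-- the base change of a restriction map -/
noncomputable def rBC :
    ((R' ⊗[k] B) ⊗[R ⊗[k] B] P) →ₛₗ[iota k R' i] ((R' ⊗[k] B') ⊗[R ⊗[k] B'] Q) where
  toFun := rBCAdd k R R' i r
  map_add' := (rBCAdd k R R' i r).map_add
  map_smul' := rBCAdd_smul k R R' i r

theorem rBC_tmul (s' : R' ⊗[k] B) (p : P) :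
    rBC k R R' i r (s' ⊗ₜ[R ⊗[k] B] p) = iota k R' i s' ⊗ₜ[R ⊗[k] B'] r p := rfl

end ChartMap

section ToData

variable {k : Type u} [Field k] {𝒞 : CurveDatum k} {R : Type u} [CommRing R] [Algebra k R]
  (L : Triple 𝒞 R)

theorem toData_T_pow (n : ℕ) (m : L.P01) :
    (L.toData.T.toLinearMap ^ n) m = ((1 : R) ⊗ₜ[k] 𝒞.i0 𝒞.x0 : R ⊗[k] 𝒞.B01) ^ n • m := by
  induction n generalizing m with
  | zero => simp
  | succ n ih =>
    rw [pow_succ, Module.End.mul_apply, ih, pow_succ, mul_smul]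
    rfl

theorem toData_Tsymm_pow (n : ℕ) (m : L.P01) :
    (L.toData.T.symm.toLinearMap ^ n) m =
      ((1 : R) ⊗ₜ[k] 𝒞.i1 𝒞.z1 : R ⊗[k] 𝒞.B01) ^ n • m := by
  induction n generalizing m with
  | zero => simp
  | succ n ih =>
    rw [pow_succ, Module.End.mul_apply, ih, pow_succ, mul_smul]
    rfl

theorem toData_X0_pow (n : ℕ) (p : L.P0) :
    (L.toData.X0 ^ n) p = ((1 : R) ⊗ₜ[k] 𝒞.x0 : R ⊗[k] 𝒞.B0) ^ n • p := by
  induction n generalizing p with
  | zero => simp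
  | succ n ih =>
    rw [pow_succ, Module.End.mul_apply, ih, pow_succ, mul_smul]
    rfl

theorem toData_Z1_pow (n : ℕ) (p : L.P1) :
    (L.toData.Z1 ^ n) p = ((1 : R) ⊗ₜ[k] 𝒞.z1 : R ⊗[k] 𝒞.B1) ^ n • p := by
  induction n generalizing p with
  | zero => simp
  | succ n ih =>
    rw [pow_succ, Module.End.mul_apply, ih, pow_succ, mul_smul]
    rfl

/-- the two-chart data of a triple is localising -/
theorem toData_isLoc : L.toData.IsLoc where
  surj0 := fun m => by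
    obtain ⟨n, p, h⟩ := L.surj0 m
    exact ⟨n, p, by rw [toData_T_pow]; exact h⟩
  ker0 := fun p hp => by
    obtain ⟨n, h⟩ := L.ker0 p hp
    exact ⟨n, by rw [toData_X0_pow]; exact h⟩
  surj1 := fun m => by
    obtain ⟨n, p, h⟩ := L.surj1 m
    exact ⟨n, p, by rw [toData_Tsymm_pow]; exact h⟩
  ker1 := fun p hp => by
    obtain ⟨n, h⟩ := L.ker1 p hp
    exact ⟨n, by rw [toData_Z1_pow]; exact h⟩

end ToData

section Transfer

variable (k : Type u) [Field k] (R R' : Type u) [CommRing R] [Algebra k R] [CommRing R']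
  [Algebra k R'] [Algebra R R'] [IsScalarTower k R R']
  {B B' : Type u} [CommRing B] [Algebra k B] [CommRing B'] [Algebra k B'] (i : B →ₐ[k] B')

attribute [local instance] algPhi

variable {P Q : Type u} [AddCommGroup P] [Module (R ⊗[k] B) P] [AddCommGroup Q]
  [Module (R ⊗[k] B') Q] [mP : Module R P] [tP : IsScalarTower R (R ⊗[k] B) P] [mQ : Module R Q]
  [tQ : IsScalarTower R (R ⊗[k] B') Q]

/-- (C1): `eps` is compatible with the restriction maps -/
theorem eps_rBC (r : P →ₛₗ[iota k R i] Q) (j : P →ₗ[R] Q) (hj : ∀ p, j p = r p)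
    (v : R' ⊗[R] P) :
    eps k R R' B' Q (j.baseChange R' v) = rBC k R R' i r (eps k R R' B P v) := by
  induction v using TensorProduct.induction_on with
  | zero => simp
  | tmul a p =>
    rw [LinearMap.baseChange_tmul, eps_tmul, eps_tmul, rBC_tmul, hj]
    congr 1
    exact ((Algebra.TensorProduct.map (AlgHom.id R' R') i).commutes a).symm
  | add x y hx hy => simp only [map_add, hx, hy]

/-- (C3): `eps` is compatible with the action of an element of `R ⊗ B` -/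
theorem eps_act (s : R ⊗[k] B) (t : P →ₗ[R] P) (ht : ∀ p, t p = s • p) (w : R' ⊗[R] P) :
    eps k R R' B P (t.baseChange R' w) = phi k R R' B s • eps k R R' B P w := by
  induction w using TensorProduct.induction_on with
  | zero => simp
  | tmul a p => rw [LinearMap.baseChange_tmul, ht, eps_tmul_smul]
  | add x y hx hy => simp only [map_add, hx, hy, smul_add]

theorem eps_act_pow (s : R ⊗[k] B) (t : P →ₗ[R] P) (ht : ∀ p, t p = s • p) (n : ℕ)
    (w : R' ⊗[R] P) :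
    eps k R R' B P (((t.baseChange R') ^ n) w) = (phi k R R' B s) ^ n • eps k R R' B P w := by
  induction n generalizing w with
  | zero => simp
  | succ n ih =>
    rw [pow_succ, Module.End.mul_apply, ih, eps_act k R R' s t ht, pow_succ, mul_smul]

open Fermat.Agent.S25.P1.H36 in
/-- transfer of the surjectivity part of a localisation along `eps` -/
theorem transfer_surj (r : P →ₛₗ[iota k R i] Q) (f : P →ₗ[R] P) (t : Q ≃ₗ[R] Q) (j : P →ₗ[R] Q)
    (h : LocPair f t j) (hj : ∀ p, j p = r p) (s' : R ⊗[k] B') (ht : ∀ q, t q = s' • q)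
    (m : (R' ⊗[k] B') ⊗[R ⊗[k] B'] Q) :
    ∃ (n : ℕ) (p : (R' ⊗[k] B) ⊗[R ⊗[k] B] P),
      (phi k R R' B' s') ^ n • m = rBC k R R' i r p := by
  obtain ⟨n, v, hv⟩ := h.bc_surj R' ((eps k R R' B' Q).symm m)
  refine ⟨n, eps k R R' B P v, ?_⟩
  have h1 := congrArg (eps k R R' B' Q) hv
  rw [eps_act_pow k R R' s' t.toLinearMap ht, LinearEquiv.apply_symm_apply,
    eps_rBC k R R' i r j hj] at h1
  exact h1

open Fermat.Agent.S25.P1.H36 in
/-- transfer of the kernel part of a localisation along `eps` -/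
theorem transfer_ker (r : P →ₛₗ[iota k R i] Q) (f : P →ₗ[R] P) (t : Q ≃ₗ[R] Q) (j : P →ₗ[R] Q)
    (h : LocPair f t j) (hj : ∀ p, j p = r p) (s : R ⊗[k] B) (hf : ∀ p, f p = s • p)
    (p' : (R' ⊗[k] B) ⊗[R ⊗[k] B] P) (hp' : rBC k R R' i r p' = 0) :
    ∃ n : ℕ, (phi k R R' B s) ^ n • p' = 0 := by
  obtain ⟨v, rfl⟩ := (eps k R R' B P).surjective p'
  rw [← eps_rBC k R R' i r j hj, LinearEquiv.map_eq_zero_iff] at hp'
  obtain ⟨n, hn⟩ := h.bc_ker R' v hp'
  refine ⟨n, ?_⟩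
  rw [← eps_act_pow k R R' s f hf, hn, map_zero]

end Transfer

section Build

variable {k : Type u} [Field k] {𝒞 : CurveDatum k} {R : Type u} [CommRing R] [Algebra k R]
  (R' : Type u) [CommRing R'] [Algebra k R'] [Algebra R R'] [IsScalarTower k R R']
  (L : Triple 𝒞 R)

attribute [local instance] algPhi

theorem tower_of_compHom {S M : Type u} [CommRing S] [Algebra R S] [AddCommGroup M] [Module S M] :
    letI : Module R M := Module.compHom M (algebraMap R S)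
    IsScalarTower R S M := by
  letI : Module R M := Module.compHom M (algebraMap R S)
  refine ⟨fun r s p => ?_⟩
  change (r • s) • p = algebraMap R S r • (s • p)
  rw [smul_smul, Algebra.smul_def]

open Fermat.Agent.S25.P1.H36 in
theorem bc_surj0 (m : (R' ⊗[k] 𝒞.B01) ⊗[R ⊗[k] 𝒞.B01] L.P01) :
    ∃ (n : ℕ) (p : (R' ⊗[k] 𝒞.B0) ⊗[R ⊗[k] 𝒞.B0] L.P0),
      ((1 : R') ⊗ₜ[k] 𝒞.i0 𝒞.x0 : R' ⊗[k] 𝒞.B01) ^ n • m = rBC k R R' 𝒞.i0 L.r0 p := by
  have := transfer_surj k R R' 𝒞.i0 (mP := L.modR0) (tP := tower_of_compHom)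
    (mQ := L.modR01) (tQ := tower_of_compHom) L.r0 L.toData.X0 L.toData.T L.toData.j0
    (locPair0 L.toData (toData_isLoc L)) (fun _ => rfl) ((1 : R) ⊗ₜ[k] 𝒞.i0 𝒞.x0)
    (fun _ => rfl) m
  rwa [phi_tmul, map_one] at this

open Fermat.Agent.S25.P1.H36 in
theorem bc_ker0 (p : (R' ⊗[k] 𝒞.B0) ⊗[R ⊗[k] 𝒞.B0] L.P0)
    (hp : rBC k R R' 𝒞.i0 L.r0 p = 0) :
    ∃ n : ℕ, ((1 : R') ⊗ₜ[k] 𝒞.x0 : R' ⊗[k] 𝒞.B0) ^ n • p = 0 := by
  have := transfer_ker k R R' 𝒞.i0 (mP := L.modR0) (tP := tower_of_compHom)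
    (mQ := L.modR01) (tQ := tower_of_compHom) L.r0 L.toData.X0 L.toData.T L.toData.j0
    (locPair0 L.toData (toData_isLoc L)) (fun _ => rfl) ((1 : R) ⊗ₜ[k] 𝒞.x0)
    (fun _ => rfl) p hp
  rwa [phi_tmul, map_one] at this

open Fermat.Agent.S25.P1.H36 in
theorem bc_surj1 (m : (R' ⊗[k] 𝒞.B01) ⊗[R ⊗[k] 𝒞.B01] L.P01) :
    ∃ (n : ℕ) (p : (R' ⊗[k] 𝒞.B1) ⊗[R ⊗[k] 𝒞.B1] L.P1),
      ((1 : R') ⊗ₜ[k] 𝒞.i1 𝒞.z1 : R' ⊗[k] 𝒞.B01) ^ n • m = rBC k R R' 𝒞.i1 L.r1 p := by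
  have := transfer_surj k R R' 𝒞.i1 (mP := L.modR1) (tP := tower_of_compHom)
    (mQ := L.modR01) (tQ := tower_of_compHom) L.r1 L.toData.Z1 L.toData.T.symm L.toData.j1
    (locPair1 L.toData (toData_isLoc L)) (fun _ => rfl) ((1 : R) ⊗ₜ[k] 𝒞.i1 𝒞.z1)
    (fun _ => rfl) m
  rwa [phi_tmul, map_one] at this

open Fermat.Agent.S25.P1.H36 in
theorem bc_ker1 (p : (R' ⊗[k] 𝒞.B1) ⊗[R ⊗[k] 𝒞.B1] L.P1)
    (hp : rBC k R R' 𝒞.i1 L.r1 p = 0) :
    ∃ n : ℕ, ((1 : R') ⊗ₜ[k] 𝒞.z1 : R' ⊗[k] 𝒞.B1) ^ n • p = 0 := by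
  have := transfer_ker k R R' 𝒞.i1 (mP := L.modR1) (tP := tower_of_compHom)
    (mQ := L.modR01) (tQ := tower_of_compHom) L.r1 L.toData.Z1 L.toData.T.symm L.toData.j1
    (locPair1 L.toData (toData_isLoc L)) (fun _ => rfl) ((1 : R) ⊗ₜ[k] 𝒞.z1)
    (fun _ => rfl) p hp
  rwa [phi_tmul, map_one] at this

/-- the base change of a triple -/
noncomputable def bcTriple : Triple 𝒞 R' :=
  haveI := L.inv0
  haveI := L.inv1
  { P0 := (R' ⊗[k] 𝒞.B0) ⊗[R ⊗[k] 𝒞.B0] L.P0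
    P1 := (R' ⊗[k] 𝒞.B1) ⊗[R ⊗[k] 𝒞.B1] L.P1
    P01 := (R' ⊗[k] 𝒞.B01) ⊗[R ⊗[k] 𝒞.B01] L.P01
    r0 := rBC k R R' 𝒞.i0 L.r0
    r1 := rBC k R R' 𝒞.i1 L.r1
    inv0 := inferInstance
    inv1 := inferInstance
    surj0 := bc_surj0 R' L
    ker0 := bc_ker0 R' L
    surj1 := bc_surj1 R' L
    ker1 := bc_ker1 R' L }

end Build

section BCEX

open Fermat.Agent.S25.Chart

variable {k : Type u} [Field k] {𝒞 : CurveDatum k} {R : Type u} [CommRing R] [Algebra k R]
  {R' : Type u} [CommRing R'] [Algebra k R']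

attribute [local instance] algPhi

/-- the algebra structure given by `φ` -/
@[reducible] noncomputable def algOf (φ : R →ₐ[k] R') : Algebra R R' := φ.toRingHom.toAlgebra

theorem tower_algOf (φ : R →ₐ[k] R') :
    letI := algOf φ
    IsScalarTower k R R' := by
  letI := algOf φ
  exact IsScalarTower.of_algebraMap_eq fun c => (φ.commutes c).symm

theorem tmap_eq_phi (φ : R →ₐ[k] R') (B : Type u) [CommRing B] [Algebra k B] (c : R ⊗[k] B) :
    letI := algOf φ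
    haveI := tower_algOf φ
    tmap φ B c = phi k R R' B c := by
  letI := algOf φ
  haveI := tower_algOf φ
  induction c using TensorProduct.induction_on with
  | zero => simp
  | tmul r b => rfl
  | add x y hx hy => simp only [map_add, hx, hy]

/-- the canonical base change datum of `bcTriple` -/
noncomputable def bcOf (φ : R →ₐ[k] R') (L : Triple 𝒞 R) :
    letI := algOf φ
    haveI := tower_algOf φ
    BC φ L (bcTriple R' L) :=
  letI := algOf φ
  haveI := tower_algOf φ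
  { b0 := (TensorProduct.mk (R ⊗[k] 𝒞.B0) (R' ⊗[k] 𝒞.B0) L.P0 1).toAddMonoidHom
    b1 := (TensorProduct.mk (R ⊗[k] 𝒞.B1) (R' ⊗[k] 𝒞.B1) L.P1 1).toAddMonoidHom
    b01 := (TensorProduct.mk (R ⊗[k] 𝒞.B01) (R' ⊗[k] 𝒞.B01) L.P01 1).toAddMonoidHom
    semi0 := fun c q => by
      change (1 : R' ⊗[k] 𝒞.B0) ⊗ₜ[R ⊗[k] 𝒞.B0] (c • q) =
        tmap φ 𝒞.B0 c • ((1 : R' ⊗[k] 𝒞.B0) ⊗ₜ[R ⊗[k] 𝒞.B0] q)
      rw [tmap_eq_phi, TensorProduct.tmul_smul, TensorProduct.smul_tmul', TensorProduct.smul_tmul',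
        Algebra.smul_def, algebraMap_phi, smul_eq_mul]
    semi1 := fun c q => by
      change (1 : R' ⊗[k] 𝒞.B1) ⊗ₜ[R ⊗[k] 𝒞.B1] (c • q) =
        tmap φ 𝒞.B1 c • ((1 : R' ⊗[k] 𝒞.B1) ⊗ₜ[R ⊗[k] 𝒞.B1] q)
      rw [tmap_eq_phi, TensorProduct.tmul_smul, TensorProduct.smul_tmul', TensorProduct.smul_tmul',
        Algebra.smul_def, algebraMap_phi, smul_eq_mul]
    semi01 := fun c q => by
      change (1 : R' ⊗[k] 𝒞.B01) ⊗ₜ[R ⊗[k] 𝒞.B01] (c • q) =
        tmap φ 𝒞.B01 c • ((1 : R' ⊗[k] 𝒞.B01) ⊗ₜ[R ⊗[k] 𝒞.B01] q)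
      rw [tmap_eq_phi, TensorProduct.tmul_smul, TensorProduct.smul_tmul', TensorProduct.smul_tmul',
        Algebra.smul_def, algebraMap_phi, smul_eq_mul]
    comm0 := fun q => by
      change (1 : R' ⊗[k] 𝒞.B01) ⊗ₜ[R ⊗[k] 𝒞.B01] (L.r0 q) =
        rBC k R R' 𝒞.i0 L.r0 ((1 : R' ⊗[k] 𝒞.B0) ⊗ₜ[R ⊗[k] 𝒞.B0] q)
      rw [rBC_tmul, map_one]
      rfl
    comm1 := fun q => by
      change (1 : R' ⊗[k] 𝒞.B01) ⊗ₜ[R ⊗[k] 𝒞.B01] (L.r1 q) =
        rBC k R R' 𝒞.i1 L.r1 ((1 : R' ⊗[k] 𝒞.B1) ⊗ₜ[R ⊗[k] 𝒞.B1] q)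
      rw [rBC_tmul, map_one]
      rfl
    gen0 := by
      rw [eq_top_iff]
      rintro w -
      induction w using TensorProduct.induction_on with
      | zero => exact Submodule.zero_mem _
      | tmul s q =>
        have : s ⊗ₜ[R ⊗[k] 𝒞.B0] q = s • ((1 : R' ⊗[k] 𝒞.B0) ⊗ₜ[R ⊗[k] 𝒞.B0] q) := by
          rw [TensorProduct.smul_tmul', smul_eq_mul, mul_one]
        rw [this]
        exact Submodule.smul_mem _ _ (Submodule.subset_span ⟨q, rfl⟩)
      | add x y hx hy => exact Submodule.add_mem _ hx hy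
    gen1 := by
      rw [eq_top_iff]
      rintro w -
      induction w using TensorProduct.induction_on with
      | zero => exact Submodule.zero_mem _
      | tmul s q =>
        have : s ⊗ₜ[R ⊗[k] 𝒞.B1] q = s • ((1 : R' ⊗[k] 𝒞.B1) ⊗ₜ[R ⊗[k] 𝒞.B1] q) := by
          rw [TensorProduct.smul_tmul', smul_eq_mul, mul_one]
        rw [this]
        exact Submodule.smul_mem _ _ (Submodule.subset_span ⟨q, rfl⟩)
      | add x y hx hy => exact Submodule.add_mem _ hx hy }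

/-- **LB-BCEX**: base changes exist. -/
theorem stmt_BCEX : Stmt_BCEX.{u} := by
  intro k _ 𝒞 _ R R' _ _ _ _ φ L
  letI := algOf φ
  haveI := tower_algOf φ
  exact ⟨bcTriple R' L, ⟨bcOf φ L⟩⟩

end BCEX

end Fermat.Agent.S25.LB.H36
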