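/-
helper36, S25 package LB, leaf LB-BCDATA: the two-chart data of a base change (in the sense of `Chart.BC`) is the
base change of the two-chart data.  Mathlib only (on top of the interface files and of `H36_BC`).
-/

import Fermat.Agent.S25.LB.H36_BC
import Fermat.Agent.S25.LB.DefsE

set_option autoImplicit false

universe u

open Polynomial TensorProduct

namespace Fermat.Agent.S25.P1.H36

variable {A : Type u} [CommRing A]

section LocEquiv

variable {M P M' P' : Type u} [AddCommGroup M] [Module A M] [AddCommGroup P] [Module A P]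
  [AddCommGroup M'] [Module A M'] [AddCommGroup P'] [Module A P']
  {f : M →ₗ[A] M} {t : P ≃ₗ[A] P} {j : M →ₗ[A] P}
  {f' : M' →ₗ[A] M'} {t' : P' ≃ₗ[A] P'} {j' : M' →ₗ[A] P'}

/-- transport of a localisation along an isomorphism of the sources -/
theorem LocPair.comp_equiv (h' : LocPair f' t' j') (e : M ≃ₗ[A] M')
    (he : ∀ m, e (f m) = f' (e m)) : LocPair f t' (j' ∘ₗ e.toLinearMap) where
  comm := fun m => by
    simp only [LinearMap.comp_apply, LinearEquiv.coe_coe]
    rw [he, h'.comm]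
  surj := fun p' => by
    obtain ⟨k, m', hk⟩ := h'.surj p'
    exact ⟨k, e.symm m', by simp [hk]⟩
  ker := fun m hm => by
    obtain ⟨k, hk⟩ := h'.ker (e m) hm
    refine ⟨k, ?_⟩
    have hpow : ∀ (n : ℕ) (x : M), e ((f ^ n) x) = (f' ^ n) (e x) := by
      intro n
      induction n with
      | zero => intro x; simp
      | succ n ih =>
        intro x
        rw [pow_succ, Module.End.mul_apply, ih, he, pow_succ, Module.End.mul_apply]
    apply e.injective
    rw [hpow, hk, map_zero]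

/-- two localisations of the same module are isomorphic -/
noncomputable def LocPair.uniq {t₂ : P' ≃ₗ[A] P'} {j₂ : M →ₗ[A] P'} (h : LocPair f t j)
    (h₂ : LocPair f t₂ j₂) : P ≃ₗ[A] P' :=
  (LinearEquiv.ofBijective h.lam h.lam_bijective).symm ≪≫ₗ
    LinearEquiv.ofBijective h₂.lam h₂.lam_bijective

theorem LocPair.uniq_lam {t₂ : P' ≃ₗ[A] P'} {j₂ : M →ₗ[A] P'} (h : LocPair f t j)
    (h₂ : LocPair f t₂ j₂) (z : Module.DirectLimit (fun _ : ℕ => M) (tele f)) :
    h.uniq h₂ (h.lam z) = h₂.lam z := by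
  have hz : (LinearEquiv.ofBijective h.lam h.lam_bijective).symm (h.lam z) = z :=
    (LinearEquiv.ofBijective h.lam h.lam_bijective).symm_apply_apply z
  change (LinearEquiv.ofBijective h₂.lam h₂.lam_bijective)
    ((LinearEquiv.ofBijective h.lam h.lam_bijective).symm (h.lam z)) = _
  rw [hz]
  rfl

theorem LocPair.uniq_j {t₂ : P' ≃ₗ[A] P'} {j₂ : M →ₗ[A] P'} (h : LocPair f t j)
    (h₂ : LocPair f t₂ j₂) (m : M) : h.uniq h₂ (j m) = j₂ m := by
  have h1 : h.lam (Module.DirectLimit.of A ℕ (fun _ : ℕ => M) (tele f) 0 m) = j m := by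
    rw [h.lam_of]; simp
  have h2 : h₂.lam (Module.DirectLimit.of A ℕ (fun _ : ℕ => M) (tele f) 0 m) = j₂ m := by
    rw [h₂.lam_of]; simp
  rw [← h1, h.uniq_lam h₂, h2]

theorem symm_pow_comm (t : P ≃ₗ[A] P) (i : ℕ) (x : P) :
    t ((t.symm.toLinearMap ^ i) x) = (t.symm.toLinearMap ^ i) (t x) := by
  induction i generalizing x with
  | zero => simp
  | succ i ih =>
    rw [pow_succ, Module.End.mul_apply, Module.End.mul_apply, ih]
    simp

theorem LocPair.uniq_t {t₂ : P' ≃ₗ[A] P'} {j₂ : M →ₗ[A] P'} (h : LocPair f t j)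
    (h₂ : LocPair f t₂ j₂) (p : P) : h.uniq h₂ (t p) = t₂ (h.uniq h₂ p) := by
  obtain ⟨z, rfl⟩ := h.lam_bijective.2 p
  induction z using Module.DirectLimit.induction_on with
  | ih i m =>
    have h1 : t (h.lam (Module.DirectLimit.of A ℕ (fun _ : ℕ => M) (tele f) i m)) =
        h.lam (Module.DirectLimit.of A ℕ (fun _ : ℕ => M) (tele f) i (f m)) := by
      rw [h.lam_of, h.lam_of, h.comm, symm_pow_comm]
    have h2 : t₂ (h₂.lam (Module.DirectLimit.of A ℕ (fun _ : ℕ => M) (tele f) i m)) =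
        h₂.lam (Module.DirectLimit.of A ℕ (fun _ : ℕ => M) (tele f) i (f m)) := by
      rw [h₂.lam_of, h₂.lam_of, h₂.comm, symm_pow_comm]
    rw [h1, h.uniq_lam h₂, h.uniq_lam h₂, h2]

/-- a map commuting with the automorphisms is determined by its values on the image of `j` -/
theorem LocPair.uniq_ext {t₂ : P' ≃ₗ[A] P'} {j₂ : M →ₗ[A] P'} (h : LocPair f t j)
    (h₂ : LocPair f t₂ j₂) (g : P → P') (hgt : ∀ p, g (t p) = t₂ (g p))
    (hgj : ∀ m, g (j m) = j₂ m) (p : P) : g p = h.uniq h₂ p := by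
  obtain ⟨d, m, hd⟩ := h.surj p
  have hg : ∀ (n : ℕ) (x : P), g ((t.toLinearMap ^ n) x) = (t₂.toLinearMap ^ n) (g x) := by
    intro n
    induction n with
    | zero => intro x; simp
    | succ n ih =>
      intro x
      rw [pow_succ', Module.End.mul_apply, pow_succ', Module.End.mul_apply]
      change g (t ((t.toLinearMap ^ n) x)) = t₂ ((t₂.toLinearMap ^ n) (g x))
      rw [hgt, ih]
  have hu : ∀ (n : ℕ) (x : P),
      h.uniq h₂ ((t.toLinearMap ^ n) x) = (t₂.toLinearMap ^ n) (h.uniq h₂ x) := by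
    intro n
    induction n with
    | zero => intro x; simp
    | succ n ih =>
      intro x
      rw [pow_succ', Module.End.mul_apply, pow_succ', Module.End.mul_apply]
      change h.uniq h₂ (t ((t.toLinearMap ^ n) x)) = t₂ ((t₂.toLinearMap ^ n) (h.uniq h₂ x))
      rw [h.uniq_t h₂, ih]
  have key : (t₂.toLinearMap ^ d) (g p) = (t₂.toLinearMap ^ d) (h.uniq h₂ p) := by
    rw [← hg, ← hu, hd, hgj, h.uniq_j h₂]
  have := congrArg (t₂.symm.toLinearMap ^ d) key
  rwa [symm_pow_pow, symm_pow_pow] at this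

/-- a linear map between two localisations, compatible with an isomorphism of the sources, is bijective -/
theorem LocPair.bijective_of_comm (h : LocPair f t j) (h' : LocPair f' t' j') (e : M ≃ₗ[A] M')
    (he : ∀ m, e (f m) = f' (e m)) (g : P →ₗ[A] P') (hgt : ∀ p, g (t p) = t' (g p))
    (hgj : ∀ m, g (j m) = j' (e m)) : Function.Bijective g := by
  have h₂ : LocPair f t' (j' ∘ₗ e.toLinearMap) := h'.comp_equiv e he
  have hfun : (g : P → P') = h.uniq h₂ := by
    funext p
    exact h.uniq_ext h₂ g hgt hgj p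
  rw [hfun]
  exact (h.uniq h₂).bijective

end LocEquiv

end Fermat.Agent.S25.P1.H36

namespace Fermat.Agent.S25.LB.H36

section ChartIso

variable (k : Type u) [Field k] (R R' : Type u) [CommRing R] [Algebra k R] [CommRing R']
  [Algebra k R'] [Algebra R R'] [IsScalarTower k R R'] (B : Type u) [CommRing B] [Algebra k B]

attribute [local instance] algPhi

variable {P P' : Type u} [AddCommGroup P] [Module (R ⊗[k] B) P] [AddCommGroup P']
  [Module (R' ⊗[k] B) P'] (b : P →+ P')
  (hb : ∀ (c : R ⊗[k] B) (q : P), b (c • q) = phi k R R' B c • b q)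

/-- the comparison map `(R' ⊗ B) ⊗_(R ⊗ B) P → P'`, `s' ⊗ p ↦ s' • b p`, as an additive map -/
noncomputable def bcLamAdd : ((R' ⊗[k] B) ⊗[R ⊗[k] B] P) →+ P' :=
  TensorProduct.liftAddHom
    { toFun := fun s' =>
        { toFun := fun p => s' • b p
          map_zero' := by simp
          map_add' := fun p q => by rw [map_add, smul_add] }
      map_zero' := by ext p; simp
      map_add' := fun s t => by
        ext p
        simp [add_smul] }
    (by
      intro s s' p
      change (s • s') • b p = s' • b (s • p)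
      rw [hb, smul_smul, Algebra.smul_def, algebraMap_phi, mul_comm])

theorem bcLamAdd_tmul (s' : R' ⊗[k] B) (p : P) :
    bcLamAdd k R R' B b hb (s' ⊗ₜ[R ⊗[k] B] p) = s' • b p := rfl

theorem bcLamAdd_smul (c : R' ⊗[k] B) (w : (R' ⊗[k] B) ⊗[R ⊗[k] B] P) :
    bcLamAdd k R R' B b hb (c • w) = c • bcLamAdd k R R' B b hb w := by
  induction w using TensorProduct.induction_on with
  | zero => simp
  | tmul s' p =>
    rw [TensorProduct.smul_tmul', smul_eq_mul, bcLamAdd_tmul, bcLamAdd_tmul, mul_smul]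
  | add x y hx hy =>
    rw [smul_add, (bcLamAdd k R R' B b hb).map_add, (bcLamAdd k R R' B b hb).map_add, hx, hy,
      smul_add]

/-- the comparison map `(R' ⊗ B) ⊗_(R ⊗ B) P → P'`, `s' ⊗ p ↦ s' • b p` -/
noncomputable def bcLam : ((R' ⊗[k] B) ⊗[R ⊗[k] B] P) →ₗ[R' ⊗[k] B] P' where
  toFun := bcLamAdd k R R' B b hb
  map_add' := (bcLamAdd k R R' B b hb).map_add
  map_smul' := bcLamAdd_smul k R R' B b hb

theorem bcLam_tmul (s' : R' ⊗[k] B) (p : P) :
    bcLam k R R' B b hb (s' ⊗ₜ[R ⊗[k] B] p) = s' • b p := rfl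

theorem bcLam_surjective (hgen : Submodule.span (R' ⊗[k] B) (Set.range b) = ⊤) :
    Function.Surjective (bcLam k R R' B b hb) := by
  rw [← LinearMap.range_eq_top, eq_top_iff, ← hgen, Submodule.span_le]
  rintro _ ⟨p, rfl⟩
  exact ⟨(1 : R' ⊗[k] B) ⊗ₜ[R ⊗[k] B] p, by rw [bcLam_tmul, one_smul]⟩

theorem bcLam_bijective [Module.Invertible (R ⊗[k] B) P] [Module.Invertible (R' ⊗[k] B) P']
    (hgen : Submodule.span (R' ⊗[k] B) (Set.range b) = ⊤) :
    Function.Bijective (bcLam k R R' B b hb) :=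
  Module.Invertible.bijective_of_surjective (bcLam_surjective k R R' B b hb hgen)

variable [mP : Module R P] [tP : IsScalarTower R (R ⊗[k] B) P] [mP' : Module R' P']
  [tP' : IsScalarTower R' (R' ⊗[k] B) P']

/-- the comparison map `R' ⊗_R P → P'`, `a ⊗ p ↦ a • b p` -/
noncomputable def chartLam : (R' ⊗[R] P) →ₗ[R'] P' :=
  ((bcLam k R R' B b hb).restrictScalars R').comp (eps k R R' B P).toLinearMap

theorem chartLam_apply (w : R' ⊗[R] P) :
    chartLam k R R' B b hb w = bcLam k R R' B b hb (eps k R R' B P w) := rfl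

theorem chartLam_tmul (a : R') (p : P) :
    chartLam k R R' B b hb (a ⊗ₜ[R] p) = algebraMap R' (R' ⊗[k] B) a • b p := by
  rw [chartLam_apply, eps_tmul, bcLam_tmul]

theorem chartLam_bijective [Module.Invertible (R ⊗[k] B) P] [Module.Invertible (R' ⊗[k] B) P']
    (hgen : Submodule.span (R' ⊗[k] B) (Set.range b) = ⊤) :
    Function.Bijective (chartLam k R R' B b hb) :=
  (bcLam_bijective k R R' B b hb hgen).comp (eps k R R' B P).bijective

theorem chartLam_act (s : R ⊗[k] B) (t : P →ₗ[R] P) (ht : ∀ p, t p = s • p) (w : R' ⊗[R] P) :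
    chartLam k R R' B b hb (t.baseChange R' w) = phi k R R' B s • chartLam k R R' B b hb w := by
  rw [chartLam_apply, chartLam_apply, eps_act k R R' s t ht, map_smul]

end ChartIso

section ChartComm

variable (k : Type u) [Field k] (R R' : Type u) [CommRing R] [Algebra k R] [CommRing R']
  [Algebra k R'] [Algebra R R'] [IsScalarTower k R R']
  {B B' : Type u} [CommRing B] [Algebra k B] [CommRing B'] [Algebra k B'] (i : B →ₐ[k] B')

attribute [local instance] algPhi

variable {P P' Q Q' : Type u} [AddCommGroup P] [Module (R ⊗[k] B) P] [AddCommGroup P']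
  [Module (R' ⊗[k] B) P'] [AddCommGroup Q] [Module (R ⊗[k] B') Q] [AddCommGroup Q']
  [Module (R' ⊗[k] B') Q']
  (b : P →+ P') (hb : ∀ (c : R ⊗[k] B) (q : P), b (c • q) = phi k R R' B c • b q)
  (b' : Q →+ Q') (hb' : ∀ (c : R ⊗[k] B') (q : Q), b' (c • q) = phi k R R' B' c • b' q)
  [mP : Module R P] [tP : IsScalarTower R (R ⊗[k] B) P] [mP' : Module R' P']
  [tP' : IsScalarTower R' (R' ⊗[k] B) P']
  [mQ : Module R Q] [tQ : IsScalarTower R (R ⊗[k] B') Q] [mQ' : Module R' Q']
  [tQ' : IsScalarTower R' (R' ⊗[k] B') Q']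

/-- the comparison maps are compatible with the restriction maps -/
theorem chartLam_comm (r : P →ₛₗ[iota k R i] Q) (r' : P' →ₛₗ[iota k R' i] Q')
    (hcomm : ∀ q, b' (r q) = r' (b q)) (j : P →ₗ[R] Q) (hj : ∀ p, j p = r p)
    (w : R' ⊗[R] P) :
    chartLam k R R' B' b' hb' (j.baseChange R' w) = r' (chartLam k R R' B b hb w) := by
  induction w using TensorProduct.induction_on with
  | zero => simp
  | tmul a p =>
    rw [LinearMap.baseChange_tmul, chartLam_tmul, chartLam_tmul, hj, hcomm, r'.map_smulₛₗ,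
      iota_algebraMap]
  | add x y hx hy => simp only [map_add, hx, hy]

end ChartComm

section Assemble

open Fermat.Agent.S25.P1.H36

variable {k : Type u} [Field k] {𝒞 : CurveDatum k} {R : Type u} [CommRing R] [Algebra k R]
  (R' : Type u) [CommRing R'] [Algebra k R'] [Algebra R R'] [IsScalarTower k R R']
  (L : Triple 𝒞 R) (L' : Triple 𝒞 R')

attribute [local instance] algPhi

/-- base change data with respect to a fixed algebra structure `R → R'` -/
structure BCphi where
  b0 : L.P0 →+ L'.P0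
  b1 : L.P1 →+ L'.P1
  b01 : L.P01 →+ L'.P01
  semi0 : ∀ (c : R ⊗[k] 𝒞.B0) (q : L.P0), b0 (c • q) = phi k R R' 𝒞.B0 c • b0 q
  semi1 : ∀ (c : R ⊗[k] 𝒞.B1) (q : L.P1), b1 (c • q) = phi k R R' 𝒞.B1 c • b1 q
  semi01 : ∀ (c : R ⊗[k] 𝒞.B01) (q : L.P01), b01 (c • q) = phi k R R' 𝒞.B01 c • b01 q
  comm0 : ∀ q, b01 (L.r0 q) = L'.r0 (b0 q)
  comm1 : ∀ q, b01 (L.r1 q) = L'.r1 (b1 q)
  gen0 : Submodule.span (R' ⊗[k] 𝒞.B0) (Set.range b0) = ⊤
  gen1 : Submodule.span (R' ⊗[k] 𝒞.B1) (Set.range b1) = ⊤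

variable {R' L L'} (β : BCphi R' L L')

/-- the comparison map on the chart `0` -/
noncomputable def dLam0 : (L.toData.baseChange R').N0 →ₗ[R'] L'.toData.N0 :=
  chartLam k R R' 𝒞.B0 (mP := L.modR0) (tP := tower_of_compHom) (mP' := L'.modR0)
    (tP' := tower_of_compHom) β.b0 β.semi0

/-- the comparison map on the chart `1` -/
noncomputable def dLam1 : (L.toData.baseChange R').N1 →ₗ[R'] L'.toData.N1 :=
  chartLam k R R' 𝒞.B1 (mP := L.modR1) (tP := tower_of_compHom) (mP' := L'.modR1)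
    (tP' := tower_of_compHom) β.b1 β.semi1

/-- the comparison map on the intersection -/
noncomputable def dLam01 : (L.toData.baseChange R').N01 →ₗ[R'] L'.toData.N01 :=
  chartLam k R R' 𝒞.B01 (mP := L.modR01) (tP := tower_of_compHom) (mP' := L'.modR01)
    (tP' := tower_of_compHom) β.b01 β.semi01

theorem dLam0_tmul (a : R') (q : L.toData.N0) :
    dLam0 β (a ⊗ₜ[R] q) = algebraMap R' (R' ⊗[k] 𝒞.B0) a • β.b0 q :=
  chartLam_tmul k R R' 𝒞.B0 (mP := L.modR0) (tP := tower_of_compHom) (mP' := L'.modR0)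
    (tP' := tower_of_compHom) β.b0 β.semi0 a q

theorem dLam1_tmul (a : R') (q : L.toData.N1) :
    dLam1 β (a ⊗ₜ[R] q) = algebraMap R' (R' ⊗[k] 𝒞.B1) a • β.b1 q :=
  chartLam_tmul k R R' 𝒞.B1 (mP := L.modR1) (tP := tower_of_compHom) (mP' := L'.modR1)
    (tP' := tower_of_compHom) β.b1 β.semi1 a q

theorem dLam01_tmul (a : R') (q : L.toData.N01) :
    dLam01 β (a ⊗ₜ[R] q) = algebraMap R' (R' ⊗[k] 𝒞.B01) a • β.b01 q :=
  chartLam_tmul k R R' 𝒞.B01 (mP := L.modR01) (tP := tower_of_compHom) (mP' := L'.modR01)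
    (tP' := tower_of_compHom) β.b01 β.semi01 a q

theorem dLam0_bijective : Function.Bijective (dLam0 β) :=
  haveI := L.inv0
  haveI := L'.inv0
  chartLam_bijective k R R' 𝒞.B0 (mP := L.modR0) (tP := tower_of_compHom) (mP' := L'.modR0)
    (tP' := tower_of_compHom) β.b0 β.semi0 β.gen0

theorem dLam1_bijective : Function.Bijective (dLam1 β) :=
  haveI := L.inv1
  haveI := L'.inv1
  chartLam_bijective k R R' 𝒞.B1 (mP := L.modR1) (tP := tower_of_compHom) (mP' := L'.modR1)
    (tP' := tower_of_compHom) β.b1 β.semi1 β.gen1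

theorem dLam0_X (w : (L.toData.baseChange R').N0) :
    dLam0 β ((L.toData.baseChange R').X0 w) = L'.toData.X0 (dLam0 β w) := by
  have h := chartLam_act k R R' 𝒞.B0 (mP := L.modR0) (tP := tower_of_compHom) (mP' := L'.modR0)
    (tP' := tower_of_compHom) β.b0 β.semi0 ((1 : R) ⊗ₜ[k] 𝒞.x0) L.toData.X0 (fun _ => rfl) w
  rw [phi_tmul, map_one] at h
  exact h

theorem dLam1_Z (w : (L.toData.baseChange R').N1) :
    dLam1 β ((L.toData.baseChange R').Z1 w) = L'.toData.Z1 (dLam1 β w) := by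
  have h := chartLam_act k R R' 𝒞.B1 (mP := L.modR1) (tP := tower_of_compHom) (mP' := L'.modR1)
    (tP' := tower_of_compHom) β.b1 β.semi1 ((1 : R) ⊗ₜ[k] 𝒞.z1) L.toData.Z1 (fun _ => rfl) w
  rw [phi_tmul, map_one] at h
  exact h

theorem dLam01_T (w : (L.toData.baseChange R').N01) :
    dLam01 β ((L.toData.baseChange R').T w) = L'.toData.T (dLam01 β w) := by
  have h := chartLam_act k R R' 𝒞.B01 (mP := L.modR01) (tP := tower_of_compHom)
    (mP' := L'.modR01) (tP' := tower_of_compHom) β.b01 β.semi01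
    ((1 : R) ⊗ₜ[k] 𝒞.i0 𝒞.x0) L.toData.T.toLinearMap (fun _ => rfl) w
  rw [phi_tmul, map_one] at h
  exact h

theorem dLam_j0 (w : (L.toData.baseChange R').N0) :
    dLam01 β ((L.toData.baseChange R').j0 w) = L'.toData.j0 (dLam0 β w) :=
  chartLam_comm k R R' 𝒞.i0 (mP := L.modR0) (tP := tower_of_compHom) (mP' := L'.modR0)
    (tP' := tower_of_compHom) (mQ := L.modR01) (tQ := tower_of_compHom) (mQ' := L'.modR01)
    (tQ' := tower_of_compHom) β.b0 β.semi0 β.b01 β.semi01 L.r0 L'.r0 β.comm0 L.toData.j0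
    (fun _ => rfl) w

theorem dLam_j1 (w : (L.toData.baseChange R').N1) :
    dLam01 β ((L.toData.baseChange R').j1 w) = L'.toData.j1 (dLam1 β w) :=
  chartLam_comm k R R' 𝒞.i1 (mP := L.modR1) (tP := tower_of_compHom) (mP' := L'.modR1)
    (tP' := tower_of_compHom) (mQ := L.modR01) (tQ := tower_of_compHom) (mQ' := L'.modR01)
    (tQ' := tower_of_compHom) β.b1 β.semi1 β.b01 β.semi01 L.r1 L'.r1 β.comm1 L.toData.j1
    (fun _ => rfl) w

theorem dLam01_bijective : Function.Bijective (dLam01 β) :=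
  (locPair0 (L.toData.baseChange R') (baseChange_isLoc R' L.toData (toData_isLoc L))).bijective_of_comm
    (locPair0 L'.toData (toData_isLoc L'))
    (LinearEquiv.ofBijective (dLam0 β) (dLam0_bijective β)) (dLam0_X β) (dLam01 β)
    (dLam01_T β) (dLam_j0 β)

/-- the isomorphism of two-chart data given by base change data -/
noncomputable def dataIso : P1.Data.Iso (L.toData.baseChange R') L'.toData where
  e0 := LinearEquiv.ofBijective (dLam0 β) (dLam0_bijective β)
  e1 := LinearEquiv.ofBijective (dLam1 β) (dLam1_bijective β)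
  e01 := LinearEquiv.ofBijective (dLam01 β) (dLam01_bijective β)
  e0_X := dLam0_X β
  e1_Z := dLam1_Z β
  e01_T := dLam01_T β
  e_j0 := dLam_j0 β
  e_j1 := dLam_j1 β

end Assemble

section BCDATA

open Fermat.Agent.S25.Chart

variable {k : Type u} [Field k] {𝒞 : CurveDatum k} {R : Type u} [CommRing R] [Algebra k R]
  {R' : Type u} [CommRing R'] [Algebra k R']

/-- `Chart.BC` gives base change data for the algebra structure of `φ` -/
noncomputable def bcphiOf (φ : R →ₐ[k] R') (L : Triple 𝒞 R) (L' : Triple 𝒞 R') (β : BC φ L L') :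
    letI := algOf φ
    haveI := tower_algOf φ
    BCphi R' L L' :=
  letI := algOf φ
  haveI := tower_algOf φ
  { b0 := β.b0
    b1 := β.b1
    b01 := β.b01
    semi0 := fun c q => by rw [β.semi0, tmap_eq_phi]
    semi1 := fun c q => by rw [β.semi1, tmap_eq_phi]
    semi01 := fun c q => by rw [β.semi01, tmap_eq_phi]
    comm0 := β.comm0
    comm1 := β.comm1
    gen0 := β.gen0
    gen1 := β.gen1 }

/-- **LB-BCDATA**: the two-chart data of a base change is the base change of the two-chart data. -/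
theorem stmt_BCDATA : Stmt_BCDATA.{u} := by
  intro k _ 𝒞 _ R R' _ _ _ _ φ L L' β
  letI := algOf φ
  haveI := tower_algOf φ
  exact ⟨dataIso (bcphiOf φ L L' β)⟩

end BCDATA

end Fermat.Agent.S25.LB.H36
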