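/-
helper16, S25 package LB, leaf LB-ISODATA: isomorphic triples have isomorphic two-chart data.
-/
import Fermat.Agent.S25.LB.DefsE

set_option autoImplicit false

universe u

open Polynomial TensorProduct

namespace Fermat.Agent.S25.LB.H16

open Fermat.Agent.S25.LB Fermat.Agent.S25.Chart Fermat.Agent.S25

variable {k : Type u} [Field k] {𝒞 : CurveDatum k} {R : Type u} [CommRing R] [Algebra k R]

/-- The isomorphism of two-chart data induced by an isomorphism of triples. -/
noncomputable def isoData {L L' : Triple 𝒞 R} (E : Triple.Iso L L') :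
    P1.Data.Iso L.toData L'.toData :=
  letI := L.modR0
  letI := L.modR1
  letI := L.modR01
  letI := L'.modR0
  letI := L'.modR1
  letI := L'.modR01
  { e0 :=
      { toFun := fun p => E.e0 p
        invFun := fun p => E.e0.symm p
        map_add' := fun p q => map_add E.e0 p q
        map_smul' := fun r p => E.e0.map_smul (algebraMap R (R ⊗[k] 𝒞.B0) r) p
        left_inv := fun p => E.e0.symm_apply_apply p
        right_inv := fun p => E.e0.apply_symm_apply p }
    e1 :=
      { toFun := fun p => E.e1 p
        invFun := fun p => E.e1.symm p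
        map_add' := fun p q => map_add E.e1 p q
        map_smul' := fun r p => E.e1.map_smul (algebraMap R (R ⊗[k] 𝒞.B1) r) p
        left_inv := fun p => E.e1.symm_apply_apply p
        right_inv := fun p => E.e1.apply_symm_apply p }
    e01 :=
      { toFun := fun p => E.e01 p
        invFun := fun p => E.e01.symm p
        map_add' := fun p q => map_add E.e01 p q
        map_smul' := fun r p => E.e01.map_smul (algebraMap R (R ⊗[k] 𝒞.B01) r) p
        left_inv := fun p => E.e01.symm_apply_apply p
        right_inv := fun p => E.e01.apply_symm_apply p }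
    e0_X := fun n => E.e0.map_smul ((1 : R) ⊗ₜ[k] 𝒞.x0 : R ⊗[k] 𝒞.B0) n
    e1_Z := fun n => E.e1.map_smul ((1 : R) ⊗ₜ[k] 𝒞.z1 : R ⊗[k] 𝒞.B1) n
    e01_T := fun m => E.e01.map_smul ((1 : R) ⊗ₜ[k] 𝒞.i0 𝒞.x0 : R ⊗[k] 𝒞.B01) m
    e_j0 := fun n => E.comm0 n
    e_j1 := fun n => E.comm1 n }

/-- **LB-ISODATA.** -/
theorem stmt_ISODATA : Stmt_ISODATA.{u} :=
  fun _ _ _ _ _ _ _ _ E => ⟨isoData E⟩

end Fermat.Agent.S25.LB.H16
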