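import Mathlib

/-!
# S25, package LB, leaf LB-VB (helper7): algebraic core (Mathlib only)

`B` a `k`-algebra which is a domain, `x ∈ B` with `k[X] → B`, `X ↦ x`, finite and injective.
Then `B` is finite free over `k[X]`, so for every `k`-algebra `R` the ring `S = R ⊗[k] B` is,
`X`-equivariantly, `R`-isomorphic to `R[X]^d` (`h7_exists_xequiv`), and every finitely generated
projective `S`-module `P` is an `X`-equivariant `R`-linear retract of some `R[X]^r`
(`h7_xproj_of_projective`).  Also: if `u v = 1` in a domain and `u` is transcendental over `k`,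
then so is `v` (`h7_aeval_injective_of_mul_eq_one`).
-/

set_option autoImplicit false
set_option linter.style.haveILetI false

universe u

open Polynomial TensorProduct

namespace Fermat.Agent.S25.LB.H7

section Equiv

variable {k : Type u} [Field k] (B : Type u) [CommRing B] [Algebra k B] [IsDomain B] (x : B)
  (R : Type u) [CommRing R] [Algebra k R]

/-- `R ⊗[k] B ≃ R[X]^d`, `R`-linear and `X`-equivariant. -/
theorem h7_exists_xequiv (hfin : (Polynomial.aeval (R := k) x).toRingHom.Finite)
    (hinj : Function.Injective (Polynomial.aeval (R := k) x)) :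
    ∃ (d : ℕ) (e : (R ⊗[k] B) ≃ₗ[R] (Fin d → R[X])),
      ∀ s : R ⊗[k] B, e (((1 : R) ⊗ₜ[k] x) * s) = (X : R[X]) • e s := by
  classical
  letI algX : Algebra k[X] B := (Polynomial.aeval (R := k) x).toRingHom.toAlgebra
  have halg : ∀ p : k[X], algebraMap k[X] B p = Polynomial.aeval x p := fun _ => rfl
  haveI : IsScalarTower k k[X] B := IsScalarTower.of_algebraMap_eq (fun c => by
    rw [halg, Polynomial.algebraMap_apply, Polynomial.aeval_C]
    rfl)
  haveI : Module.Finite k[X] B := hfin
  haveI : Module.IsTorsionFree k[X] B := Module.IsTorsionFree.of_smul_eq_zero (fun p b h => by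
    rw [Algebra.smul_def, halg, mul_eq_zero] at h
    rcases h with h | h
    · left
      exact hinj (by rw [h, map_zero])
    · exact Or.inr h)
  obtain ⟨d, b⟩ : Σ n, Module.Basis (Fin n) k[X] B := Module.basisOfFiniteTypeTorsionFree'
  let bk : Module.Basis (ℕ × Fin d) k B := (Polynomial.basisMonomials k).smulTower b
  let bR : Module.Basis (ℕ × Fin d) R (R ⊗[k] B) := Algebra.TensorProduct.basis R bk
  let bT : Module.Basis (ℕ × Fin d) R (Fin d → R[X]) :=
    (Polynomial.basisMonomials R).smulTower (Pi.basisFun R[X] (Fin d))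
  have hbk : ∀ (n : ℕ) (j : Fin d), bk (n, j) = x ^ n * b j := by
    intro n j
    rw [Module.Basis.smulTower_apply, Polynomial.coe_basisMonomials, Algebra.smul_def, halg]
    simp
  have hbT : ∀ (n : ℕ) (j : Fin d), bT (n, j) = (X : R[X]) ^ n • (Pi.basisFun R[X] (Fin d) j) := by
    intro n j
    rw [Module.Basis.smulTower_apply, Polynomial.coe_basisMonomials]
    simp [Polynomial.X_pow_eq_monomial]
  refine ⟨d, bR.equiv bT (Equiv.refl _), ?_⟩
  intro s
  have key : (bR.equiv bT (Equiv.refl _)).toLinearMap ∘ₗ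
      (LinearMap.mulLeft R ((1 : R) ⊗ₜ[k] x : R ⊗[k] B)) =
      ((LinearMap.lsmul R[X] (Fin d → R[X]) (X : R[X])).restrictScalars R) ∘ₗ
        (bR.equiv bT (Equiv.refl _)).toLinearMap := by
    refine bR.ext (fun ij => ?_)
    obtain ⟨n, j⟩ := ij
    simp only [LinearMap.coe_comp, LinearEquiv.coe_coe, Function.comp_apply,
      LinearMap.mulLeft_apply, LinearMap.coe_restrictScalars, LinearMap.lsmul_apply,
      Module.Basis.equiv_apply, Equiv.refl_apply]
    have h1 : ((1 : R) ⊗ₜ[k] x : R ⊗[k] B) * bR (n, j) = bR (n + 1, j) := by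
      simp only [bR, Algebra.TensorProduct.basis_apply, Algebra.TensorProduct.tmul_mul_tmul,
        one_mul, hbk]
      rw [pow_succ', mul_assoc]
    rw [h1, Module.Basis.equiv_apply, Equiv.refl_apply, hbT, hbT, pow_succ', mul_smul]
  exact congrArg (fun f => f s) key

end Equiv

section Proj

variable {k : Type u} [Field k] (B : Type u) [CommRing B] [Algebra k B] [IsDomain B] (x : B)
  (R : Type u) [CommRing R] [Algebra k R]
  (P : Type u) [AddCommGroup P] [Module (R ⊗[k] B) P]

/-- Reindexing `(Fin m → Fin d → M) ≃ (Fin (m * d) → M)`. -/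
noncomputable def h7_flat (A : Type u) [CommRing A] (m d : ℕ) :
    (Fin m → Fin d → A) ≃ₗ[A] (Fin (m * d) → A) :=
  (LinearEquiv.curry A A (Fin m) (Fin d)).symm ≪≫ₗ
    (LinearEquiv.funCongrLeft A A (finProdFinEquiv : Fin m × Fin d ≃ Fin (m * d))).symm

/-- **LB-VB, core**: a finitely generated projective `R ⊗[k] B`-module is an `X`-equivariant
`R`-linear retract of a finite free `R[X]`-module (`R` acts through `R → R ⊗[k] B`). -/
theorem h7_xproj_of_projective (hfin : (Polynomial.aeval (R := k) x).toRingHom.Finite)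
    (hinj : Function.Injective (Polynomial.aeval (R := k) x))
    [Module.Finite (R ⊗[k] B) P] [Module.Projective (R ⊗[k] B) P] :
    letI : Module R P := Module.compHom P (algebraMap R (R ⊗[k] B))
    ∃ (r : ℕ) (i : P →ₗ[R] (Fin r → R[X])) (p : (Fin r → R[X]) →ₗ[R] P),
      (∀ n, p (i n) = n) ∧
      (∀ n, i (((1 : R) ⊗ₜ[k] x : R ⊗[k] B) • n) = (X : R[X]) • i n) ∧
      (∀ v, p ((X : R[X]) • v) = ((1 : R) ⊗ₜ[k] x : R ⊗[k] B) • p v) := by
  classical
  letI : Module R P := Module.compHom P (algebraMap R (R ⊗[k] B))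
  haveI : IsScalarTower R (R ⊗[k] B) P := ⟨fun r s q => by
    change (r • s) • q = algebraMap R (R ⊗[k] B) r • (s • q)
    rw [Algebra.smul_def, mul_smul]⟩
  obtain ⟨d, e, he⟩ := h7_exists_xequiv B x R hfin hinj
  obtain ⟨m, f, g, -, -, hfg⟩ := Module.Finite.exists_comp_eq_id_of_projective (R ⊗[k] B) P
  have hfg' : ∀ q, f (g q) = q := fun q => by
    have := congrArg (fun φ => φ q) hfg
    simpa using this
  have he' : ∀ t : Fin d → R[X],
      e.symm ((X : R[X]) • t) = ((1 : R) ⊗ₜ[k] x : R ⊗[k] B) * e.symm t := by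
    intro t
    apply e.injective
    rw [he, e.apply_symm_apply, e.apply_symm_apply]
  let E : (Fin m → R ⊗[k] B) ≃ₗ[R] (Fin m → Fin d → R[X]) := LinearEquiv.piCongrRight fun _ => e
  let c : (Fin m → Fin d → R[X]) ≃ₗ[R] (Fin (m * d) → R[X]) :=
    (h7_flat R[X] m d).restrictScalars R
  have hcX : ∀ w : Fin m → Fin d → R[X], c ((X : R[X]) • w) = (X : R[X]) • c w := fun w =>
    (h7_flat R[X] m d).map_smul X w
  have hcX' : ∀ v : Fin (m * d) → R[X], c.symm ((X : R[X]) • v) = (X : R[X]) • c.symm v :=
    fun v => (h7_flat R[X] m d).symm.map_smul X v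
  refine ⟨m * d, c.toLinearMap ∘ₗ E.toLinearMap ∘ₗ g.restrictScalars R,
    f.restrictScalars R ∘ₗ E.symm.toLinearMap ∘ₗ c.symm.toLinearMap, ?_, ?_, ?_⟩
  · intro n
    simp only [LinearMap.coe_comp, LinearEquiv.coe_coe, Function.comp_apply,
      LinearMap.coe_restrictScalars, LinearEquiv.symm_apply_apply]
    exact hfg' n
  · intro n
    simp only [LinearMap.coe_comp, LinearEquiv.coe_coe, Function.comp_apply,
      LinearMap.coe_restrictScalars]
    rw [← hcX]
    congr 1
    rw [map_smul]
    funext a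
    change e ((((1 : R) ⊗ₜ[k] x : R ⊗[k] B) • g n) a) = (X : R[X]) • e (g n a)
    rw [Pi.smul_apply, smul_eq_mul, he]
  · intro v
    simp only [LinearMap.coe_comp, LinearEquiv.coe_coe, Function.comp_apply,
      LinearMap.coe_restrictScalars]
    rw [hcX', ← f.map_smul]
    congr 1
    funext a
    change e.symm (((X : R[X]) • c.symm v) a) =
      (((1 : R) ⊗ₜ[k] x : R ⊗[k] B) • (E.symm (c.symm v))) a
    rw [Pi.smul_apply, Pi.smul_apply, smul_eq_mul, he']
    rfl

end Proj

section Trans

variable {k : Type u} [Field k] {C : Type u} [CommRing C] [IsDomain C] [Algebra k C]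

/-- If `u v = 1` in a domain and `u` is transcendental over `k`, then so is `v`. -/
theorem h7_aeval_injective_of_mul_eq_one (u v : C) (huv : u * v = 1)
    (hu : Function.Injective (Polynomial.aeval (R := k) u)) :
    Function.Injective (Polynomial.aeval (R := k) v) := by
  rw [injective_iff_map_eq_zero]
  intro p hp
  letI : Invertible v := ⟨u, huv, by rw [mul_comm]; exact huv⟩
  have h1 := Polynomial.eval₂_reverse_mul_pow (algebraMap k C) v p
  have h2 : Polynomial.eval₂ (algebraMap k C) v p = 0 := by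
    rw [← Polynomial.aeval_def]; exact hp
  rw [h2] at h1
  have hv : v ≠ 0 := by
    rintro rfl
    rw [mul_zero] at huv
    exact zero_ne_one huv
  have h3 : Polynomial.eval₂ (algebraMap k C) (⅟v) (Polynomial.reverse p) = 0 := by
    rcases mul_eq_zero.1 h1 with h | h
    · exact h
    · exact absurd h (pow_ne_zero _ hv)
  have h4 : Polynomial.aeval (R := k) u (Polynomial.reverse p) = 0 := by
    rw [Polynomial.aeval_def]
    exact h3
  have h5 : Polynomial.reverse p = 0 := hu (by rw [h4, map_zero])
  exact Polynomial.reverse_eq_zero.1 h5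

end Trans

end Fermat.Agent.S25.LB.H7
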