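import Fermat.Agent.S25.LB.DefsB
import Fermat.Agent.S25.LB.H7_VBCore

/-!
# S25, package LB, leaf LB-VB (helper7)

`stmt_VB : Stmt_VB`: the two-chart data of a triple on a good curve datum is a vector bundle
(`IsLoc` from the localisation fields of the triple; `Proj0`, `Proj1`: `B_i` is finite free over
`k[x]`, so an invertible `R ⊗ B_i`-module is an `X`-equivariant retract of some `R[X]^r`).
-/

set_option autoImplicit false
set_option linter.style.haveILetI false

universe u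

open Polynomial TensorProduct

namespace Fermat.Agent.S25.LB.H7

variable {k : Type u} [Field k] {𝒞 : CurveDatum k} {R : Type u} [CommRing R] [Algebra k R]

theorem h7_T_pow (L : Triple 𝒞 R) (n : ℕ) (m : L.P01) :
    (L.toData.T.toLinearMap ^ n) m = ((1 : R) ⊗ₜ[k] 𝒞.i0 𝒞.x0 : R ⊗[k] 𝒞.B01) ^ n • m := by
  induction n generalizing m with
  | zero => simp
  | succ n ih =>
    rw [pow_succ, Module.End.mul_apply, pow_succ, mul_smul]
    exact ih _

theorem h7_Tsymm_pow (L : Triple 𝒞 R) (n : ℕ) (m : L.P01) :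
    (L.toData.T.symm.toLinearMap ^ n) m =
      ((1 : R) ⊗ₜ[k] 𝒞.i1 𝒞.z1 : R ⊗[k] 𝒞.B01) ^ n • m := by
  induction n generalizing m with
  | zero => simp
  | succ n ih =>
    rw [pow_succ, Module.End.mul_apply, pow_succ, mul_smul]
    exact ih _

theorem h7_X0_pow (L : Triple 𝒞 R) (n : ℕ) (p : L.P0) :
    (L.toData.X0 ^ n) p = ((1 : R) ⊗ₜ[k] 𝒞.x0 : R ⊗[k] 𝒞.B0) ^ n • p := by
  induction n generalizing p with
  | zero => simp
  | succ n ih =>
    rw [pow_succ, Module.End.mul_apply, pow_succ, mul_smul]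
    exact ih _

theorem h7_Z1_pow (L : Triple 𝒞 R) (n : ℕ) (p : L.P1) :
    (L.toData.Z1 ^ n) p = ((1 : R) ⊗ₜ[k] 𝒞.z1 : R ⊗[k] 𝒞.B1) ^ n • p := by
  induction n generalizing p with
  | zero => simp
  | succ n ih =>
    rw [pow_succ, Module.End.mul_apply, pow_succ, mul_smul]
    exact ih _

/-- The two-chart data of a triple is localising. -/
theorem h7_isLoc (L : Triple 𝒞 R) : L.toData.IsLoc where
  surj0 := fun m => by
    obtain ⟨n, p, h⟩ := L.surj0 m
    exact ⟨n, p, (h7_T_pow L n m).trans h⟩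
  ker0 := fun p hp => by
    obtain ⟨n, h⟩ := L.ker0 p hp
    exact ⟨n, (h7_X0_pow L n p).trans h⟩
  surj1 := fun m => by
    obtain ⟨n, p, h⟩ := L.surj1 m
    exact ⟨n, p, (h7_Tsymm_pow L n m).trans h⟩
  ker1 := fun p hp => by
    obtain ⟨n, h⟩ := L.ker1 p hp
    exact ⟨n, (h7_Z1_pow L n p).trans h⟩

/-- `i0 : B0 → B01` is injective on a good curve datum. -/
theorem h7_i0_injective (hG : 𝒞.IsGood) : Function.Injective 𝒞.i0 := by
  haveI := hG.dom0
  letI : Algebra 𝒞.B0 𝒞.B01 := 𝒞.i0.toRingHom.toAlgebra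
  haveI : IsLocalization.Away 𝒞.x0 𝒞.B01 := hG.loc0
  have hx : 𝒞.x0 ≠ 0 := by
    intro h
    have h1 : Polynomial.aeval (R := k) 𝒞.x0 (X : k[X]) = Polynomial.aeval (R := k) 𝒞.x0 0 := by
      rw [Polynomial.aeval_X, map_zero, h]
    exact Polynomial.X_ne_zero (hG.trans0 h1)
  have := IsLocalization.injective (M := Submonoid.powers 𝒞.x0) 𝒞.B01
    (powers_le_nonZeroDivisors_of_noZeroDivisors hx)
  exact this

/-- `k[X] → B1`, `X ↦ z1`, is injective on a good curve datum. -/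
theorem h7_trans1 (hG : 𝒞.IsGood) : Function.Injective (Polynomial.aeval (R := k) 𝒞.z1) := by
  haveI := hG.dom01
  have hu : Function.Injective (Polynomial.aeval (R := k) (𝒞.i0 𝒞.x0)) := by
    intro p q h
    rw [Polynomial.aeval_algHom_apply, Polynomial.aeval_algHom_apply] at h
    exact hG.trans0 (h7_i0_injective hG h)
  have hv := h7_aeval_injective_of_mul_eq_one (k := k) (𝒞.i0 𝒞.x0) (𝒞.i1 𝒞.z1) 𝒞.hxz hu
  intro p q h
  apply hv
  rw [Polynomial.aeval_algHom_apply, Polynomial.aeval_algHom_apply, h]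

/-- **LB-VB**. -/
theorem stmt_VB : Stmt_VB.{u} := by
  intro k _ 𝒞 hG R _ _ L
  refine ⟨h7_isLoc L, ?_, ?_⟩
  · haveI := hG.dom0
    haveI := L.inv0
    exact h7_xproj_of_projective 𝒞.B0 𝒞.x0 R L.P0 hG.fin0 hG.trans0
  · haveI := hG.dom1
    haveI := L.inv1
    exact h7_xproj_of_projective 𝒞.B1 𝒞.z1 R L.P1 hG.fin1 (h7_trans1 hG)

end Fermat.Agent.S25.LB.H7
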