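/-
helper36, S25 package CHART/LB, leaf CH-BCDATAX: `LB.Stmt_BCDATA` with the formulas.
-/
import Fermat.Agent.S25.LB.H36_BCData
import Fermat.Agent.S25.Chart.Defs3

set_option autoImplicit false

universe u

open Polynomial TensorProduct

namespace Fermat.Agent.S25.LB.H36

open Fermat.Agent.S25.Chart

/-- **CH-BCDATAX**: the isomorphism `R' ⊗ toData L ≅ toData L'` is `a ⊗ q ↦ a • β.b q`. -/
theorem stmt_BCDATAX : Stmt_BCDATAX.{u} := by
  intro k _ 𝒞 _ R R' _ _ _ _ φ L L' β
  letI := algOf φ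
  haveI := tower_algOf φ
  refine ⟨dataIso (bcphiOf φ L L' β), ?_, ?_, ?_⟩
  · intro a q
    exact dLam0_tmul (bcphiOf φ L L' β) a q
  · intro a q
    exact dLam1_tmul (bcphiOf φ L L' β) a q
  · intro a q
    exact dLam01_tmul (bcphiOf φ L L' β) a q

end Fermat.Agent.S25.LB.H36
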