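import Fermat.Agent.S25.LB.H44_FibK
import Fermat.Agent.S25.LB.H36_BCData

/-!
# S25, package LB: `LB-FIBK`, unconditional

`stmt_FIBK : Stmt_FIBK` = `stmt_FIBK_of` (helper44) applied to `H36.stmt_BCDATA` (helper36).
-/

set_option autoImplicit false

universe u

namespace Fermat.Agent.S25.LB.H44

/-- **LB-FIBK**, unconditional. -/
theorem stmt_FIBK : Stmt_FIBK.{u} := stmt_FIBK_of H36.stmt_BCDATA

end Fermat.Agent.S25.LB.H44
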