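/-
helper16, S25 package LB, leaf LB-BCCOMP: base change of triples is transitive, and the identity is a base change.
-/
import Fermat.Agent.S25.LB.DefsE

set_option autoImplicit false

universe u

open Polynomial TensorProduct

namespace Fermat.Agent.S25.LB.H16

open Fermat.Agent.S25.LB Fermat.Agent.S25.Chart Fermat.Agent.S25

variable {k : Type u} [Field k] {𝒞 : CurveDatum k}

section Tmap

variable {R R' R'' : Type u} [CommRing R] [Algebra k R] [CommRing R'] [Algebra k R']
  [CommRing R''] [Algebra k R'']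

theorem tmap_id (B : Type u) [CommRing B] [Algebra k B] (c : R ⊗[k] B) :
    tmap (AlgHom.id k R) B c = c := by
  unfold tmap
  rw [Algebra.TensorProduct.map_id]
  rfl

theorem tmap_comp (φ : R →ₐ[k] R') (ψ : R' →ₐ[k] R'') (B : Type u) [CommRing B] [Algebra k B]
    (c : R ⊗[k] B) : tmap (ψ.comp φ) B c = tmap ψ B (tmap φ B c) := by
  unfold tmap
  induction c using TensorProduct.induction_on with
  | zero => simp
  | tmul a b => simp
  | add x y hx hy => simp only [map_add, hx, hy]

end Tmap

section Span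

variable {S S' P P' : Type u} [CommRing S] [CommRing S'] [AddCommGroup P] [Module S P]
  [AddCommGroup P'] [Module S' P']

/-- The image of a span under a semilinear additive map lies in the span of the image. -/
theorem map_span_le (f : S →+* S') (b : P →+ P') (hb : ∀ (c : S) (q : P), b (c • q) = f c • b q)
    (T : Set P) (x : P) (hx : x ∈ Submodule.span S T) :
    b x ∈ Submodule.span S' (b '' T) := by
  induction hx using Submodule.span_induction with
  | mem y hy => exact Submodule.subset_span ⟨y, hy, rfl⟩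
  | zero => rw [map_zero]; exact Submodule.zero_mem _
  | add y z _ _ hy hz => rw [map_add]; exact Submodule.add_mem _ hy hz
  | smul c y _ hy => rw [hb]; exact Submodule.smul_mem _ _ hy

/-- Generation is transitive along semilinear maps. -/
theorem span_range_comp {S'' P'' : Type u} [CommRing S''] [AddCommGroup P''] [Module S'' P'']
    (f : S' →+* S'') (b : P →+ P') (b' : P' →+ P'')
    (hb' : ∀ (c : S') (q : P'), b' (c • q) = f c • b' q)
    (h : Submodule.span S' (Set.range b) = ⊤) (h' : Submodule.span S'' (Set.range b') = ⊤) :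
    Submodule.span S'' (Set.range (b'.comp b)) = ⊤ := by
  rw [eq_top_iff, ← h']
  apply Submodule.span_le.2
  rintro _ ⟨y, rfl⟩
  have hy : y ∈ Submodule.span S' (Set.range b) := by rw [h]; exact Submodule.mem_top
  have := map_span_le f b' hb' (Set.range b) y hy
  have e : b' '' Set.range b = Set.range (b'.comp b) := by
    ext z
    constructor
    · rintro ⟨_, ⟨w, rfl⟩, rfl⟩
      exact ⟨w, rfl⟩
    · rintro ⟨w, rfl⟩
      exact ⟨b w, ⟨w, rfl⟩, rfl⟩
  rw [e] at this
  exact this

end Span

section BC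

variable {R R' R'' : Type u} [CommRing R] [Algebra k R] [CommRing R'] [Algebra k R']
  [CommRing R''] [Algebra k R'']

/-- The identity is a base change. -/
noncomputable def bcId (L : Triple 𝒞 R) : BC (AlgHom.id k R) L L where
  b0 := AddMonoidHom.id _
  b1 := AddMonoidHom.id _
  b01 := AddMonoidHom.id _
  semi0 := fun c q => by rw [tmap_id]; rfl
  semi1 := fun c q => by rw [tmap_id]; rfl
  semi01 := fun c q => by rw [tmap_id]; rfl
  comm0 := fun _ => rfl
  comm1 := fun _ => rfl
  gen0 := by
    rw [eq_top_iff]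
    intro x _
    exact Submodule.subset_span ⟨x, rfl⟩
  gen1 := by
    rw [eq_top_iff]
    intro x _
    exact Submodule.subset_span ⟨x, rfl⟩

/-- Base changes compose. -/
noncomputable def bcTrans {φ : R →ₐ[k] R'} {ψ : R' →ₐ[k] R''} {L : Triple 𝒞 R}
    {L' : Triple 𝒞 R'} {L'' : Triple 𝒞 R''} (β : BC φ L L') (γ : BC ψ L' L'') :
    BC (ψ.comp φ) L L'' where
  b0 := γ.b0.comp β.b0
  b1 := γ.b1.comp β.b1
  b01 := γ.b01.comp β.b01
  semi0 := fun c q => by
    rw [AddMonoidHom.comp_apply, β.semi0, γ.semi0, tmap_comp]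
    rfl
  semi1 := fun c q => by
    rw [AddMonoidHom.comp_apply, β.semi1, γ.semi1, tmap_comp]
    rfl
  semi01 := fun c q => by
    rw [AddMonoidHom.comp_apply, β.semi01, γ.semi01, tmap_comp]
    rfl
  comm0 := fun q => by
    rw [AddMonoidHom.comp_apply, β.comm0, γ.comm0]
    rfl
  comm1 := fun q => by
    rw [AddMonoidHom.comp_apply, β.comm1, γ.comm1]
    rfl
  gen0 := span_range_comp (tmap ψ 𝒞.B0).toRingHom β.b0 γ.b0 γ.semi0 β.gen0 γ.gen0
  gen1 := span_range_comp (tmap ψ 𝒞.B1).toRingHom β.b1 γ.b1 γ.semi1 β.gen1 γ.gen1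

/-- **LB-BCCOMP.** -/
theorem stmt_BCCOMP : Stmt_BCCOMP.{u} :=
  fun _ _ _ _ _ _ _ L =>
    ⟨⟨bcId L⟩, fun _ _ _ _ _ _ _ _ _ _ β γ => ⟨bcTrans β γ⟩⟩

end BC

end Fermat.Agent.S25.LB.H16
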