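import Fermat.Agent.S25.LB.DefsE
import Fermat.Agent.S25.LB.H7_VB
import Fermat.Agent.S25.P1.H22_FG
import Fermat.Agent.S25.P1.H61_BC1
import Fermat.Agent.S25.P1.H97_H0Proj
import Fermat.Agent.S25.P1.H22_IsoStmt
import Fermat.Agent.S25.P1.H67_CpxProj
import Fermat.Agent.S25.P1.H44_Cpx

/-!
# S25, package LB: `LB-FIBK`

`stmt_FIBK_of : Stmt_BCDATA → Stmt_FIBK`: if the fibre of a triple `L` over `R` at a `k`-point `t`
has `H1 = 0`, then there is `r ∈ R` with `t r ≠ 0` (in fact `t r = 1`) such that every base change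
of `L` to `R[1/r]` has `H1 = 0` and `H0` finitely generated projective.

Proof: `H1 L` is a finite `R`-module (P1-FG), `k ⊗ H1 L = H1 (L_t) = 0` (P1-BC1, LB-BCDATA, P1-ISO);
Nakayama gives `r` with `t r = 1` and `r • H1 L = 0`; then `R[1/r] ⊗ H1 L = 0` and P1-H0PROJ applies.
-/

set_option autoImplicit false

open TensorProduct

universe u

namespace Fermat.Agent.S25.LB.H44

open Fermat.Agent.S25 Fermat.Agent.S25.Chart

/-- **Nakayama at a rational point**: `t : R → k` a surjective ring map onto a field, `Q` a finite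
`R`-module with `k ⊗ Q = 0`.  Then some `r` with `t r = 1` kills `Q`. -/
theorem exists_eq_one_smul_eq_zero {R : Type u} [CommRing R] {k : Type u} [Field k]
    [Algebra R k] (hsurj : Function.Surjective (algebraMap R k))
    (Q : Type u) [AddCommGroup Q] [Module R Q] [Module.Finite R Q]
    (h : Subsingleton (k ⊗[R] Q)) :
    ∃ r : R, algebraMap R k r = 1 ∧ ∀ q : Q, r • q = 0 := by
  let I : Ideal R := RingHom.ker (algebraMap R k)
  have e : (R ⧸ I) ≃ₗ[R] k :=
    { (RingHom.quotientKerEquivOfSurjective hsurj).toAddEquiv with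
      map_smul' := fun r x => by
        obtain ⟨x, rfl⟩ := Ideal.Quotient.mk_surjective x
        have hm : r • (Ideal.Quotient.mk I x) = Ideal.Quotient.mk I (r * x) := rfl
        show (RingHom.quotientKerEquivOfSurjective hsurj) (r • Ideal.Quotient.mk I x) =
          r • (RingHom.quotientKerEquivOfSurjective hsurj) (Ideal.Quotient.mk I x)
        rw [hm, RingHom.quotientKerEquivOfSurjective_apply_mk,
          RingHom.quotientKerEquivOfSurjective_apply_mk, map_mul, Algebra.smul_def] }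
  have h1 : Subsingleton ((R ⧸ I) ⊗[R] Q) :=
    (TensorProduct.congr e (LinearEquiv.refl R Q)).toEquiv.subsingleton
  have h2 : Subsingleton (Q ⧸ (I • (⊤ : Submodule R Q))) :=
    (TensorProduct.quotTensorEquivQuotSMul Q I).symm.toEquiv.subsingleton
  have h3 : (I • (⊤ : Submodule R Q)) = ⊤ := Submodule.Quotient.subsingleton_iff.mp h2
  obtain ⟨r, hr, hr0⟩ := Submodule.exists_sub_one_mem_and_smul_eq_zero_of_fg_of_le_smul I
    (⊤ : Submodule R Q) Module.Finite.fg_top (by rw [h3])
  refine ⟨r, ?_, fun q => hr0 q Submodule.mem_top⟩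
  have : algebraMap R k (r - 1) = 0 := hr
  rw [map_sub, map_one, sub_eq_zero] at this
  exact this

/-- **LB-FIBK** from **LB-BCDATA** (all the other inputs are landed). -/
theorem stmt_FIBK_of (hBCD : Stmt_BCDATA.{u}) : Stmt_FIBK.{u} := by
  intro k _ 𝒞 hC R _ _ L t Lt hbc hsub
  have hVB : L.toData.IsVB := H7.stmt_VB k 𝒞 hC R L
  have hfin : Module.Finite R L.toData.H1 :=
    P1.H22.stmt_FG R L.toData hVB.loc (P1.H67.fg0_of_proj0 _ hVB.proj0)
  -- the fibre at `t`
  let algt : Algebra R k := t.toRingHom.toAlgebra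
  have hsurj : Function.Surjective (algebraMap R k) := by
    intro c
    exact ⟨algebraMap k R c, t.commutes c⟩
  obtain ⟨E⟩ := hBCD k 𝒞 hC R k t L Lt hbc
  obtain ⟨-, ⟨e1⟩, -, -⟩ := P1.H22IS.stmt_ISO k (L.toData.baseChange k) Lt.toData E
  have hs1 : Subsingleton (L.toData.baseChange k).H1 := e1.toEquiv.subsingleton
  obtain ⟨e, -⟩ := P1.H61.stmt_BC1 R L.toData k
  have hs2 : Subsingleton (k ⊗[R] L.toData.H1) := e.toEquiv.subsingleton
  obtain ⟨r, hr1, hr0⟩ := exists_eq_one_smul_eq_zero hsurj L.toData.H1 hs2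
  have htr : t r = 1 := hr1
  refine ⟨r, by rw [htr]; exact one_ne_zero, ?_⟩
  intro Lr hbcr
  -- the base change to `R[1/r]`
  have hunit0 : IsUnit ((awayMap (k := k) r) r) :=
    IsLocalization.Away.algebraMap_isUnit (S := Localization.Away r) r
  let algr : Algebra R (Localization.Away r) := (awayMap (k := k) r).toRingHom.toAlgebra
  have hunit : IsUnit (algebraMap R (Localization.Away r) r) := hunit0
  obtain ⟨Er⟩ := hBCD k 𝒞 hC R (Localization.Away r) (awayMap r) L Lr hbcr
  obtain ⟨-, ⟨er1⟩, -, -⟩ :=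
    P1.H22IS.stmt_ISO (Localization.Away r) (L.toData.baseChange (Localization.Away r)) Lr.toData Er
  obtain ⟨er, -⟩ := P1.H61.stmt_BC1 R L.toData (Localization.Away r)
  have hs3 := P1.H44.subsingleton_tensor_of_smul_eq_zero (Localization.Away r) r hr0 hunit
  have hs4 : Subsingleton (L.toData.baseChange (Localization.Away r)).H1 :=
    @Equiv.subsingleton _ _ er.symm.toEquiv hs3
  have hs5 : Subsingleton Lr.H1 := @Equiv.subsingleton _ _ er1.symm.toEquiv hs4
  have hVBr : Lr.toData.IsVB := H7.stmt_VB k 𝒞 hC (Localization.Away r) Lr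
  obtain ⟨hf, hp⟩ := P1.H97.stmt_H0PROJ (Localization.Away r) Lr.toData hVBr hs5
  exact ⟨hs5, hf, hp⟩

end Fermat.Agent.S25.LB.H44
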