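/-
S25 (row 24), package LB, leaf LB-HOM (helper74), part 2: `H0(C_R, O) = R` and `End(L) = R`.

* `exact_diag_diff` : `0 → k → B0 × B1 → B01` is exact (`IsGood.h0`);
* `h0_unit` : **`H0(C_R, O) = R`**: `ι0 s0 = ι1 s1 ⟹ ∃ c : R, s0 = c ⊗ 1 ∧ s1 = c ⊗ 1`
  (flat base change along `k → R`);
* `algebraMap_B0_injective` : `R → R ⊗ B0` is injective;
* `end_eq_smul` : **every endomorphism of a triple is the multiplication by a scalar of `R`**;
  `homSmul_injective` : the scalar is unique;  `endEquiv : R ≃ Triple.Hom L L`.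
-/
import Fermat.Agent.S25.LB.H74_Hom

set_option autoImplicit false
set_option linter.style.haveILetI false
set_option linter.unusedSectionVars false
set_option linter.unusedVariables false

universe u

open Polynomial TensorProduct

noncomputable section

namespace Fermat.Agent.S25.LB.H74

open Fermat.Agent.S25.LB.H60

variable {k : Type u} [Field k] {𝒞 : CurveDatum k} {R : Type u} [CommRing R] [Algebra k R]

/-! ### Global functions -/

/-- The diagonal `k → B0 × B1`. -/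
def diagK (𝒞 : CurveDatum k) : k →ₗ[k] (𝒞.B0 × 𝒞.B1) :=
  (Algebra.linearMap k 𝒞.B0).prod (Algebra.linearMap k 𝒞.B1)

/-- The difference `B0 × B1 → B01`. -/
def diffK (𝒞 : CurveDatum k) : (𝒞.B0 × 𝒞.B1) →ₗ[k] 𝒞.B01 :=
  𝒞.i0.toLinearMap.comp (LinearMap.fst k 𝒞.B0 𝒞.B1)
    - 𝒞.i1.toLinearMap.comp (LinearMap.snd k 𝒞.B0 𝒞.B1)

theorem diffK_apply (𝒞 : CurveDatum k) (y : 𝒞.B0 × 𝒞.B1) :
    diffK 𝒞 y = 𝒞.i0 y.1 - 𝒞.i1 y.2 := rfl

theorem diagK_apply (𝒞 : CurveDatum k) (c : k) :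
    diagK 𝒞 c = (algebraMap k 𝒞.B0 c, algebraMap k 𝒞.B1 c) := rfl

/-- `0 → k → B0 × B1 → B01` is exact in the middle. -/
theorem exact_diag_diff (h : 𝒞.IsGood) : Function.Exact (diagK 𝒞) (diffK 𝒞) := by
  intro y
  constructor
  · intro hy
    rw [diffK_apply] at hy
    have e : 𝒞.i0 y.1 = 𝒞.i1 y.2 := sub_eq_zero.1 hy
    obtain ⟨c, hc⟩ := h.h0 y.1 y.2 e
    refine ⟨c, ?_⟩
    have h1 : 𝒞.i1 y.2 = 𝒞.i1 (algebraMap k 𝒞.B1 c) := by
      rw [← e, hc, AlgHom.commutes, AlgHom.commutes]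
    have h2 := i1_injective h h1
    rw [diagK_apply]
    exact Prod.ext hc.symm h2.symm
  · rintro ⟨c, rfl⟩
    rw [diagK_apply, diffK_apply]
    show 𝒞.i0 (algebraMap k 𝒞.B0 c) - 𝒞.i1 (algebraMap k 𝒞.B1 c) = 0
    rw [AlgHom.commutes, AlgHom.commutes, sub_self]

theorem lTensor_algebraLinearMap (B : Type u) [CommRing B] [Algebra k B] (w : R ⊗[k] k) :
    LinearMap.lTensor R (Algebra.linearMap k B) w
      = algebraMap R (R ⊗[k] B) (TensorProduct.rid k R w) := by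
  induction w using TensorProduct.induction_on with
  | zero => rw [map_zero, map_zero, map_zero]
  | tmul r c =>
    rw [LinearMap.lTensor_tmul, TensorProduct.rid_tmul, Algebra.linearMap_apply,
      Algebra.TensorProduct.algebraMap_apply, Algebra.algebraMap_self, RingHom.id_apply,
      Algebra.algebraMap_eq_smul_one, TensorProduct.tmul_smul, TensorProduct.smul_tmul']
  | add a b ha hb => rw [map_add, ha, hb, map_add, map_add]

/-- **`H0(C_R, O) = R`.** -/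
theorem h0_unit (h : 𝒞.IsGood) (s0 : R ⊗[k] 𝒞.B0) (s1 : R ⊗[k] 𝒞.B1)
    (e : 𝒞.ι0 R s0 = 𝒞.ι1 R s1) :
    ∃ c : R, s0 = algebraMap R (R ⊗[k] 𝒞.B0) c ∧ s1 = algebraMap R (R ⊗[k] 𝒞.B1) c := by
  have hex := Module.Flat.lTensor_exact R (exact_diag_diff h)
  let t : R ⊗[k] (𝒞.B0 × 𝒞.B1) :=
    LinearMap.lTensor R (LinearMap.inl k 𝒞.B0 𝒞.B1) s0
      + LinearMap.lTensor R (LinearMap.inr k 𝒞.B0 𝒞.B1) s1
  have e1 : (diffK 𝒞).comp (LinearMap.inl k 𝒞.B0 𝒞.B1) = 𝒞.i0.toLinearMap := by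
    ext b
    simp [diffK]
  have e2 : (diffK 𝒞).comp (LinearMap.inr k 𝒞.B0 𝒞.B1) = - 𝒞.i1.toLinearMap := by
    ext b
    simp [diffK]
  have ht : LinearMap.lTensor R (diffK 𝒞) t = 0 := by
    show LinearMap.lTensor R (diffK 𝒞)
      (LinearMap.lTensor R (LinearMap.inl k 𝒞.B0 𝒞.B1) s0
        + LinearMap.lTensor R (LinearMap.inr k 𝒞.B0 𝒞.B1) s1) = 0
    rw [map_add, ← LinearMap.comp_apply, ← LinearMap.lTensor_comp, ← LinearMap.comp_apply,
      ← LinearMap.lTensor_comp, e1, e2, LinearMap.lTensor_neg, LinearMap.neg_apply,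
      ← ι0_eq_lTensor, ← ι1_eq_lTensor, e, add_neg_cancel]
  obtain ⟨w, hw⟩ := (hex t).1 ht
  have f1 : (LinearMap.fst k 𝒞.B0 𝒞.B1).comp (LinearMap.inl k 𝒞.B0 𝒞.B1) = LinearMap.id := by
    ext b
    rfl
  have f2 : (LinearMap.fst k 𝒞.B0 𝒞.B1).comp (LinearMap.inr k 𝒞.B0 𝒞.B1) = 0 := by
    ext b
    rfl
  have g1 : (LinearMap.snd k 𝒞.B0 𝒞.B1).comp (LinearMap.inl k 𝒞.B0 𝒞.B1) = 0 := by
    ext b
    rfl
  have g2 : (LinearMap.snd k 𝒞.B0 𝒞.B1).comp (LinearMap.inr k 𝒞.B0 𝒞.B1) = LinearMap.id := by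
    ext b
    rfl
  have d1 : (LinearMap.fst k 𝒞.B0 𝒞.B1).comp (diagK 𝒞) = Algebra.linearMap k 𝒞.B0 := by
    ext
    rfl
  have d2 : (LinearMap.snd k 𝒞.B0 𝒞.B1).comp (diagK 𝒞) = Algebra.linearMap k 𝒞.B1 := by
    ext
    rfl
  refine ⟨TensorProduct.rid k R w, ?_, ?_⟩
  · have h1 := congrArg (LinearMap.lTensor R (LinearMap.fst k 𝒞.B0 𝒞.B1)) hw
    rw [← LinearMap.comp_apply, ← LinearMap.lTensor_comp, d1, lTensor_algebraLinearMap] at h1
    have h2 : LinearMap.lTensor R (LinearMap.fst k 𝒞.B0 𝒞.B1) t = s0 := by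
      show LinearMap.lTensor R (LinearMap.fst k 𝒞.B0 𝒞.B1)
        (LinearMap.lTensor R (LinearMap.inl k 𝒞.B0 𝒞.B1) s0
          + LinearMap.lTensor R (LinearMap.inr k 𝒞.B0 𝒞.B1) s1) = s0
      rw [map_add, ← LinearMap.comp_apply, ← LinearMap.lTensor_comp, ← LinearMap.comp_apply,
        ← LinearMap.lTensor_comp, f1, f2, LinearMap.lTensor_id, LinearMap.lTensor_zero,
        LinearMap.id_apply, LinearMap.zero_apply, add_zero]
    rw [← h2, ← h1]
  · have h1 := congrArg (LinearMap.lTensor R (LinearMap.snd k 𝒞.B0 𝒞.B1)) hw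
    rw [← LinearMap.comp_apply, ← LinearMap.lTensor_comp, d2, lTensor_algebraLinearMap] at h1
    have h2 : LinearMap.lTensor R (LinearMap.snd k 𝒞.B0 𝒞.B1) t = s1 := by
      show LinearMap.lTensor R (LinearMap.snd k 𝒞.B0 𝒞.B1)
        (LinearMap.lTensor R (LinearMap.inl k 𝒞.B0 𝒞.B1) s0
          + LinearMap.lTensor R (LinearMap.inr k 𝒞.B0 𝒞.B1) s1) = s1
      rw [map_add, ← LinearMap.comp_apply, ← LinearMap.lTensor_comp, ← LinearMap.comp_apply,
        ← LinearMap.lTensor_comp, g1, g2, LinearMap.lTensor_id, LinearMap.lTensor_zero,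
        LinearMap.id_apply, LinearMap.zero_apply, zero_add]
    rw [← h2, ← h1]

/-- `R → R ⊗ B0` is injective. -/
theorem algebraMap_B0_injective (h : 𝒞.IsGood) :
    Function.Injective (algebraMap R (R ⊗[k] 𝒞.B0)) := by
  haveI := h.dom0
  have hb : Function.Injective (algebraMap k 𝒞.B0) := (algebraMap k 𝒞.B0).injective
  exact Algebra.TensorProduct.includeLeft_injective (R := k) (S := R) (A := R) (B := 𝒞.B0) hb

/-! ### Endomorphisms -/

/-- An element of `R ⊗ B01` which kills the image of `r0` is zero. -/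
theorem eq_zero_of_smul_r0 (h : 𝒞.IsGood) (L : Triple 𝒞 R) (a : R ⊗[k] 𝒞.B01)
    (ha : ∀ p : L.P0, a • L.r0 p = 0) : a = 0 := by
  haveI := inv01 L h
  have h1 : ∀ m : L.P01, a • m = (0 : R ⊗[k] 𝒞.B01) • m := by
    intro m
    obtain ⟨n, p, hp⟩ := L.surj0 m
    rw [zero_smul]
    apply XX_pow_smul_cancel L n
    rw [smul_zero, smul_comm, hp, ha]
  exact FaithfulSMul.eq_of_smul_eq_smul h1

/-- An element of `R ⊗ B01` which kills the image of `r1` is zero. -/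
theorem eq_zero_of_smul_r1 (h : 𝒞.IsGood) (L : Triple 𝒞 R) (a : R ⊗[k] 𝒞.B01)
    (ha : ∀ p : L.P1, a • L.r1 p = 0) : a = 0 := by
  haveI := inv01 L h
  have hu : IsUnit ((1 : R) ⊗ₜ[k] 𝒞.i1 𝒞.z1 : R ⊗[k] 𝒞.B01) :=
    IsUnit.of_mul_eq_one _ ((mul_comm _ _).trans (Triple.unit_mul_unit 𝒞 R))
  have h1 : ∀ m : L.P01, a • m = (0 : R ⊗[k] 𝒞.B01) • m := by
    intro m
    obtain ⟨n, p, hp⟩ := L.surj1 m
    rw [zero_smul]
    obtain ⟨u, hu'⟩ := hu.pow n
    have h2 : (↑u : R ⊗[k] 𝒞.B01) • (a • m) = 0 := by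
      rw [hu', smul_comm, hp, ha]
    have h3 := congrArg (fun z => (↑(u⁻¹) : R ⊗[k] 𝒞.B01) • z) h2
    simpa [smul_smul] using h3
  exact FaithfulSMul.eq_of_smul_eq_smul h1

/-- **`End(L) = R`**: every endomorphism of a triple on a good curve datum is the multiplication
by a scalar of `R`. -/
theorem end_eq_smul (h : 𝒞.IsGood) (L : Triple 𝒞 R) (f : Triple.Hom L L) :
    ∃ c : R, f = homSmul c L := by
  haveI := L.inv0
  haveI := L.inv1
  haveI := inv01 L h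
  obtain ⟨s0, hs0⟩ := (Module.Invertible.toModuleEnd_bijective (R ⊗[k] 𝒞.B0) L.P0).surjective f.f0
  obtain ⟨s1, hs1⟩ := (Module.Invertible.toModuleEnd_bijective (R ⊗[k] 𝒞.B1) L.P1).surjective f.f1
  obtain ⟨s01, hs01⟩ :=
    (Module.Invertible.toModuleEnd_bijective (R ⊗[k] 𝒞.B01) L.P01).surjective f.f01
  have a0 : ∀ p : L.P0, f.f0 p = s0 • p := fun p => by rw [← hs0]; rfl
  have a1 : ∀ p : L.P1, f.f1 p = s1 • p := fun p => by rw [← hs1]; rfl
  have a01 : ∀ p : L.P01, f.f01 p = s01 • p := fun p => by rw [← hs01]; rfl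
  have e0 : s01 = 𝒞.ι0 R s0 := by
    have : s01 - 𝒞.ι0 R s0 = 0 := eq_zero_of_smul_r0 h L _ (fun p => by
      rw [sub_smul, ← a01, f.comm0, a0, L.r0.map_smulₛₗ, sub_self])
    exact sub_eq_zero.1 this
  have e1 : s01 = 𝒞.ι1 R s1 := by
    have : s01 - 𝒞.ι1 R s1 = 0 := eq_zero_of_smul_r1 h L _ (fun p => by
      rw [sub_smul, ← a01, f.comm1, a1, L.r1.map_smulₛₗ, sub_self])
    exact sub_eq_zero.1 this
  obtain ⟨c, hc0, hc1⟩ := h0_unit h s0 s1 (e0.symm.trans e1)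
  refine ⟨c, hom_ext _ _ ?_ ?_⟩
  · ext p
    rw [a0, hc0]
    rfl
  · ext p
    rw [a1, hc1]
    rfl

/-- The scalar of an endomorphism is unique. -/
theorem homSmul_injective (h : 𝒞.IsGood) (L : Triple 𝒞 R) :
    Function.Injective (fun c : R => homSmul c L) := by
  haveI := L.inv0
  intro c c' hcc
  have h0 : (homSmul c L).f0 = (homSmul c' L).f0 := congrArg Triple.Hom.f0 hcc
  have h1 : ∀ p : L.P0, algebraMap R (R ⊗[k] 𝒞.B0) c • p = algebraMap R (R ⊗[k] 𝒞.B0) c' • p :=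
    fun p => LinearMap.congr_fun h0 p
  exact algebraMap_B0_injective h (FaithfulSMul.eq_of_smul_eq_smul h1)

/-- **`R ≃ End(L)`.** -/
def endEquiv (h : 𝒞.IsGood) (L : Triple 𝒞 R) : R ≃ Triple.Hom L L :=
  Equiv.ofBijective (fun c : R => homSmul c L)
    ⟨homSmul_injective h L, fun f => by
      obtain ⟨c, hc⟩ := end_eq_smul h L f
      exact ⟨c, hc.symm⟩⟩

theorem endEquiv_apply (h : 𝒞.IsGood) (L : Triple 𝒞 R) (c : R) :
    endEquiv h L c = homSmul c L := rfl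

end Fermat.Agent.S25.LB.H74
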