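/-
S25 (row 24), package LB, leaf LB-HOM (helper74), part 3: sections as morphisms, the pairing
`H0(N^∨) × H0(N) → R`, and the triviality criterion.

* `mem_H0_iff` : `p ∈ L.H0 ↔ L.r0 p.1 = L.r1 p.2`;
* `homOfUnit` : a section `(p0, p1)` of `N` as a morphism `O → N`;
* `homToUnit` : a section `(l0, l1)` of `N^∨` as a morphism `N → O`;
* `pair`, `pair_spec0`, `pair_spec1` : the function `l(p) ∈ R = H0(O)` (the value at the base point);
* `nonempty_iso_unit` : **if `l(p)` is a unit of `R`, then `N` is trivial**;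
* `pairH0`, `nonempty_iso_unit_H0` : the same for elements of the submodules `H0`.
-/
import Fermat.Agent.S25.LB.H74_End

set_option autoImplicit false
set_option linter.style.haveILetI false
set_option linter.unusedSectionVars false
set_option linter.unusedVariables false

universe u

open Polynomial TensorProduct

noncomputable section

namespace Fermat.Agent.S25.LB.H74

open Fermat.Agent.S25.LB.H60

variable {k : Type u} [Field k] {𝒞 : CurveDatum k} {R : Type u} [CommRing R] [Algebra k R]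

theorem mem_H0_iff (L : Triple 𝒞 R) (p : L.P0 × L.P1) :
    p ∈ L.H0 ↔ L.r0 p.1 = L.r1 p.2 := Iff.rfl

/-- A section of `N` as a morphism `O → N`. -/
def homOfUnit (h : 𝒞.IsGood) (N : Triple 𝒞 R) (p0 : N.P0) (p1 : N.P1)
    (hp : N.r0 p0 = N.r1 p1) : Triple.Hom (unitTriple 𝒞 R h) N where
  f0 := LinearMap.toSpanSingleton (R ⊗[k] 𝒞.B0) N.P0 p0
  f1 := LinearMap.toSpanSingleton (R ⊗[k] 𝒞.B1) N.P1 p1
  f01 := LinearMap.toSpanSingleton (R ⊗[k] 𝒞.B01) N.P01 (N.r0 p0)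
  comm0 := fun a => by
    show (𝒞.ι0 R a) • N.r0 p0 = N.r0 (a • p0)
    rw [N.r0.map_smulₛₗ]
  comm1 := fun a => by
    show (𝒞.ι1 R a) • N.r0 p0 = N.r1 (a • p1)
    rw [N.r1.map_smulₛₗ, hp]

theorem homOfUnit_f0 (h : 𝒞.IsGood) (N : Triple 𝒞 R) (p0 : N.P0) (p1 : N.P1)
    (hp : N.r0 p0 = N.r1 p1) (a : R ⊗[k] 𝒞.B0) :
    (homOfUnit h N p0 p1 hp).f0 a = a • p0 := rfl

theorem homOfUnit_f1 (h : 𝒞.IsGood) (N : Triple 𝒞 R) (p0 : N.P0) (p1 : N.P1)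
    (hp : N.r0 p0 = N.r1 p1) (a : R ⊗[k] 𝒞.B1) :
    (homOfUnit h N p0 p1 hp).f1 a = a • p1 := rfl

/-- A section of the dual of `N` as a morphism `N → O`. -/
def homToUnit (h : 𝒞.IsGood) (N : Triple 𝒞 R) (l0 : Module.Dual (R ⊗[k] 𝒞.B0) N.P0)
    (l1 : Module.Dual (R ⊗[k] 𝒞.B1) N.P1) (hl : (dual N h).r0 l0 = (dual N h).r1 l1) :
    Triple.Hom N (unitTriple 𝒞 R h) where
  f0 := l0
  f1 := l1
  f01 := (dual N h).r0 l0
  comm0 := fun p => dual_r0_apply N h l0 p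
  comm1 := fun p => by
    rw [hl]
    exact dual_r1_apply N h l1 p

theorem homToUnit_f0 (h : 𝒞.IsGood) (N : Triple 𝒞 R) (l0 : Module.Dual (R ⊗[k] 𝒞.B0) N.P0)
    (l1 : Module.Dual (R ⊗[k] 𝒞.B1) N.P1) (hl : (dual N h).r0 l0 = (dual N h).r1 l1)
    (p : N.P0) : (homToUnit h N l0 l1 hl).f0 p = l0 p := rfl

theorem homToUnit_f1 (h : 𝒞.IsGood) (N : Triple 𝒞 R) (l0 : Module.Dual (R ⊗[k] 𝒞.B0) N.P0)
    (l1 : Module.Dual (R ⊗[k] 𝒞.B1) N.P1) (hl : (dual N h).r0 l0 = (dual N h).r1 l1)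
    (p : N.P1) : (homToUnit h N l0 l1 hl).f1 p = l1 p := rfl

/-- Every morphism `N → O` comes from a section of the dual. -/
theorem dual_r0_eq_of_hom (h : 𝒞.IsGood) (N : Triple 𝒞 R)
    (f : Triple.Hom N (unitTriple 𝒞 R h)) :
    (dual N h).r0 f.f0 = f.f01 ∧ (dual N h).r1 f.f1 = f.f01 := by
  constructor
  · apply LinearMap.ext
    intro m
    obtain ⟨n, p, hp⟩ := N.surj0 m
    apply XX_pow_smul_cancel (unitTriple 𝒞 R h) n
    rw [← map_smul, ← map_smul, hp, f.comm0]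
    exact dual_r0_apply N h f.f0 p
  · apply LinearMap.ext
    intro m
    obtain ⟨n, p, hp⟩ := N.surj1 m
    have hu : IsUnit ((1 : R) ⊗ₜ[k] 𝒞.i1 𝒞.z1 : R ⊗[k] 𝒞.B01) :=
      IsUnit.of_mul_eq_one_right _ (Triple.unit_mul_unit 𝒞 R)
    obtain ⟨u, hu'⟩ := hu.pow n
    have key : ∀ a b : R ⊗[k] 𝒞.B01, (↑u : R ⊗[k] 𝒞.B01) • a = (↑u : R ⊗[k] 𝒞.B01) • b → a = b := by
      intro a b hab
      have h2 := congrArg (fun z => (↑(u⁻¹) : R ⊗[k] 𝒞.B01) • z) hab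
      simpa [smul_smul] using h2
    apply key
    rw [hu', ← map_smul, ← map_smul, hp, f.comm1]
    exact dual_r1_apply N h f.f1 p

/-- The value of `l(p)` at the base point. -/
def pair (N : Triple 𝒞 R) (l1 : Module.Dual (R ⊗[k] 𝒞.B1) N.P1) (p1 : N.P1) : R :=
  𝒞.eR R (l1 p1)

theorem eR_algebraMap (𝒞 : CurveDatum k) (R : Type u) [CommRing R] [Algebra k R] (c : R) :
    𝒞.eR R (algebraMap R (R ⊗[k] 𝒞.B1) c) = c :=
  (𝒞.eR R).commutes c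

/-- `l(p)` is the constant function `pair N l1 p1`. -/
theorem pair_spec (h : 𝒞.IsGood) (N : Triple 𝒞 R) (l0 : Module.Dual (R ⊗[k] 𝒞.B0) N.P0)
    (l1 : Module.Dual (R ⊗[k] 𝒞.B1) N.P1) (hl : (dual N h).r0 l0 = (dual N h).r1 l1)
    (p0 : N.P0) (p1 : N.P1) (hp : N.r0 p0 = N.r1 p1) :
    l0 p0 = algebraMap R (R ⊗[k] 𝒞.B0) (pair N l1 p1) ∧
      l1 p1 = algebraMap R (R ⊗[k] 𝒞.B1) (pair N l1 p1) := by
  have e : 𝒞.ι0 R (l0 p0) = 𝒞.ι1 R (l1 p1) := by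
    rw [← dual_r0_apply N h l0 p0, ← dual_r1_apply N h l1 p1, hl, hp]
  obtain ⟨c, hc0, hc1⟩ := h0_unit h (l0 p0) (l1 p1) e
  have hc : pair N l1 p1 = c := by
    unfold pair
    rw [hc1, eR_algebraMap]
  rw [hc]
  exact ⟨hc0, hc1⟩

theorem pair_spec0 (h : 𝒞.IsGood) (N : Triple 𝒞 R) (l0 : Module.Dual (R ⊗[k] 𝒞.B0) N.P0)
    (l1 : Module.Dual (R ⊗[k] 𝒞.B1) N.P1) (hl : (dual N h).r0 l0 = (dual N h).r1 l1)
    (p0 : N.P0) (p1 : N.P1) (hp : N.r0 p0 = N.r1 p1) :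
    l0 p0 = algebraMap R (R ⊗[k] 𝒞.B0) (pair N l1 p1) :=
  (pair_spec h N l0 l1 hl p0 p1 hp).1

theorem pair_spec1 (h : 𝒞.IsGood) (N : Triple 𝒞 R) (l0 : Module.Dual (R ⊗[k] 𝒞.B0) N.P0)
    (l1 : Module.Dual (R ⊗[k] 𝒞.B1) N.P1) (hl : (dual N h).r0 l0 = (dual N h).r1 l1)
    (p0 : N.P0) (p1 : N.P1) (hp : N.r0 p0 = N.r1 p1) :
    l1 p1 = algebraMap R (R ⊗[k] 𝒞.B1) (pair N l1 p1) :=
  (pair_spec h N l0 l1 hl p0 p1 hp).2

/-- A linear form on a module which takes a unit value is onto. -/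
theorem surjective_of_isUnit_apply {S : Type u} [CommRing S] {P : Type u} [AddCommGroup P]
    [Module S P] (l : Module.Dual S P) (p : P) (hu : IsUnit (l p)) : Function.Surjective l := by
  obtain ⟨u, hu'⟩ := hu
  intro b
  refine ⟨(b * (↑(u⁻¹) : S)) • p, ?_⟩
  rw [map_smul, ← hu', smul_eq_mul, mul_assoc, Units.inv_mul, mul_one]

/-- **Triviality criterion**: if a section of the dual takes a unit value on a section, then the triple
is trivial. -/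
def isoUnitOfPair (h : 𝒞.IsGood) (N : Triple 𝒞 R) (l0 : Module.Dual (R ⊗[k] 𝒞.B0) N.P0)
    (l1 : Module.Dual (R ⊗[k] 𝒞.B1) N.P1) (hl : (dual N h).r0 l0 = (dual N h).r1 l1)
    (p0 : N.P0) (p1 : N.P1) (hp : N.r0 p0 = N.r1 p1) (hu : IsUnit (pair N l1 p1)) :
    Triple.Iso N (unitTriple 𝒞 R h) :=
  isoOfSurjective h (homToUnit h N l0 l1 hl)
    (surjective_of_isUnit_apply l0 p0 (by
      rw [pair_spec0 h N l0 l1 hl p0 p1 hp]
      exact hu.map (algebraMap R (R ⊗[k] 𝒞.B0))))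
    (surjective_of_isUnit_apply l1 p1 (by
      rw [pair_spec1 h N l0 l1 hl p0 p1 hp]
      exact hu.map (algebraMap R (R ⊗[k] 𝒞.B1))))

theorem nonempty_iso_unit (h : 𝒞.IsGood) (N : Triple 𝒞 R) (l0 : Module.Dual (R ⊗[k] 𝒞.B0) N.P0)
    (l1 : Module.Dual (R ⊗[k] 𝒞.B1) N.P1) (hl : (dual N h).r0 l0 = (dual N h).r1 l1)
    (p0 : N.P0) (p1 : N.P1) (hp : N.r0 p0 = N.r1 p1) (hu : IsUnit (pair N l1 p1)) :
    Nonempty (Triple.Iso N (unitTriple 𝒞 R h)) :=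
  ⟨isoUnitOfPair h N l0 l1 hl p0 p1 hp hu⟩

/-! ### The same for elements of `H0` -/

/-- The first chart of a section. -/
def sec0 (N : Triple 𝒞 R) (s : N.H0) : N.P0 := s.1.1

/-- The second chart of a section. -/
def sec1 (N : Triple 𝒞 R) (s : N.H0) : N.P1 := s.1.2

theorem sec_spec (N : Triple 𝒞 R) (s : N.H0) : N.r0 (sec0 N s) = N.r1 (sec1 N s) := s.2

/-- The first chart of a section of the dual. -/
def dsec0 (h : 𝒞.IsGood) (N : Triple 𝒞 R) (s' : (dual N h).H0) :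
    Module.Dual (R ⊗[k] 𝒞.B0) N.P0 := s'.1.1

/-- The second chart of a section of the dual. -/
def dsec1 (h : 𝒞.IsGood) (N : Triple 𝒞 R) (s' : (dual N h).H0) :
    Module.Dual (R ⊗[k] 𝒞.B1) N.P1 := s'.1.2

theorem dsec_spec (h : 𝒞.IsGood) (N : Triple 𝒞 R) (s' : (dual N h).H0) :
    (dual N h).r0 (dsec0 h N s') = (dual N h).r1 (dsec1 h N s') := s'.2

/-- The pairing `H0(N^∨) × H0(N) → R`. -/
def pairH0 (h : 𝒞.IsGood) (N : Triple 𝒞 R) (s' : (dual N h).H0) (s : N.H0) : R :=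
  pair N (dsec1 h N s') (sec1 N s)

theorem pairH0_spec0 (h : 𝒞.IsGood) (N : Triple 𝒞 R) (s' : (dual N h).H0) (s : N.H0) :
    dsec0 h N s' (sec0 N s) = algebraMap R (R ⊗[k] 𝒞.B0) (pairH0 h N s' s) :=
  pair_spec0 h N _ _ (dsec_spec h N s') _ _ (sec_spec N s)

theorem pairH0_spec1 (h : 𝒞.IsGood) (N : Triple 𝒞 R) (s' : (dual N h).H0) (s : N.H0) :
    dsec1 h N s' (sec1 N s) = algebraMap R (R ⊗[k] 𝒞.B1) (pairH0 h N s' s) :=
  pair_spec1 h N _ _ (dsec_spec h N s') _ _ (sec_spec N s)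

theorem nonempty_iso_unit_H0 (h : 𝒞.IsGood) (N : Triple 𝒞 R) (s' : (dual N h).H0) (s : N.H0)
    (hu : IsUnit (pairH0 h N s' s)) : Nonempty (Triple.Iso N (unitTriple 𝒞 R h)) :=
  nonempty_iso_unit h N _ _ (dsec_spec h N s') _ _ (sec_spec N s) hu

/-- The section of a morphism `O → N`. -/
def h0OfHom (h : 𝒞.IsGood) (N : Triple 𝒞 R) (f : Triple.Hom (unitTriple 𝒞 R h) N) : N.H0 :=
  ⟨(f.f0 (1 : R ⊗[k] 𝒞.B0), f.f1 (1 : R ⊗[k] 𝒞.B1)), by
    show N.r0 (f.f0 (1 : R ⊗[k] 𝒞.B0)) = N.r1 (f.f1 (1 : R ⊗[k] 𝒞.B1))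
    rw [← f.comm0, ← f.comm1]
    show f.f01 (𝒞.ι0 R 1) = f.f01 (𝒞.ι1 R 1)
    rw [(𝒞.ι0 R).map_one, (𝒞.ι1 R).map_one]⟩

/-- `Hom(O, N) = H0(N)`. -/
def homUnitEquivH0 (h : 𝒞.IsGood) (N : Triple 𝒞 R) :
    Triple.Hom (unitTriple 𝒞 R h) N ≃ N.H0 where
  toFun f := h0OfHom h N f
  invFun s := homOfUnit h N (sec0 N s) (sec1 N s) (sec_spec N s)
  left_inv f := by
    apply hom_ext
    · apply LinearMap.ext
      intro a
      show a • f.f0 (1 : R ⊗[k] 𝒞.B0) = f.f0 a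
      rw [← map_smul, smul_eq_mul, mul_one]
    · apply LinearMap.ext
      intro a
      show a • f.f1 (1 : R ⊗[k] 𝒞.B1) = f.f1 a
      rw [← map_smul, smul_eq_mul, mul_one]
  right_inv s := by
    apply Subtype.ext
    apply Prod.ext
    · exact one_smul (R ⊗[k] 𝒞.B0) (sec0 N s)
    · exact one_smul (R ⊗[k] 𝒞.B1) (sec1 N s)

/-- The section of the dual of a morphism `N → O`. -/
def h0DualOfHom (h : 𝒞.IsGood) (N : Triple 𝒞 R) (f : Triple.Hom N (unitTriple 𝒞 R h)) :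
    (dual N h).H0 :=
  ⟨(f.f0, f.f1), by
    show (dual N h).r0 f.f0 = (dual N h).r1 f.f1
    rw [(dual_r0_eq_of_hom h N f).1, (dual_r0_eq_of_hom h N f).2]⟩

/-- `Hom(N, O) = H0(N^∨)`. -/
def homToUnitEquivH0 (h : 𝒞.IsGood) (N : Triple 𝒞 R) :
    Triple.Hom N (unitTriple 𝒞 R h) ≃ (dual N h).H0 where
  toFun f := h0DualOfHom h N f
  invFun s := homToUnit h N (dsec0 h N s) (dsec1 h N s) (dsec_spec h N s)
  left_inv f := hom_ext _ _ rfl rfl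
  right_inv s := rfl

end Fermat.Agent.S25.LB.H74
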